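import Mathlib
import Fermat.Prelude.Def_EllipticCurve_FrobeniusTrace
import Fermat.Agent.Lib.InertiaGlue
import Fermat.Agent.Lib.FrobExists
import Fermat.Agent.Lib.NoTotalSplit

/-!
# P5 [G4], algebraic half: weak Chebotarev from an inert prime

`InertStmt` is the ideal-level (analytic) input: in a cyclic Galois extension `M / L` of number
fields there is, away from any finite set of rational primes, a prime `q` of `L` such that no
prime above `q` in a subextension of prime degree has residue degree one.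

`weakChebotarev_of_inert : InertStmt → WeakChebStmt` turns it into the statement used by the
`S30` program: every element of `Gal(Qb/ℚ)` agrees, on a given finite Galois level `M`, with a
power of a Frobenius lift at some prime `ℓ` outside a given finite set.
-/

set_option autoImplicit false
set_option linter.unusedSectionVars false
set_option linter.style.haveILetI false

open NumberField

namespace Fermat.Agent.P5.WeakChebLift

open Fermat.Agent.Lib.InertiaGlue (Qb primeBelow mem_primeBelow toValuationSubring)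

/-- ANALYTIC INPUT, ideal level: a prime of `L`, away from the finite set `T` of rational primes,
over which no prime of a subextension `F / L` of prime degree has residue degree one. -/
def InertStmt : Prop :=
  ∀ (L M : Type) [Field L] [NumberField L] [Field M] [NumberField M] [Algebra L M]
    [IsGalois L M] [IsCyclic (M ≃ₐ[L] M)] (T : Finset ℕ),
    ∃ q : Ideal (𝓞 L), q.IsPrime ∧ q ≠ ⊥ ∧ (∀ ℓ ∈ T, (ℓ : 𝓞 L) ∉ q) ∧
      ∀ (F : IntermediateField L M), (Module.finrank L F).Prime →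
        ∀ P : Ideal (𝓞 F), P.IsPrime → P.under (𝓞 L) = q → Ideal.absNorm P ≠ Ideal.absNorm q

/-- WEAK CHEBOTAREV (Directive 6, [G4]): every `g` agrees on the finite Galois level `M` with a
power of a Frobenius lift at a prime outside `S`. -/
def WeakChebStmt : Prop :=
  ∀ (M : IntermediateField ℚ Qb) [FiniteDimensional ℚ M] [IsGalois ℚ M] (g : Qb ≃ₐ[ℚ] Qb)
    (S : Finset ℕ),
    ∃ ℓ : ℕ, ℓ.Prime ∧ ℓ ∉ S ∧ ∃ A : ValuationSubring Qb, A.LiesOverPrime ℓ ∧
      ∃ σ : Qb ≃ₐ[ℚ] Qb, A.IsFrobeniusAt σ ℓ ∧ ∃ j : ℕ, ∀ x ∈ M, (σ ^ j) x = g x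

/-! ### Group theory -/

/-- In a finite cyclic group every proper subgroup is contained in a subgroup of prime index. -/
theorem exists_prime_index_ge {G : Type*} [Group G] [IsCyclic G] [Finite G] (H : Subgroup G)
    (hH : H ≠ ⊤) : ∃ H' : Subgroup G, H ≤ H' ∧ H'.index.Prime := by
  classical
  let _ : CommGroup G := IsCyclic.commGroup
  have hidx : H.index ≠ 1 := fun h => hH (Subgroup.index_eq_one.mp h)
  obtain ⟨p, hp, hpd⟩ := Nat.exists_prime_and_dvd hidx
  have hcard : Nat.card (G ⧸ H) = H.index := rfl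
  let R : Subgroup (G ⧸ H) := (powMonoidHom p : (G ⧸ H) →* (G ⧸ H)).range
  have hR : R.index = p := by
    rw [IsCyclic.index_powMonoidHom_range, hcard]
    exact Nat.gcd_eq_right hpd
  refine ⟨R.comap (QuotientGroup.mk' H), ?_, ?_⟩
  · intro x hx
    rw [Subgroup.mem_comap]
    have : QuotientGroup.mk' H x = 1 := (QuotientGroup.eq_one_iff x).mpr hx
    rw [this]
    exact one_mem R
  · rw [Subgroup.index_comap_of_surjective R (QuotientGroup.mk'_surjective H), hR]
    exact hp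

/-! ### Congruences modulo a prime -/

section Congr

variable {M : Type*} [Field M] [NumberField M]

/-- Iterating a congruence `ψ y ≡ y ^ N (mod Q)`. -/
theorem pow_smul_sub_pow_mem {G : Type*} [Group G] [MulSemiringAction G (𝓞 M)]
    (Q : Ideal (𝓞 M)) (ψ : G) (N : ℕ)
    (hψ : ∀ y : 𝓞 M, ψ • y - y ^ N ∈ Q) (k : ℕ) :
    ∀ y : 𝓞 M, ψ ^ k • y - y ^ (N ^ k) ∈ Q := by
  induction k with
  | zero => intro y; simp
  | succ k ih =>
    intro y
    have h1 := ih (ψ • y)
    have h2 : (ψ • y) ^ (N ^ k) - (y ^ N) ^ (N ^ k) ∈ Q := by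
      obtain ⟨c, hc⟩ := sub_dvd_pow_sub_pow (ψ • y) (y ^ N) (N ^ k)
      rw [hc]
      exact Q.mul_mem_right _ (hψ y)
    have h3 : ψ ^ (k + 1) • y - y ^ (N ^ (k + 1)) =
        (ψ ^ k • (ψ • y) - (ψ • y) ^ (N ^ k)) + ((ψ • y) ^ (N ^ k) - (y ^ N) ^ (N ^ k)) := by
      rw [pow_succ, mul_smul, pow_succ, pow_mul]
      ring
    rw [h3]
    exact Q.add_mem h1 h2

end Congr

section Tower

variable (K L M : Type*) [Field K] [Field L] [Field M] [NumberField K] [NumberField L]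
  [NumberField M] [Algebra K L] [Algebra L M] [Algebra K M] [IsScalarTower K L M]

/-- Two automorphisms congruent to the same power map modulo a prime with trivial inertia group
coincide: the Frobenius over `L` is the `f`-th power of the Frobenius over `K`. -/
theorem restrictScalars_eq_pow (Q : Ideal (𝓞 M))
    (hI : Q.inertia (M ≃ₐ[K] M) = ⊥)
    (ψ : M ≃ₐ[K] M) (N : ℕ) (hψ : ∀ y : 𝓞 M, ψ • y - y ^ N ∈ Q)
    (φ : M ≃ₐ[L] M) (f : ℕ) (hφ : ∀ y : 𝓞 M, φ • y - y ^ (N ^ f) ∈ Q) :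
    φ.restrictScalars K = ψ ^ f := by
  have hpow := pow_smul_sub_pow_mem Q ψ N hψ f
  have hmem : ψ ^ f * (φ.restrictScalars K)⁻¹ ∈ Q.inertia (M ≃ₐ[K] M) := by
    intro y
    set z : 𝓞 M := (φ.restrictScalars K)⁻¹ • y with hz
    have hy : y = φ • z := by
      rw [hz]
      apply RingOfIntegers.ext
      show (y : M) = φ ((φ.restrictScalars K)⁻¹ (y : M))
      exact ((φ.restrictScalars K).apply_symm_apply (y : M)).symm
    have h1 := hpow z
    have h2 := hφ z
    have h3 : (ψ ^ f * (φ.restrictScalars K)⁻¹) • y - y =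
        (ψ ^ f • z - z ^ (N ^ f)) - (φ • z - z ^ (N ^ f)) := by
      rw [mul_smul, ← hz, hy]
      ring
    rw [h3]
    exact Q.sub_mem h1 h2
  rw [hI, Subgroup.mem_bot] at hmem
  exact (mul_inv_eq_one.mp hmem).symm

end Tower

/-! ### A Frobenius element at an inert prime generates -/

section Generate

variable (L M : Type*) [Field L] [Field M] [NumberField L] [NumberField M] [Algebra L M]
  [IsGalois L M] [IsCyclic (M ≃ₐ[L] M)]

/-- If no prime above `Q ∩ L` in a subextension of prime degree has residue degree one, a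
Frobenius element at `Q` generates the (cyclic) Galois group. -/
theorem zpowers_frob_eq_top (Q : Ideal (𝓞 M)) [hQp : Q.IsPrime] (hQ0 : Q ≠ ⊥)
    (φ : M ≃ₐ[L] M) (hφ : IsArithFrobAt (𝓞 L) φ Q)
    (hin : ∀ F : IntermediateField L M, (Module.finrank L F).Prime →
      ∀ P : Ideal (𝓞 F), P.IsPrime → P.under (𝓞 L) = Q.under (𝓞 L) →
        Ideal.absNorm P ≠ Ideal.absNorm (Q.under (𝓞 L))) :
    Subgroup.zpowers φ = ⊤ := by
  by_contra hne
  obtain ⟨H', hle, hprime⟩ := exists_prime_index_ge (Subgroup.zpowers φ) hne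
  set F : IntermediateField L M := IntermediateField.fixedField H' with hF
  have hrank : Module.finrank L F = H'.index := by
    have h1 : Module.finrank F M = Nat.card H' := IntermediateField.finrank_fixedField_eq_card H'
    have h2 : Module.finrank L F * Module.finrank F M = Module.finrank L M :=
      Module.finrank_mul_finrank L F M
    have h3 : Nat.card (M ≃ₐ[L] M) = Module.finrank L M := IsGalois.card_aut_eq_finrank L M
    have h4 : Nat.card H' * H'.index = Nat.card (M ≃ₐ[L] M) := Subgroup.card_mul_index H'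
    have h5 : 0 < Nat.card H' := Nat.card_pos
    rw [h1, ← h3, ← h4, mul_comm] at h2
    exact Nat.eq_of_mul_eq_mul_left h5 h2
  set P : Ideal (𝓞 F) := Q.under (𝓞 F) with hP
  have hPprime : P.IsPrime := Ideal.IsPrime.under (𝓞 F) Q
  have hP0 : P ≠ ⊥ := Ideal.IsIntegral.comap_ne_bot (𝓞 F) hQ0
  have hunder : P.under (𝓞 L) = Q.under (𝓞 L) := Ideal.under_under (A := 𝓞 L) (B := 𝓞 F) Q
  have hφF : ∀ x : F, φ (x : M) = x := by
    intro x
    have hx : (x : M) ∈ IntermediateField.fixedField H' := x.2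
    rw [IntermediateField.mem_fixedField_iff] at hx
    exact hx φ (hle (Subgroup.mem_zpowers φ))
  have hfr : ∀ x : 𝓞 F, x - x ^ Nat.card (𝓞 L ⧸ P.under (𝓞 L)) ∈ P := by
    intro x
    have hx := hφ (algebraMap (𝓞 F) (𝓞 M) x)
    rw [hunder, hP, Ideal.under, Ideal.mem_comap, map_sub, map_pow]
    have hfix : φ • algebraMap (𝓞 F) (𝓞 M) x = algebraMap (𝓞 F) (𝓞 M) x := by
      apply NumberField.RingOfIntegers.ext
      exact hφF (x : F)
    simp only [MulSemiringAction.toAlgHom_apply] at hx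
    rwa [hfix] at hx
  have habs := Fermat.Agent.Lib.NoTotalSplit.absNorm_eq_of_forall_sub_pow_mem hPprime hP0 hfr
  rw [hunder] at habs
  exact hin F (hrank ▸ hprime) P hPprime hunder habs

end Generate

/-! ### Unramified primes have trivial inertia -/

section Unram

variable (M : Type*) [Field M] [NumberField M] [IsGalois ℚ M]

/-- The "bad" number: the absolute norm of the different of `M / ℚ`. -/
noncomputable def badNat : ℕ := Ideal.absNorm (differentIdeal ℤ (𝓞 M))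

theorem badNat_ne_zero : badNat M ≠ 0 := by
  rw [badNat, Ne, Ideal.absNorm_eq_zero_iff]
  exact differentIdeal_ne_bot

/-- A prime of `𝓞 M` above a rational prime not dividing `badNat M` has trivial inertia group. -/
theorem inertia_eq_bot (Q : Ideal (𝓞 M)) [hQ : Q.IsPrime] (ℓ : ℕ) (hℓ : ℓ.Prime)
    (hℓQ : (ℓ : 𝓞 M) ∈ Q) (hℓD : ¬ ℓ ∣ badNat M) :
    Q.inertia (M ≃ₐ[ℚ] M) = ⊥ := by
  have hnd : ¬ Q ∣ differentIdeal ℤ (𝓞 M) := by
    intro hdvd
    have h1 : (badNat M : 𝓞 M) ∈ differentIdeal ℤ (𝓞 M) := Ideal.absNorm_mem _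
    have h2 : (badNat M : 𝓞 M) ∈ Q := Ideal.dvd_iff_le.mp hdvd h1
    have hcop : Nat.Coprime ℓ (badNat M) := (Nat.Prime.coprime_iff_not_dvd hℓ).mpr hℓD
    have h3 : ((Nat.gcd ℓ (badNat M) : ℕ) : ℤ) = ℓ * Nat.gcdA ℓ (badNat M) +
        badNat M * Nat.gcdB ℓ (badNat M) := Nat.gcd_eq_gcd_ab ℓ (badNat M)
    rw [hcop] at h3
    have h4 : (1 : 𝓞 M) = (ℓ : 𝓞 M) * (Nat.gcdA ℓ (badNat M) : 𝓞 M) +
        (badNat M : 𝓞 M) * (Nat.gcdB ℓ (badNat M) : 𝓞 M) := by
      have := congrArg (fun z : ℤ => (z : 𝓞 M)) h3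
      simpa using this
    apply hQ.ne_top
    rw [Ideal.eq_top_iff_one, h4]
    exact Q.add_mem (Q.mul_mem_right _ hℓQ) (Q.mul_mem_right _ h2)
  have hunr : Algebra.IsUnramifiedAt ℤ Q := not_dvd_differentIdeal_iff.mp hnd
  have := IsGaloisGroup.of_isFractionRing (M ≃ₐ[ℚ] M) ℤ (𝓞 M) ℚ M
  have h1 : Q.ramificationIdx ℤ = 1 := Ideal.ramificationIdx_eq_one_iff.mpr hunr
  have h2 : (Q.under ℤ).ramificationIdxIn (𝓞 M) = Q.ramificationIdx ℤ :=
    Ideal.ramificationIdxIn_eq_ramificationIdx (Q.under ℤ) Q (M ≃ₐ[ℚ] M)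
  have h3 : Nat.card (Ideal.inertia (M ≃ₐ[ℚ] M) Q) = (Q.under ℤ).ramificationIdxIn (𝓞 M) :=
    Ideal.card_inertia_eq_ramificationIdxIn (Q.under ℤ) Q
  rw [Subgroup.eq_bot_iff_card, h3, h2, h1]

end Unram

/-! ### Valuation subrings of `Qb` over a prime of a finite level -/

section Lift

variable (M : IntermediateField ℚ Qb)

/-- A valuation subring of `Qb` centred on a given proper ideal of the integers of `M`. -/
theorem exists_valuationSubring_over (Q : Ideal (𝓞 M)) (hQ : Q ≠ ⊤) :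
    ∃ A : ValuationSubring Qb, ∀ y ∈ Q, ((algebraMap (𝓞 M) M y : M) : Qb) ∈ A.nonunits := by
  let f : 𝓞 M →+* Qb := (algebraMap M Qb).comp (algebraMap (𝓞 M) M)
  have hf : Function.Injective f :=
    (algebraMap M Qb).injective.comp (RingOfIntegers.coe_injective)
  let g : 𝓞 M →+* f.range := f.rangeRestrict
  have hg : Function.Surjective g := f.rangeRestrict_surjective
  have hI : Q.map g ≠ ⊤ := by
    intro htop
    have h1 : (1 : f.range) ∈ Q.map g := by rw [htop]; trivial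
    obtain ⟨y, hy, hy1⟩ := (Ideal.mem_map_iff_of_surjective g hg).mp h1
    have h2 : f y = f 1 := by
      have := congrArg (fun z : f.range => (z : Qb)) hy1
      simpa [g] using this
    have h3 : y = 1 := hf h2
    exact hQ ((Ideal.eq_top_iff_one Q).mpr (h3 ▸ hy))
  obtain ⟨A, -, hA⟩ := Ideal.image_subset_nonunits_valuationSubring (Q.map g) hI
  refine ⟨A, fun y hy => ?_⟩
  exact hA ⟨g y, Ideal.mem_map_of_mem g hy, rfl⟩

/-- A Frobenius lift at a valuation subring of `Qb` restricts to an arithmetic Frobenius at the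
prime below in a finite normal level `M`. -/
theorem frob_restrict [Normal ℚ M] (A : ValuationSubring Qb) (σ : Qb ≃ₐ[ℚ] Qb) (ℓ : ℕ)
    (hσ : A.IsFrobeniusAt σ ℓ) (y : 𝓞 M) :
    (AlgEquiv.restrictNormalHom M σ) • y - y ^ ℓ ∈ primeBelow M A := by
  obtain ⟨hσA, hfr⟩ := hσ
  set a : A := toValuationSubring M A y with ha
  have h1 := hfr (IsLocalRing.residue A a)
  rw [← IsLocalRing.ResidueField.residue_smul, ← map_pow, ← sub_eq_zero, ← map_sub,
    IsLocalRing.residue_eq_zero_iff, ← ValuationSubring.coe_mem_nonunits_iff] at h1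
  rw [mem_primeBelow]
  have h2 : ((algebraMap (𝓞 M) M ((AlgEquiv.restrictNormalHom M σ) • y - y ^ ℓ) : M) : Qb) =
      (((⟨σ, hσA⟩ : A.decompositionSubgroup ℚ) • a - a ^ ℓ : A) : Qb) := by
    have h3 : ((algebraMap (𝓞 M) M ((AlgEquiv.restrictNormalHom M σ) • y) : M) : Qb) =
        σ ((algebraMap (𝓞 M) M y : M) : Qb) :=
      AlgEquiv.restrictNormal_commutes σ M (algebraMap (𝓞 M) M y)
    rw [map_sub, map_pow]
    have h4 : ((algebraMap (𝓞 M) M ((AlgEquiv.restrictNormalHom M σ) • y) -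
        algebraMap (𝓞 M) M y ^ ℓ : M) : Qb) =
        ((algebraMap (𝓞 M) M ((AlgEquiv.restrictNormalHom M σ) • y) : M) : Qb) -
          ((algebraMap (𝓞 M) M y : M) : Qb) ^ ℓ := rfl
    rw [h4, h3]
    rfl
  rw [h2]
  exact h1

end Lift

/-! ### Assembly -/

/-- **Weak Chebotarev from an inert prime.** -/
theorem weakChebotarev_of_inert (h : InertStmt) : WeakChebStmt := by
  intro M _ _ g S
  haveI : NumberField M := ⟨⟩
  -- the cyclic subgroup generated by `g|_M` and its fixed field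
  set γ : M ≃ₐ[ℚ] M := AlgEquiv.restrictNormalHom M g with hγ
  let H : Subgroup (M ≃ₐ[ℚ] M) := Subgroup.zpowers γ
  let L : IntermediateField ℚ M := IntermediateField.fixedField H
  have hfix : L.fixingSubgroup = H := IntermediateField.fixingSubgroup_fixedField H
  let e : L.fixingSubgroup ≃* (M ≃ₐ[L] M) := IntermediateField.fixingSubgroupEquiv L
  haveI : IsCyclic (M ≃ₐ[L] M) := by
    have hc : IsCyclic L.fixingSubgroup := by
      rw [hfix]
      infer_instance
    exact isCyclic_of_surjective e e.surjective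
  -- the inert prime
  obtain ⟨q, hqp, hq0, hqT, hin⟩ := h L M (S ∪ (badNat M).primeFactors)
  haveI := hqp
  obtain ⟨⟨Q, hQp, hQq⟩⟩ := q.nonempty_primesOver (S := 𝓞 M)
  haveI := hQp
  have hQunder : Q.under (𝓞 L) = q := hQq.over.symm
  have hQ0 : Q ≠ ⊥ := Ideal.ne_bot_of_liesOver_of_ne_bot hq0 Q
  have hQmax : Q.IsMaximal := hQp.isMaximal hQ0
  -- the residue characteristic
  haveI hqmax : q.IsMaximal := hqp.isMaximal hq0
  letI : Field (𝓞 L ⧸ q) := Ideal.Quotient.field q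
  haveI : Finite (𝓞 L ⧸ q) := Ideal.finiteQuotientOfFreeOfNeBot q hq0
  letI : Fintype (𝓞 L ⧸ q) := Fintype.ofFinite _
  obtain ⟨ℓ, hchar⟩ := CharP.exists (𝓞 L ⧸ q)
  haveI := hchar
  obtain ⟨f, hℓ, hcard⟩ := FiniteField.card (𝓞 L ⧸ q) ℓ
  have hℓq : (ℓ : 𝓞 L) ∈ q := by
    rw [← Ideal.Quotient.eq_zero_iff_mem, map_natCast]
    exact CharP.cast_eq_zero _ ℓ
  have hℓT : ℓ ∉ S ∪ (badNat M).primeFactors := fun hmem => hqT ℓ hmem hℓq
  have hℓS : ℓ ∉ S := fun hmem => hℓT (Finset.mem_union_left _ hmem)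
  have hℓD : ¬ ℓ ∣ badNat M := fun hdvd =>
    hℓT (Finset.mem_union_right _ (Nat.mem_primeFactors.mpr ⟨hℓ, hdvd, badNat_ne_zero M⟩))
  have hℓQ : (ℓ : 𝓞 M) ∈ Q := by
    have h1 : algebraMap (𝓞 L) (𝓞 M) (ℓ : 𝓞 L) ∈ Q := by
      have h2 : (ℓ : 𝓞 L) ∈ Q.under (𝓞 L) := hQunder ▸ hℓq
      exact h2
    rwa [map_natCast] at h1
  have hcardq : Nat.card (𝓞 L ⧸ Q.under (𝓞 L)) = ℓ ^ (f : ℕ) := by
    rw [hQunder, Nat.card_eq_fintype_card, hcard]
  -- the valuation subring and the Frobenius lift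
  obtain ⟨A, hA⟩ := exists_valuationSubring_over M Q hQmax.ne_top
  have hAℓ : A.LiesOverPrime ℓ := by
    have h1 := hA (ℓ : 𝓞 M) hℓQ
    have h2 : ((algebraMap (𝓞 M) M (ℓ : 𝓞 M) : M) : Qb) = (ℓ : Qb) := by
      rw [map_natCast]
      rfl
    rw [h2] at h1
    exact h1
  have hbelow : primeBelow M A = Q := by
    have hle : Q ≤ primeBelow M A := fun y hy => (mem_primeBelow M A y).mpr (hA y hy)
    exact (hQmax.eq_of_le (Ideal.IsPrime.ne_top inferInstance) hle).symm
  obtain ⟨σ, hσ⟩ := Fermat.Agent.Lib.FrobExists.exists_isFrobeniusAt A ℓ hℓ hAℓ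
  set ψ : M ≃ₐ[ℚ] M := AlgEquiv.restrictNormalHom M σ with hψdef
  have hψ : ∀ y : 𝓞 M, ψ • y - y ^ ℓ ∈ Q := fun y => hbelow ▸ frob_restrict M A σ ℓ hσ y
  -- the Frobenius over `L`
  haveI : Finite (𝓞 M ⧸ Q) := Ideal.finiteQuotientOfFreeOfNeBot Q hQ0
  obtain ⟨φ, hφ⟩ := IsArithFrobAt.exists_of_isInvariant (𝓞 L) (M ≃ₐ[L] M) Q
  have hφ' : ∀ y : 𝓞 M, φ • y - y ^ (ℓ ^ (f : ℕ)) ∈ Q := by
    intro y
    have := hφ y
    simp only [MulSemiringAction.toAlgHom_apply] at this
    rwa [hcardq] at this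
  have hgen : Subgroup.zpowers φ = ⊤ := by
    apply zpowers_frob_eq_top L M Q hQ0 φ hφ
    intro F hF P hP hPq
    rw [hQunder] at hPq ⊢
    exact hin F hF P hP hPq
  have hI : Q.inertia (M ≃ₐ[ℚ] M) = ⊥ := inertia_eq_bot M Q ℓ hℓ hℓQ hℓD
  have hres : φ.restrictScalars ℚ = ψ ^ (f : ℕ) :=
    restrictScalars_eq_pow ℚ L M Q hI ψ ℓ hψ φ f hφ'
  -- `γ` is a power of `φ`
  have hγH : γ ∈ L.fixingSubgroup := hfix ▸ Subgroup.mem_zpowers γ
  have hγφ : e ⟨γ, hγH⟩ ∈ Subgroup.zpowers φ := hgen ▸ Subgroup.mem_top _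
  rw [← mem_powers_iff_mem_zpowers] at hγφ
  obtain ⟨i, hi⟩ := hγφ
  have hγeq : γ = ψ ^ ((f : ℕ) * i) := by
    have h1 : (e ⟨γ, hγH⟩).restrictScalars ℚ = γ := by
      ext x
      rfl
    have h2 : (φ ^ i).restrictScalars ℚ = (φ.restrictScalars ℚ) ^ i :=
      map_pow (AlgEquiv.restrictScalarsHom ℚ : (M ≃ₐ[L] M) →* (M ≃ₐ[ℚ] M)) φ i
    have hi' : φ ^ i = e ⟨γ, hγH⟩ := hi
    rw [← h1, ← hi', h2, hres, pow_mul]
  refine ⟨ℓ, hℓ, hℓS, A, hAℓ, σ, hσ, (f : ℕ) * i, fun x hx => ?_⟩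
  have h1 : AlgEquiv.restrictNormalHom M (σ ^ ((f : ℕ) * i)) = AlgEquiv.restrictNormalHom M g := by
    rw [map_pow, ← hψdef, ← hγ, hγeq]
  have h2 := AlgEquiv.restrictNormal_commutes (σ ^ ((f : ℕ) * i)) M ⟨x, hx⟩
  have h3 := AlgEquiv.restrictNormal_commutes g M ⟨x, hx⟩
  have h4 : (σ ^ ((f : ℕ) * i)).restrictNormal M = g.restrictNormal M := h1
  rw [h4] at h2
  exact h2.symm.trans h3

end Fermat.Agent.P5.WeakChebLift
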