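import Mathlib
import Fermat.Agent.P5.WeakChebLift
import Fermat.Agent.Lib.WeakCheb.Plan

/-!
# P5 [G4]: weak Chebotarev from the finite-level Frobenius form

`weakChebotarev_of_frobGen : Lib.WeakCheb.FrobGenStmt → WeakChebStmt`: the lift of helper7's
finite-level statement (a prime `w` of a finite Galois `M / ℚ` such that `g` is a power of every
Frobenius at `w`) to valuation subrings and Frobenius lifts in `AlgebraicClosure ℚ`.
-/

set_option autoImplicit false
set_option linter.style.haveILetI false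

open NumberField

namespace Fermat.Agent.P5.WeakChebLift

open Fermat.Agent.Lib.InertiaGlue (Qb primeBelow mem_primeBelow)

/-- **Weak Chebotarev** ([G4]) from the finite-level Frobenius form. -/
theorem weakChebotarev_of_frobGen (h : Fermat.Agent.Lib.WeakCheb.FrobGenStmt) : WeakChebStmt := by
  intro M _ _ g S
  haveI : NumberField M := ⟨⟩
  set γ : M ≃ₐ[ℚ] M := AlgEquiv.restrictNormalHom M g with hγ
  obtain ⟨ℓ, w, hℓ, hℓS, hℓw, -, hgen⟩ := h M γ S
  have hwmax : w.asIdeal.IsMaximal := w.isMaximal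
  obtain ⟨A, hA⟩ := exists_valuationSubring_over M w.asIdeal hwmax.ne_top
  have hAℓ : A.LiesOverPrime ℓ := by
    have h1 := hA (ℓ : 𝓞 M) hℓw
    have h2 : ((algebraMap (𝓞 M) M (ℓ : 𝓞 M) : M) : Qb) = (ℓ : Qb) := by
      rw [map_natCast]
      rfl
    rw [h2] at h1
    exact h1
  have hbelow : primeBelow M A = w.asIdeal := by
    have hle : w.asIdeal ≤ primeBelow M A := fun y hy => (mem_primeBelow M A y).mpr (hA y hy)
    exact (hwmax.eq_of_le (Ideal.IsPrime.ne_top inferInstance) hle).symm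
  obtain ⟨σ, hσ⟩ := Fermat.Agent.Lib.FrobExists.exists_isFrobeniusAt A ℓ hℓ hAℓ
  set ψ : M ≃ₐ[ℚ] M := AlgEquiv.restrictNormalHom M σ with hψdef
  have hψ : ∀ y : 𝓞 M, ψ • y - y ^ ℓ ∈ w.asIdeal := fun y =>
    hbelow ▸ frob_restrict M A σ ℓ hσ y
  have hmem : γ ∈ Subgroup.zpowers ψ := hgen ψ hψ
  rw [← mem_powers_iff_mem_zpowers] at hmem
  obtain ⟨j, hj⟩ := hmem
  have hj' : ψ ^ j = γ := hj
  refine ⟨ℓ, hℓ, hℓS, A, hAℓ, σ, hσ, j, fun x hx => ?_⟩
  have h1 : AlgEquiv.restrictNormalHom M (σ ^ j) = AlgEquiv.restrictNormalHom M g := by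
    rw [map_pow, ← hψdef, ← hγ, hj']
  have h2 := AlgEquiv.restrictNormal_commutes (σ ^ j) M ⟨x, hx⟩
  have h3 := AlgEquiv.restrictNormal_commutes g M ⟨x, hx⟩
  have h4 : (σ ^ j).restrictNormal M = g.restrictNormal M := h1
  rw [h4] at h2
  exact h2.symm.trans h3

end Fermat.Agent.P5.WeakChebLift
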