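import Mathlib
import Fermat.Prelude.Def_CuspForm_HeckeGaloisRepDatum
import Fermat.Prelude.Def_ModularCurve_HeckeModule
import Fermat.Agent.S37.Core
import Fermat.Agent.P5.Per.Action
import Fermat.Agent.P5.WeakChebLift
import Fermat.Agent.P5.G9.Plan

/-!
# Program P5 (S30, S29, S42, S31): top-level block contracts and the spine (helper14)

Everything is a typed `Prop`; the two spine theorems at the end are proved.

## Contracts

* `LambdaStmt N`   [LAMBDA]  (analytic core; owners [KAPPA], [MODFUN], [EIS], [DESC], [UNR],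
  [HECKE-κ]): a compatible, Hecke-equivariant family `lam n : Lat N →+ J₀(N)[n]` out of the
  parabolic lattice `Lat N = parabolicHoms ℤ Γ₀(N) ℤ` with kernel `n • Lat N` (`lam n ψ` is the
  class with Kummer character `γ ↦ exp (2 π i ψ(γ) / n)`).
* `FinTorsion N p` [FIN]     (analytic; owner [KAPPA] with [ROOT], [MODFUN]): `J₀(N)[p^k]` finite.
* `S37.Core.CoreAll N p` [G1] (S37 program): inertia trivial and Eichler--Shimura on `J₀(N)[p^∞]`.
* `WeakChebLift.WeakChebStmt` [G4] (from `WeakChebLift.InertStmt`).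
* `EigVecStmt`     [EIGVEC]  (algebra; from `Per.heckeAct_injective`): a character of the Hecke
  algebra with values in a characteristic-zero domain has an eigenvector in `O ⊗ Lat N`.
* `Tate p N S O' χ` [TATE]   : a nonzero finite free `O'`-module with an adically continuous
  Galois action, unramified outside `N p`, on which every Frobenius at `ℓ ∉ S` satisfies
  `σ² - χ(T_ℓ) σ + ℓ = 0`.
* `TateBlock`      (owner [EIG]): `LambdaStmt → FinTorsion → CoreAll → Tate`.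
* `LatticeBlock`   (owner [G8]): `Tate → WeakChebStmt → S30Concl`.
* `ResidualBlock`  (owner [FROB-B]): `LambdaStmt → CoreAll → WeakChebStmt → S29` (no `FinTorsion`).

## Spine

* `s30Stmt_of_blocks` : the frozen S30 from the contracts;
* `s29Stmt_of_blocks` : the frozen S29 from the contracts (residual route).
-/

set_option autoImplicit false

open Polynomial CuspForm ModularCurve
open scoped TensorProduct

namespace Fermat.Agent.P5.Plan

open Fermat.Agent.P5.Per (Lat tcohL heckeAct)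

/-- `Q̄`. -/
abbrev Qb : Type := AlgebraicClosure ℚ

/-- The absolute Galois group of `ℚ`. -/
abbrev GQ : Type := Qb ≃ₐ[ℚ] Qb

/-! ### Analytic contracts -/

/-- **[LAMBDA]** the analytic core.  A family `lam n : Lat N →+ J₀(N)` with values in the
`n`-torsion, with kernel `n • Lat N`, compatible (`m • lam (n m) = lam n`) and Hecke-equivariant
(`T^coh_ℓ` on the lattice versus the Prelude's `heckeOperatorBar` on `J₀(N)`).
(`lam n ψ` is the class with Kummer character `γ ↦ exp (2 π i ψ(γ) / n)`.) -/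
def LambdaStmt (N : ℕ) [NeZero N] : Prop :=
  ∃ lam : ℕ → (Lat N →+ JZero N),
    (∀ (n : ℕ) (ψ : Lat N), n • lam n ψ = 0) ∧
    (∀ (n : ℕ) (ψ : Lat N), 0 < n → lam n ψ = 0 → ∃ ψ' : Lat N, ψ = n • ψ') ∧
    (∀ (n m : ℕ) (ψ : Lat N), 0 < n → 0 < m → m • lam (n * m) ψ = lam n ψ) ∧
    (∀ (n : ℕ) (ℓ : ℕ) (hℓ : ℓ.Prime) (hℓN : ¬ ℓ ∣ N) (ψ : Lat N),
      lam n (tcohL N hℓ hℓN ψ) = heckeOperatorBar N ⟨ℓ, hℓ⟩ (lam n ψ))

/-- **[FIN]** finiteness of the `p`-power torsion of `J₀(N)(Q̄)`. -/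
def FinTorsion (N p : ℕ) [NeZero N] : Prop :=
  ∀ k : ℕ, {x : JZero N | p ^ k • x = 0}.Finite

/-! ### Algebraic contracts -/

/-- **[EIGVEC]** a character of the Hecke algebra with values in a domain of characteristic zero
has a nonzero eigenvector in `O ⊗ Lat N`. -/
def EigVecStmt : Prop :=
  ∀ (N : ℕ) [NeZero N] (S : Set ℕ) (hNS : ∀ q : ℕ, q.Prime → q ∣ N → q ∈ S)
    (O : Type) [CommRing O] [IsDomain O] [CharZero O]
    (χ : heckeAlgebra N 2 S →+* O),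
    ∃ v : O ⊗[ℤ] Lat N, v ≠ 0 ∧
      ∀ t : heckeAlgebra N 2 S, LinearMap.lTensor O (heckeAct N S hNS t) v = χ t • v

/-- **[TATE]** the output of the eigen-transfer block: a nonzero finite free module with an
adically continuous Galois action, unramified outside `N p`, satisfying the Eichler--Shimura
relation with the eigenvalues of `χ`. -/
def Tate (p N : ℕ) [NeZero N] (S : Finset ℕ) (O' : Type) [CommRing O'] [IsLocalRing O']
    (χ : heckeAlgebra N 2 (↑S : Set ℕ) →+* O') : Prop :=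
  ∃ (W : Type) (_ : AddCommGroup W) (_ : Module O' W) (_ : Module.Free O' W)
    (_ : Module.Finite O' W) (ρ : GQ →* Module.End O' W),
    Nontrivial W ∧ GaloisActionIsAdicContinuous O' ρ ∧
    (∀ q : ℕ, q.Prime → ¬ q ∣ N → q ≠ p → ∀ P : ValuationSubring Qb, P.LiesOverPrime q →
      ∀ σ ∈ P.inertiaSubgroupIn ℚ, ρ σ = 1) ∧
    (∀ (ℓ : ℕ) (hℓ : ℓ.Prime) (hℓN : ¬ ℓ ∣ N) (hℓS : ℓ ∉ (↑S : Set ℕ)),
      ∀ A : ValuationSubring Qb, A.LiesOverPrime ℓ → ∀ σ : GQ, A.IsFrobeniusAt σ ℓ →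
        ρ σ * ρ σ - χ (heckeAlgebra.T hℓ hℓN hℓS) • ρ σ + (ℓ : O') • (1 : Module.End O' W) = 0)

/-- The conclusion of the frozen S30 at fixed parameters. -/
def S30Concl (p N : ℕ) [NeZero N] (S : Finset ℕ) (𝒪' : Type) [CommRing 𝒪'] [IsDomain 𝒪']
    [IsDiscreteValuationRing 𝒪'] (χ : heckeAlgebra N 2 (↑S : Set ℕ) →+* 𝒪') : Prop :=
  ∃ (𝒪'' : Type) (_ : CommRing 𝒪'') (_ : IsDomain 𝒪'') (_ : IsDiscreteValuationRing 𝒪'')
    (_ : IsAdicComplete (IsLocalRing.maximalIdeal 𝒪'') 𝒪'')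
    (_ : Finite (IsLocalRing.ResidueField 𝒪'')) (_ : CharZero 𝒪'')
    (_ : Algebra 𝒪' 𝒪'') (_ : Module.Finite 𝒪' 𝒪'') (_ : IsLocalHom (algebraMap 𝒪' 𝒪'')),
  Function.Injective (algebraMap 𝒪' 𝒪'') ∧
  ∃ ρ : GaloisRepAdic 𝒪'',
    (∀ (ℓ : ℕ) (hℓ : ℓ.Prime) (hℓN : ¬ ℓ ∣ N) (hℓS : ℓ ∉ (↑S : Set ℕ)),
      ∀ A : ValuationSubring (AlgebraicClosure ℚ), A.LiesOverPrime ℓ →
        ∀ σ : AlgebraicClosure ℚ ≃ₐ[ℚ] AlgebraicClosure ℚ, A.IsFrobeniusAt σ ℓ →
          LinearMap.charpoly (ρ.ρ σ) =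
            X ^ 2 - C (algebraMap 𝒪' 𝒪'' (χ (CuspForm.heckeAlgebra.T hℓ hℓN hℓS))) * X
              + C ((ℓ : 𝒪''))) ∧
    (∀ q : ℕ, q.Prime → ¬ q ∣ N → q ≠ p → ρ.IsUnramifiedAt q)

/-- **[EIG] block contract**: the Tate module of `J₀(N)` tensored with `𝒪'`, cut down to the
`χ`-eigenlattice. -/
def TateBlock : Prop :=
  ∀ (p : ℕ) [Fact p.Prime] (N : ℕ) [NeZero N] (S : Finset ℕ)
    (_hpS : p ∈ S) (_hNS : ∀ q : ℕ, q.Prime → q ∣ N → q ∈ S)
    (𝒪' : Type) [CommRing 𝒪'] [IsDomain 𝒪'] [IsDiscreteValuationRing 𝒪']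
    [IsAdicComplete (IsLocalRing.maximalIdeal 𝒪') 𝒪'] [Finite (IsLocalRing.ResidueField 𝒪')]
    [CharZero 𝒪'] (_hp𝒪' : (p : 𝒪') ∈ IsLocalRing.maximalIdeal 𝒪')
    (χ : heckeAlgebra N 2 (↑S : Set ℕ) →+* 𝒪'),
    LambdaStmt N → FinTorsion N p → Fermat.Agent.S37.Core.CoreAll N p → Tate p N S 𝒪' χ

/-- **[G8] block contract**: from the eigenlattice to the two-dimensional representation. -/
def LatticeBlock : Prop :=
  ∀ (p : ℕ) [Fact p.Prime] (N : ℕ) [NeZero N] (S : Finset ℕ)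
    (_hpS : p ∈ S) (_hNS : ∀ q : ℕ, q.Prime → q ∣ N → q ∈ S)
    (𝒪' : Type) [CommRing 𝒪'] [IsDomain 𝒪'] [IsDiscreteValuationRing 𝒪']
    [IsAdicComplete (IsLocalRing.maximalIdeal 𝒪') 𝒪'] [Finite (IsLocalRing.ResidueField 𝒪')]
    [CharZero 𝒪'] (_hp𝒪' : (p : 𝒪') ∈ IsLocalRing.maximalIdeal 𝒪')
    (χ : heckeAlgebra N 2 (↑S : Set ℕ) →+* 𝒪'),
    Tate p N S 𝒪' χ → Fermat.Agent.P5.WeakChebLift.WeakChebStmt → S30Concl p N S 𝒪' χ

/-- **[FROB-B] block contract** (residual route): the frozen S29 at level `N > 0` and the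
prime `p`, without finiteness of the torsion. -/
def ResidualBlock : Prop :=
  ∀ (N : ℕ) [NeZero N] (p : ℕ) (_hp : p.Prime),
    LambdaStmt N → Fermat.Agent.S37.Core.CoreAll N p →
    Fermat.Agent.P5.WeakChebLift.WeakChebStmt →
    ∀ {g : CuspForm (CongruenceSubgroup.Gamma0 N) 2} (_hg : g.IsNormalizedEigenform)
      {k : Type} [Field k] [CharP k p] (φ : integralClosure ℤ ℂ →+* k),
      ∃ ρ : ResidualGaloisRep k, ρ.IsAttachedTo g φ ∧
        ∀ ℓ : ℕ, ℓ.Prime → ¬ ℓ ∣ N * p → ρ.IsUnramifiedAt ℓ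

/-- The level-zero case of S29 (there `Γ₀(0)` has infinite index; owner [G9]). -/
def LevelZeroStmt : Prop :=
  ∀ {g : CuspForm (CongruenceSubgroup.Gamma0 0) 2} (_hg : g.IsNormalizedEigenform)
    {p : ℕ} (_hp : p.Prime) {k : Type} [Field k] [CharP k p] (φ : integralClosure ℤ ℂ →+* k),
    ∃ ρ : ResidualGaloisRep k, ρ.IsAttachedTo g φ ∧
      ∀ ℓ : ℕ, ℓ.Prime → ¬ ℓ ∣ 0 * p → ρ.IsUnramifiedAt ℓ

/-! ### The spine -/

/-- **S30 from the block contracts.** -/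
theorem s30Stmt_of_blocks (hT : TateBlock) (hL : LatticeBlock)
    (hlam : ∀ (N : ℕ) [NeZero N], LambdaStmt N)
    (hfin : ∀ (N : ℕ) [NeZero N] (p : ℕ), p.Prime → FinTorsion N p)
    (hcore : ∀ (N : ℕ) [NeZero N] (p : ℕ), p.Prime → Fermat.Agent.S37.Core.CoreAll N p)
    (hcheb : Fermat.Agent.P5.WeakChebLift.WeakChebStmt) :
    Fermat.Agent.P5.G9.S30Stmt := by
  intro p _ N _ S hpS hNS 𝒪' _ _ _ _ _ _ hp𝒪' χ
  exact hL p N S hpS hNS 𝒪' hp𝒪' χ
    (hT p N S hpS hNS 𝒪' hp𝒪' χ (hlam N) (hfin N p Fact.out) (hcore N p Fact.out)) hcheb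

/-- **S29 from the block contracts** (residual route). -/
theorem s29Stmt_of_blocks (hR : ResidualBlock) (h0 : LevelZeroStmt)
    (hlam : ∀ (N : ℕ) [NeZero N], LambdaStmt N)
    (hcore : ∀ (N : ℕ) [NeZero N] (p : ℕ), p.Prime → Fermat.Agent.S37.Core.CoreAll N p)
    (hcheb : Fermat.Agent.P5.WeakChebLift.WeakChebStmt) :
    Fermat.Agent.P5.G9.S29Stmt := by
  intro N g hg p hp k _ _ φ
  rcases Nat.eq_zero_or_pos N with rfl | hN
  · exact h0 hg hp φ
  · have : NeZero N := ⟨hN.ne'⟩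
    exact hR N p hp (hlam N) (hcore N p hp) hcheb hg φ

end Fermat.Agent.P5.Plan
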