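/-
P5 block [G3] (helper31): the `p`-adic cyclotomic character `χ_cyc` of `G_ℚ`, its value on
Frobenius elements (`χ_cyc(Frob_ℓ) = ℓ` for `ℓ ≠ p`), triviality on inertia at `q ≠ p`,
finite-level continuity (`χ_cyc ≡ 1 mod p^k` on the stabiliser of `ℚ(μ_{p^k})`), and the
coefficient form `δ : G_ℚ →* Oˣ` for every `I`-adically complete ring `O` with `p ∈ I`
(in particular the complete discrete valuation rings of the frozen S30).

Vocabulary: `ValuationSubring.LiesOverPrime`, `ValuationSubring.IsFrobeniusAt`,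
`ValuationSubring.inertiaSubgroupIn` from the Prelude; Mathlib's `cyclotomicCharacter`.
-/
import Mathlib
import Fermat.Prelude.Def_EllipticCurve_FrobeniusTrace

set_option autoImplicit false

namespace Fermat.Agent.P5.CycloDelta

open IsLocalRing

/-! ### Frobenius and inertia on roots of unity of order prime to the residue characteristic -/

/-- In a domain, a `p`-power root of unity congruent to `1` modulo a proper ideal containing an
integer prime to `p` equals `1`. -/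
theorem eq_one_of_pow_eq_one_of_sub_mem {R : Type*} [CommRing R] [IsDomain R] (I : Ideal R)
    (hI : I ≠ ⊤) (p : ℕ) (m : ℕ) (hm : (m : R) ∈ I) (hmp : Nat.Coprime m p) :
    ∀ (k : ℕ) (w : R), w ^ p ^ k = 1 → w - 1 ∈ I → w = 1 := by
  have hgeom : ∀ (w : R) (i : ℕ), w - 1 ∈ I → w ^ i - 1 ∈ I := by
    intro w i hwI
    have : w ^ i - 1 = (w - 1) * ∑ j ∈ Finset.range i, w ^ j := by
      rw [mul_comm]; exact (geom_sum_mul w i).symm
    rw [this]; exact I.mul_mem_right _ hwI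
  intro k
  induction k with
  | zero => intro w hw _; simpa using hw
  | succ k ih =>
    intro w hw hwI
    have h1 : w ^ p = 1 := by
      apply ih
      · rw [← pow_mul, ← pow_succ']; exact hw
      · exact hgeom w p hwI
    by_contra hne
    have hsum : ∑ i ∈ Finset.range p, w ^ i = 0 := by
      have := geom_sum_mul w p
      rw [h1, sub_self] at this
      rcases mul_eq_zero.mp this with h | h
      · exact h
      · exact absurd (sub_eq_zero.mp h) hne
    have hpI : (p : R) ∈ I := by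
      have h2 : (p : R) = ∑ i ∈ Finset.range p, w ^ i - ∑ i ∈ Finset.range p, (w ^ i - 1) := by
        simp [Finset.sum_sub_distrib]
      rw [h2, hsum, zero_sub]
      apply I.neg_mem
      apply I.sum_mem
      intro i _
      exact hgeom w i hwI
    apply hI
    rw [Ideal.eq_top_iff_one]
    have hcop : IsCoprime (m : ℤ) (p : ℤ) := Nat.isCoprime_iff_coprime.mpr hmp
    obtain ⟨a, b, hab⟩ := hcop
    have : (1 : R) = (a : R) * m + (b : R) * p := by
      have := congrArg (Int.cast : ℤ → R) hab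
      push_cast at this
      exact this.symm
    rw [this]; exact I.add_mem (I.mul_mem_left _ hm) (I.mul_mem_left _ hpI)

/-- A root of unity lies in every valuation subring. -/
theorem mem_of_pow_eq_one {L : Type*} [Field L] (A : ValuationSubring L) {ζ : L} {n : ℕ}
    (hn : n ≠ 0) (hζ : ζ ^ n = 1) : ζ ∈ A := by
  rcases A.mem_or_inv_mem ζ with h | h
  · exact h
  · have h0 : ζ ≠ 0 := by
      rintro rfl
      rw [zero_pow hn] at hζ
      exact zero_ne_one hζ
    have : ζ = ζ⁻¹ ^ (n - 1) := by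
      have h1 : ζ * ζ ^ (n - 1) = 1 := by
        rw [← pow_succ', Nat.sub_add_cancel (Nat.pos_of_ne_zero hn)]; exact hζ
      rw [inv_pow]
      exact eq_inv_of_mul_eq_one_left h1
    rw [this]; exact pow_mem h _

/-- **Key lemma.** If `σ` lies in the decomposition group of a valuation subring `A` whose
residue characteristic divides an integer `q` prime to `p`, and `σ` acts on the residue field as
`x ↦ x ^ m`, then `σ ζ = ζ ^ m` for every `p`-power root of unity `ζ`. -/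
theorem apply_eq_pow_of_residue {K L : Type*} [Field K] [Field L] [Algebra K L]
    (A : ValuationSubring L) (σ : L ≃ₐ[K] L) (hσ : σ ∈ A.decompositionSubgroup K) (m : ℕ)
    (hres : ∀ x : ResidueField A, (⟨σ, hσ⟩ : A.decompositionSubgroup K) • x = x ^ m)
    (q p : ℕ) (hp : p ≠ 0) (hq : (q : L) ∈ A.nonunits) (hqp : q.Coprime p)
    (k : ℕ) (ζ : L) (hζ : ζ ^ p ^ k = 1) : σ ζ = ζ ^ m := by
  have hpk : p ^ k ≠ 0 := pow_ne_zero _ hp
  have hζA : ζ ∈ A := mem_of_pow_eq_one A hpk hζ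
  set g : A.decompositionSubgroup K := ⟨σ, hσ⟩ with hg
  set a : A := ⟨ζ, hζA⟩ with ha
  have ha1 : a ^ p ^ k = 1 := Subtype.ext (by simpa [ha] using hζ)
  set b : A := g • a with hb
  set c : A := a ^ m with hc
  have hbL : (b : L) = σ ζ := rfl
  have hb1 : b ^ p ^ k = 1 := by
    rw [hb, ← smul_pow', ha1, smul_one]
  have hc1 : c ^ p ^ k = 1 := by
    rw [hc, ← pow_mul, mul_comm, pow_mul, ha1, one_pow]
  have hbc : b - c ∈ maximalIdeal A := by
    rw [← residue_eq_zero_iff, map_sub, sub_eq_zero, hb, hc, ResidueField.residue_smul, map_pow]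
    exact hres _
  set d : A := c ^ (p ^ k - 1) with hd
  have hcd : c * d = 1 := by
    rw [hd, ← pow_succ', Nat.sub_add_cancel (Nat.pos_of_ne_zero hpk)]; exact hc1
  have hd1 : d ^ p ^ k = 1 := by
    rw [hd, ← pow_mul, mul_comm, pow_mul, hc1, one_pow]
  have hqA : (q : A) ∈ maximalIdeal A := by
    obtain ⟨hq1, hq2⟩ := (ValuationSubring.mem_nonunits_iff_exists_mem_maximalIdeal).mp hq
    have : (q : A) = ⟨(q : L), hq1⟩ := Subtype.ext (by simp)
    rw [this]; exact hq2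
  have hw : b * d = 1 := by
    apply eq_one_of_pow_eq_one_of_sub_mem (maximalIdeal A) (Ideal.IsPrime.ne_top inferInstance)
      p q hqA hqp k
    · rw [mul_pow, hb1, hd1, one_mul]
    · have : b * d - 1 = (b - c) * d := by rw [sub_mul, hcd]
      rw [this]; exact Ideal.mul_mem_right _ _ hbc
  have hbc' : b = c := by
    calc b = b * (c * d) := by rw [hcd, mul_one]
      _ = (b * d) * c := by ring
      _ = c := by rw [hw, one_mul]
  rw [← hbL, hbc', hc]
  simp [ha]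

/-! ### Mathlib's cyclotomic character: a uniqueness criterion -/

/-- If `g` raises every `p^k`-th root of unity to the `m`-th power, the cyclotomic character of
`g` is `m` modulo `p^k`. -/
theorem toZModPow_cyclotomicCharacter_of_apply {L : Type*} [Field L] (p : ℕ) [Fact p.Prime]
    [∀ i, HasEnoughRootsOfUnity L (p ^ i)] (g : L ≃+* L) (k m : ℕ)
    (h : ∀ t : L, t ^ p ^ k = 1 → g t = t ^ m) :
    PadicInt.toZModPow k ((cyclotomicCharacter L p g : ℤ_[p]ˣ) : ℤ_[p]) = (m : ZMod (p ^ k)) := by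
  rw [cyclotomicCharacter.toZModPow]
  symm
  apply modularCyclotomicCharacter.unique
  intro t ht
  have ht1 : (t : L) ^ p ^ k = 1 := by
    have := (mem_rootsOfUnity _ _).mp ht
    rw [← Units.val_pow_eq_pow_val, this, Units.val_one]
  rw [h _ ht1, ZMod.val_natCast]
  exact pow_eq_pow_mod m ht1

/-! ### The cyclotomic character of `G_ℚ` -/

/-- The absolute Galois group of `ℚ`, in the spelling of the frozen statements. -/
abbrev GQ : Type := AlgebraicClosure ℚ ≃ₐ[ℚ] AlgebraicClosure ℚ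

variable (p : ℕ) [Fact p.Prime]

/-- The `p`-adic cyclotomic character of `G_ℚ` (Mathlib's `cyclotomicCharacter` on the
underlying ring automorphism). -/
noncomputable def chi : GQ →* ℤ_[p]ˣ :=
  (cyclotomicCharacter (AlgebraicClosure ℚ) p).comp
    (MulSemiringAction.toRingAut GQ (AlgebraicClosure ℚ))

/-- `chi` is continuous for the Krull topology. -/
theorem chi_continuous : Continuous (chi p) :=
  cyclotomicCharacter.continuous p ℚ (AlgebraicClosure ℚ)

/-- Defining property of `chi`. -/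
theorem chi_spec (g : GQ) (k : ℕ) (ζ : AlgebraicClosure ℚ) (hζ : ζ ^ p ^ k = 1) :
    g ζ = ζ ^ (PadicInt.toZModPow k ((chi p g : ℤ_[p]ˣ) : ℤ_[p])).val :=
  cyclotomicCharacter.spec p (MulSemiringAction.toRingAut GQ (AlgebraicClosure ℚ) g) ζ hζ

/-- If `g` raises every `p^k`-th root of unity to the `m`-th power then `chi g ≡ m mod p^k`. -/
theorem toZModPow_chi_of_apply (g : GQ) (k m : ℕ)
    (h : ∀ t : AlgebraicClosure ℚ, t ^ p ^ k = 1 → g t = t ^ m) :
    PadicInt.toZModPow k ((chi p g : ℤ_[p]ˣ) : ℤ_[p]) = (m : ZMod (p ^ k)) :=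
  toZModPow_cyclotomicCharacter_of_apply p
    (MulSemiringAction.toRingAut GQ (AlgebraicClosure ℚ) g) k m h

theorem chi_sub_natCast_mem_of_apply (g : GQ) (k m : ℕ)
    (h : ∀ t : AlgebraicClosure ℚ, t ^ p ^ k = 1 → g t = t ^ m) :
    ((chi p g : ℤ_[p]ˣ) : ℤ_[p]) - (m : ℤ_[p]) ∈ Ideal.span {(p : ℤ_[p]) ^ k} := by
  rw [← PadicInt.ker_toZModPow, RingHom.mem_ker, map_sub, toZModPow_chi_of_apply p g k m h,
    map_natCast, sub_self]

/-- If `g` raises every `p`-power root of unity to the `m`-th power then `chi g = m`. -/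
theorem chi_eq_natCast_of_apply (g : GQ) (m : ℕ)
    (h : ∀ (k : ℕ) (t : AlgebraicClosure ℚ), t ^ p ^ k = 1 → g t = t ^ m) :
    ((chi p g : ℤ_[p]ˣ) : ℤ_[p]) = (m : ℤ_[p]) := by
  refine PadicInt.ext_of_toZModPow.mp fun k => ?_
  rw [toZModPow_chi_of_apply p g k m (h k), map_natCast]

/-- A Frobenius element at `ℓ ≠ p` raises `p`-power roots of unity to the `ℓ`-th power. -/
theorem frob_apply_rootOfUnity {ℓ : ℕ} (hℓ : ℓ.Prime) (hℓp : ℓ ≠ p)
    (A : ValuationSubring (AlgebraicClosure ℚ)) (hA : A.LiesOverPrime ℓ) (σ : GQ)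
    (hσ : A.IsFrobeniusAt σ ℓ) (k : ℕ) (ζ : AlgebraicClosure ℚ) (hζ : ζ ^ p ^ k = 1) :
    σ ζ = ζ ^ ℓ :=
  apply_eq_pow_of_residue A σ hσ.mem_decompositionSubgroup ℓ hσ.smul_residue_eq ℓ p
    (Fact.out : p.Prime).ne_zero hA ((Nat.coprime_primes hℓ Fact.out).mpr hℓp) k ζ hζ

/-- **`χ_cyc(Frob_ℓ) = ℓ`.** -/
theorem chi_frob {ℓ : ℕ} (hℓ : ℓ.Prime) (hℓp : ℓ ≠ p)
    (A : ValuationSubring (AlgebraicClosure ℚ)) (hA : A.LiesOverPrime ℓ) (σ : GQ)
    (hσ : A.IsFrobeniusAt σ ℓ) : ((chi p σ : ℤ_[p]ˣ) : ℤ_[p]) = (ℓ : ℤ_[p]) :=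
  chi_eq_natCast_of_apply p σ ℓ fun k ζ hζ => frob_apply_rootOfUnity p hℓ hℓp A hA σ hσ k ζ hζ

/-- Inertia at `q ≠ p` fixes the `p`-power roots of unity. -/
theorem inertia_apply_rootOfUnity {q : ℕ} (hq : q.Prime) (hqp : q ≠ p)
    (A : ValuationSubring (AlgebraicClosure ℚ)) (hA : A.LiesOverPrime q) (σ : GQ)
    (hσ : σ ∈ A.inertiaSubgroupIn ℚ) (k : ℕ) (ζ : AlgebraicClosure ℚ) (hζ : ζ ^ p ^ k = 1) :
    σ ζ = ζ := by
  obtain ⟨τ, hτ, rfl⟩ := hσ
  have hres : ∀ x : ResidueField A,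
      (⟨(τ : GQ), τ.2⟩ : A.decompositionSubgroup ℚ) • x = x ^ 1 := by
    intro x
    have := congrArg (fun e : RingAut (ResidueField A) => e x) (MonoidHom.mem_ker.mp hτ)
    simpa using this
  have := apply_eq_pow_of_residue A (τ : GQ) τ.2 1 hres q p
    (Fact.out : p.Prime).ne_zero hA ((Nat.coprime_primes hq Fact.out).mpr hqp) k ζ hζ
  simpa using this

/-- **`χ_cyc` is unramified outside `p`.** -/
theorem chi_inertia {q : ℕ} (hq : q.Prime) (hqp : q ≠ p)
    (A : ValuationSubring (AlgebraicClosure ℚ)) (hA : A.LiesOverPrime q) (σ : GQ)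
    (hσ : σ ∈ A.inertiaSubgroupIn ℚ) : chi p σ = 1 := by
  apply Units.ext
  have := chi_eq_natCast_of_apply p σ 1 fun k ζ hζ => by
    rw [pow_one]; exact inertia_apply_rootOfUnity p hq hqp A hA σ hσ k ζ hζ
  simpa using this

/-! ### The finite levels `ℚ(μ_{p^k})` -/

/-- The field `ℚ(μ_{p^k})` inside `AlgebraicClosure ℚ`. -/
noncomputable def level (k : ℕ) : IntermediateField ℚ (AlgebraicClosure ℚ) :=
  IntermediateField.adjoin ℚ
    ((Polynomial.X ^ p ^ k - 1 : Polynomial ℚ).rootSet (AlgebraicClosure ℚ))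

theorem mem_level {k : ℕ} {ζ : AlgebraicClosure ℚ} (hζ : ζ ^ p ^ k = 1) : ζ ∈ level p k := by
  apply IntermediateField.subset_adjoin
  rw [Polynomial.mem_rootSet]
  refine ⟨Polynomial.X_pow_sub_C_ne_zero (pow_pos (Fact.out : p.Prime).pos k) (1 : ℚ), ?_⟩
  simp [hζ]

instance level_finiteDimensional (k : ℕ) : FiniteDimensional ℚ (level p k) := by
  have : Polynomial.IsSplittingField ℚ (level p k) (Polynomial.X ^ p ^ k - 1 : Polynomial ℚ) :=
    IntermediateField.adjoin_rootSet_isSplittingField (IsAlgClosed.splits _)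
  exact Polynomial.IsSplittingField.finiteDimensional (level p k)
    (Polynomial.X ^ p ^ k - 1 : Polynomial ℚ)

instance level_normal (k : ℕ) : Normal ℚ (level p k) := by
  have : Polynomial.IsSplittingField ℚ (level p k) (Polynomial.X ^ p ^ k - 1 : Polynomial ℚ) :=
    IntermediateField.adjoin_rootSet_isSplittingField (IsAlgClosed.splits _)
  exact Normal.of_isSplittingField (Polynomial.X ^ p ^ k - 1 : Polynomial ℚ)

instance level_isGalois (k : ℕ) : IsGalois ℚ (level p k) := ⟨⟩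

/-- **Finite-level continuity**: `chi g ≡ 1 mod p^k` as soon as `g` fixes `ℚ(μ_{p^k})`. -/
theorem chi_sub_one_mem_of_fix (k : ℕ) (g : GQ) (hg : ∀ x ∈ level p k, g x = x) :
    ((chi p g : ℤ_[p]ˣ) : ℤ_[p]) - 1 ∈ Ideal.span {(p : ℤ_[p]) ^ k} := by
  have := chi_sub_natCast_mem_of_apply p g k 1 fun t ht => by
    rw [pow_one]; exact hg t (mem_level p ht)
  simpa using this

/-- `chi g ≡ chi h mod p^k` when `g` and `h` agree on `ℚ(μ_{p^k})`. -/
theorem chi_sub_mem_of_agree (k : ℕ) (g h : GQ) (hgh : ∀ x ∈ level p k, g x = h x) :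
    ((chi p g : ℤ_[p]ˣ) : ℤ_[p]) - ((chi p h : ℤ_[p]ˣ) : ℤ_[p]) ∈
      Ideal.span {(p : ℤ_[p]) ^ k} := by
  rw [← PadicInt.ker_toZModPow, RingHom.mem_ker, map_sub, sub_eq_zero]
  rw [toZModPow_chi_of_apply p g k (PadicInt.toZModPow k ((chi p h : ℤ_[p]ˣ) : ℤ_[p])).val
    (fun t ht => by rw [hgh t (mem_level p ht)]; exact chi_spec p h k t ht)]
  have : NeZero (p ^ k) := ⟨pow_ne_zero _ (Fact.out : p.Prime).ne_zero⟩
  exact ZMod.natCast_zmod_val _

/-! ### The canonical ring hom `ℤ_p → O` for an adically complete ring with `p ∈ I` -/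

section padicHom

variable {O : Type*} [CommRing O] (I : Ideal O)

omit [Fact p.Prime] in
theorem natCast_pow_quot_eq_zero (hp : (p : O) ∈ I) (n : ℕ) :
    (((p ^ n : ℕ) : O ⧸ I ^ n)) = 0 := by
  have : (((p ^ n : ℕ) : O ⧸ I ^ n)) = Ideal.Quotient.mk (I ^ n) ((p : O) ^ n) := by
    push_cast; rfl
  rw [this, Ideal.Quotient.eq_zero_iff_mem]
  exact Ideal.pow_mem_pow hp n

/-- The finite-level maps `ℤ_p → ℤ/p^n → O/I^n`. -/
noncomputable def padicHomLevel (hp : (p : O) ∈ I) (n : ℕ) : ℤ_[p] →+* O ⧸ I ^ n :=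
  (ZMod.castHom (ringChar.dvd (natCast_pow_quot_eq_zero p I hp n)) (O ⧸ I ^ n)).comp
    (PadicInt.toZModPow n)

theorem padicHomLevel_compat (hp : (p : O) ∈ I) {m n : ℕ} (hle : m ≤ n) :
    (Ideal.Quotient.factorPow I hle).comp (padicHomLevel p I hp n) = padicHomLevel p I hp m := by
  unfold padicHomLevel
  rw [← PadicInt.zmod_cast_comp_toZModPow m n hle, ← RingHom.comp_assoc, ← RingHom.comp_assoc]
  congr 1
  exact RingHom.ext_zmod _ _

/-- The ring homomorphism `ℤ_p → O` for an `I`-adically complete ring `O` with `p ∈ I`. -/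
noncomputable def padicHom [IsAdicComplete I O] (hp : (p : O) ∈ I) : ℤ_[p] →+* O :=
  IsAdicComplete.liftRingHom I (padicHomLevel p I hp)
    (fun {_ _} hle => padicHomLevel_compat p I hp hle)

end padicHom

/-! ### The coefficient form `δ` -/

section delta

variable {p}
variable {R : Type*} [CommRing R]

/-- The character `δ = φ ∘ χ_cyc : G_ℚ →* Rˣ` attached to a ring hom `φ : ℤ_p → R`. -/
noncomputable def deltaOf (φ : ℤ_[p] →+* R) : GQ →* Rˣ :=
  (Units.map (φ : ℤ_[p] →* R)).comp (chi p)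

theorem deltaOf_apply (φ : ℤ_[p] →+* R) (g : GQ) :
    ((deltaOf φ g : Rˣ) : R) = φ ((chi p g : ℤ_[p]ˣ) : ℤ_[p]) := rfl

/-- **`δ(Frob_ℓ) = ℓ`.** -/
theorem deltaOf_frob (φ : ℤ_[p] →+* R) {ℓ : ℕ} (hℓ : ℓ.Prime) (hℓp : ℓ ≠ p)
    (A : ValuationSubring (AlgebraicClosure ℚ)) (hA : A.LiesOverPrime ℓ) (σ : GQ)
    (hσ : A.IsFrobeniusAt σ ℓ) : ((deltaOf φ σ : Rˣ) : R) = (ℓ : R) := by
  rw [deltaOf_apply, chi_frob p hℓ hℓp A hA σ hσ, map_natCast]

/-- **`δ` is unramified outside `p`.** -/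
theorem deltaOf_inertia (φ : ℤ_[p] →+* R) {q : ℕ} (hq : q.Prime) (hqp : q ≠ p)
    (A : ValuationSubring (AlgebraicClosure ℚ)) (hA : A.LiesOverPrime q) (σ : GQ)
    (hσ : σ ∈ A.inertiaSubgroupIn ℚ) : deltaOf φ σ = 1 := by
  rw [deltaOf, MonoidHom.comp_apply, chi_inertia p hq hqp A hA σ hσ, map_one]

theorem map_mem_pow_of_mem_span (φ : ℤ_[p] →+* R) (I : Ideal R) (hp : (p : R) ∈ I) (k : ℕ)
    {x : ℤ_[p]} (hx : x ∈ Ideal.span {(p : ℤ_[p]) ^ k}) : φ x ∈ I ^ k := by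
  obtain ⟨y, rfl⟩ := Ideal.mem_span_singleton'.mp hx
  rw [map_mul, map_pow, map_natCast]
  exact Ideal.mul_mem_left _ _ (Ideal.pow_mem_pow hp k)

/-- `δ g ≡ m mod I^k` when `g` raises the `p^k`-th roots of unity to the `m`-th power. -/
theorem deltaOf_sub_natCast_mem (φ : ℤ_[p] →+* R) (I : Ideal R) (hp : (p : R) ∈ I) (k : ℕ)
    (g : GQ) (m : ℕ) (h : ∀ t : AlgebraicClosure ℚ, t ^ p ^ k = 1 → g t = t ^ m) :
    ((deltaOf φ g : Rˣ) : R) - (m : R) ∈ I ^ k := by
  have := map_mem_pow_of_mem_span φ I hp k (chi_sub_natCast_mem_of_apply p g k m h)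
  rwa [map_sub, map_natCast] at this

/-- **Finite-level continuity of `δ`**: `δ g ≡ 1 mod I^k` as soon as `g` fixes `ℚ(μ_{p^k})`. -/
theorem deltaOf_sub_one_mem (φ : ℤ_[p] →+* R) (I : Ideal R) (hp : (p : R) ∈ I) (k : ℕ)
    (g : GQ) (hg : ∀ x ∈ level p k, g x = x) : ((deltaOf φ g : Rˣ) : R) - 1 ∈ I ^ k := by
  have := map_mem_pow_of_mem_span φ I hp k (chi_sub_one_mem_of_fix p k g hg)
  rwa [map_sub, map_one] at this

/-- `δ g ≡ δ h mod I^k` when `g` and `h` agree on `ℚ(μ_{p^k})`. -/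
theorem deltaOf_sub_mem_of_agree (φ : ℤ_[p] →+* R) (I : Ideal R) (hp : (p : R) ∈ I) (k : ℕ)
    (g h : GQ) (hgh : ∀ x ∈ level p k, g x = h x) :
    ((deltaOf φ g : Rˣ) : R) - ((deltaOf φ h : Rˣ) : R) ∈ I ^ k := by
  have := map_mem_pow_of_mem_span φ I hp k (chi_sub_mem_of_agree p k g h hgh)
  rwa [map_sub] at this

/-- Description of `δ` modulo `I^k` through the action on `μ_{p^k}`. -/
theorem deltaOf_spec (φ : ℤ_[p] →+* R) (I : Ideal R) (hp : (p : R) ∈ I) (k : ℕ) (g : GQ) :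
    ∃ m : ℕ, (∀ ζ : AlgebraicClosure ℚ, ζ ^ p ^ k = 1 → g ζ = ζ ^ m) ∧
      ((deltaOf φ g : Rˣ) : R) - (m : R) ∈ I ^ k :=
  ⟨_, fun ζ hζ => chi_spec p g k ζ hζ,
    deltaOf_sub_natCast_mem φ I hp k g _ fun ζ hζ => chi_spec p g k ζ hζ⟩

/-- `δ` as a monoid hom `G_ℚ →* R` (the shape consumed by `Lib/LucasClosure`). -/
noncomputable def deltaVal (φ : ℤ_[p] →+* R) : GQ →* R :=
  (Units.coeHom R).comp (deltaOf φ)

theorem deltaVal_apply (φ : ℤ_[p] →+* R) (g : GQ) :
    deltaVal φ g = φ ((chi p g : ℤ_[p]ˣ) : ℤ_[p]) := rfl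

theorem deltaVal_eq_coe (φ : ℤ_[p] →+* R) (g : GQ) :
    deltaVal φ g = ((deltaOf φ g : Rˣ) : R) := rfl

theorem deltaVal_frob (φ : ℤ_[p] →+* R) {ℓ : ℕ} (hℓ : ℓ.Prime) (hℓp : ℓ ≠ p)
    (A : ValuationSubring (AlgebraicClosure ℚ)) (hA : A.LiesOverPrime ℓ) (σ : GQ)
    (hσ : A.IsFrobeniusAt σ ℓ) : deltaVal φ σ = (ℓ : R) :=
  deltaOf_frob φ hℓ hℓp A hA σ hσ

theorem deltaVal_inertia (φ : ℤ_[p] →+* R) {q : ℕ} (hq : q.Prime) (hqp : q ≠ p)
    (A : ValuationSubring (AlgebraicClosure ℚ)) (hA : A.LiesOverPrime q) (σ : GQ)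
    (hσ : σ ∈ A.inertiaSubgroupIn ℚ) : deltaVal φ σ = 1 := by
  rw [deltaVal_eq_coe, deltaOf_inertia φ hq hqp A hA σ hσ, Units.val_one]

/-- **Adic continuity of `δ`**, verbatim in the shape of the hypothesis `hδ` of
`Lib/LucasClosure.exists_eq_smul_one_of_continuous` (and of the Prelude's
`GaloisActionIsAdicContinuous`). -/
theorem deltaVal_adicContinuous (φ : ℤ_[p] →+* R) (I : Ideal R) (hp : (p : R) ∈ I) :
    ∀ n : ℕ, ∃ L : IntermediateField ℚ (AlgebraicClosure ℚ), FiniteDimensional ℚ L ∧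
      ∀ σ : AlgebraicClosure ℚ ≃ₐ[ℚ] AlgebraicClosure ℚ, (∀ x ∈ L, σ x = x) →
        deltaVal φ σ - 1 ∈ I ^ n :=
  fun n => ⟨level p n, inferInstance, fun σ hσ => deltaOf_sub_one_mem φ I hp n σ hσ⟩

variable (p) in
/-- The cyclotomic character with values in an `I`-adically complete ring `O` with `p ∈ I`. -/
noncomputable def delta {O : Type*} [CommRing O] (I : Ideal O) [IsAdicComplete I O]
    (hp : (p : O) ∈ I) : GQ →* Oˣ :=
  deltaOf (padicHom p I hp)

/-- **[G3], packaged.** For every `I`-adically complete ring `O` with `p ∈ I` (e.g. a complete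
discrete valuation ring of residue characteristic `p` with `I` its maximal ideal) there is a
character `δ : G_ℚ →* Oˣ` with `δ(Frob_ℓ) = ℓ` for all `ℓ ≠ p`, trivial on inertia at all
`q ≠ p`, congruent to `1` modulo `I^k` on the pointwise stabiliser of a finite Galois
extension of `ℚ`, and described modulo `I^k` by the action on `μ_{p^k}`. -/
theorem exists_delta (p : ℕ) [Fact p.Prime] {O : Type*} [CommRing O] (I : Ideal O)
    [IsAdicComplete I O] (hp : (p : O) ∈ I) :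
    ∃ δ : GQ →* Oˣ,
      (∀ ℓ : ℕ, ℓ.Prime → ℓ ≠ p → ∀ A : ValuationSubring (AlgebraicClosure ℚ),
        A.LiesOverPrime ℓ → ∀ σ : GQ, A.IsFrobeniusAt σ ℓ → ((δ σ : Oˣ) : O) = (ℓ : O)) ∧
      (∀ q : ℕ, q.Prime → q ≠ p → ∀ A : ValuationSubring (AlgebraicClosure ℚ),
        A.LiesOverPrime q → ∀ σ ∈ A.inertiaSubgroupIn ℚ, δ σ = 1) ∧
      (∀ k : ℕ, ∃ M : IntermediateField ℚ (AlgebraicClosure ℚ),
        FiniteDimensional ℚ M ∧ IsGalois ℚ M ∧
        (∀ σ : GQ, (∀ x ∈ M, σ x = x) → ((δ σ : Oˣ) : O) - 1 ∈ I ^ k) ∧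
        (∀ σ τ : GQ, (∀ x ∈ M, σ x = τ x) → ((δ σ : Oˣ) : O) - ((δ τ : Oˣ) : O) ∈ I ^ k)) ∧
      (∀ (k : ℕ) (g : GQ), ∃ m : ℕ,
        (∀ ζ : AlgebraicClosure ℚ, ζ ^ p ^ k = 1 → g ζ = ζ ^ m) ∧
          ((δ g : Oˣ) : O) - (m : O) ∈ I ^ k) :=
  ⟨delta p I hp,
    fun _ hℓ hℓp A hA σ hσ => deltaOf_frob _ hℓ hℓp A hA σ hσ,
    fun _ hq hqp A hA σ hσ => deltaOf_inertia _ hq hqp A hA σ hσ,
    fun k => ⟨level p k, inferInstance, inferInstance,
      fun σ hσ => deltaOf_sub_one_mem _ I hp k σ hσ,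
      fun σ τ hστ => deltaOf_sub_mem_of_agree _ I hp k σ τ hστ⟩,
    fun k g => deltaOf_spec _ I hp k g⟩

end delta

end Fermat.Agent.P5.CycloDelta
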