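import Mathlib

/-!
# P5, block [G8]: lattices in subspaces (generic algebra)

`R` a principal ideal domain with fraction field `F`, `K ⊇ F` a field, `U ≤ K^ι` a subspace
spanned by vectors with coordinates in `F`.  Then `latt U = U ∩ R^ι` is a free `R`-module with a
basis that is a `K`-basis of `U`; a matrix over `R` that preserves `U` preserves `latt U`, and the
characteristic polynomial of the restriction to `U` is the image of the one on `latt U`.
-/

set_option autoImplicit false

open Polynomial

namespace Fermat.Agent.P5.Lattice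

/-! ### Linear independence under coordinatewise extension of scalars -/

/-- Linear independence over a field is preserved by coordinatewise extension of scalars. -/
theorem linearIndependent_pi_algebraMap {F K : Type*} [Field F] [Field K] [Algebra F K]
    {κ ι : Type*} (v : κ → ι → F) (hv : LinearIndependent F v) :
    LinearIndependent K (fun k i => algebraMap F K (v k i)) := by
  rw [linearIndependent_iff'] at hv ⊢
  intro s c hc k hk
  rw [← Module.forall_dual_apply_eq_zero_iff F]
  intro lam
  have h1 : ∑ j ∈ s, lam (c j) • v j = 0 := by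
    funext i
    have h2 := congrFun hc i
    simp only [Finset.sum_apply, Pi.smul_apply, smul_eq_mul, Pi.zero_apply] at h2 ⊢
    have h3 : ∀ j, lam (c j * algebraMap F K (v j i)) = lam (c j) * v j i := by
      intro j
      rw [mul_comm, ← Algebra.smul_def, map_smul, smul_eq_mul, mul_comm]
    rw [← Finset.sum_congr rfl (fun j _ => h3 j), ← map_sum, h2, map_zero]
  exact hv s (fun j => lam (c j)) h1 k hk

/-! ### The lattice of a subspace -/

section Lattice

variable (R K : Type*) [CommRing R] [Field K] [Algebra R K] (ι : Type*)

/-- The coordinatewise map `R^ι → K^ι`. -/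
def coordMap : (ι → R) →ₗ[R] (ι → K) := (Algebra.linearMap R K).compLeft ι

variable {R K ι}

theorem coordMap_apply (v : ι → R) (i : ι) : coordMap R K ι v i = algebraMap R K (v i) := rfl

theorem coordMap_smul (r : R) (v : ι → R) :
    coordMap R K ι (r • v) = algebraMap R K r • coordMap R K ι v := by
  rw [map_smul, algebraMap_smul]

/-- `latt U = U ∩ R^ι`. -/
def latt (U : Submodule K (ι → K)) : Submodule R (ι → R) :=
  (U.restrictScalars R).comap (coordMap R K ι)

theorem mem_latt {U : Submodule K (ι → K)} {v : ι → R} :
    v ∈ latt (R := R) U ↔ coordMap R K ι v ∈ U := Iff.rfl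

/-- The lattice is saturated. -/
theorem latt_saturated (hinj : Function.Injective (algebraMap R K)) {U : Submodule K (ι → K)}
    {r : R} (hr : r ≠ 0) {x : ι → R} (h : r • x ∈ latt (R := R) U) : x ∈ latt (R := R) U := by
  rw [mem_latt, coordMap_smul] at h
  have hr' : algebraMap R K r ≠ 0 := fun h0 => hr (hinj (by rw [h0, map_zero]))
  exact (U.smul_mem_iff hr').mp h

theorem coordMap_mulVec [Fintype ι] (A : Matrix ι ι R) (v : ι → R) :
    coordMap R K ι (A.mulVec v) = (A.map (algebraMap R K)).mulVec (coordMap R K ι v) := by
  funext i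
  exact RingHom.map_mulVec (algebraMap R K) A v i

/-- A matrix over `R` whose extension preserves `U` preserves `latt U`. -/
theorem mulVec_mem_latt [Fintype ι] {U : Submodule K (ι → K)} (A : Matrix ι ι R)
    (hA : ∀ u ∈ U, (A.map (algebraMap R K)).mulVec u ∈ U) {v : ι → R}
    (hv : v ∈ latt (R := R) U) : A.mulVec v ∈ latt (R := R) U := by
  rw [mem_latt, coordMap_mulVec]
  exact hA _ hv

end Lattice

section Basis

variable {R F K : Type*} [CommRing R] [IsDomain R] [IsPrincipalIdealRing R] [Field F] [Field K]
  [Algebra R F] [IsFractionRing R F] [Algebra F K] [Algebra R K] [IsScalarTower R F K]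
variable {ι : Type*} [Finite ι]

omit [IsPrincipalIdealRing R] in
theorem algebraMap_injective_of_tower (R F K : Type*) [CommRing R] [IsDomain R] [Field F]
    [Field K] [Algebra R F] [IsFractionRing R F] [Algebra F K] [Algebra R K]
    [IsScalarTower R F K] : Function.Injective (algebraMap R K) := by
  rw [IsScalarTower.algebraMap_eq R F K]
  exact (algebraMap F K).injective.comp (IsFractionRing.injective R F)

/-- **The lattice of a subspace defined over the fraction field**: `latt U` has an `R`-basis which
is (after the coordinatewise map) a `K`-basis of `U`. -/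
theorem exists_basis_latt (U : Submodule K (ι → K))
    (hU : ∃ (κ : Type) (w : κ → ι → F),
      U = Submodule.span K (Set.range fun k i => algebraMap F K (w k i))) :
    ∃ (d : ℕ) (b : Module.Basis (Fin d) R (latt (R := R) U)) (B : Module.Basis (Fin d) K U),
      ∀ k, ((B k : U) : ι → K) = coordMap R K ι (b k : ι → R) := by
  classical
  obtain ⟨κ, w, hw⟩ := hU
  obtain ⟨d, b⟩ := Submodule.basisOfPid (Pi.basisFun R ι) (latt (R := R) U)
  have hmem : ∀ k, coordMap R K ι (b k : ι → R) ∈ U := fun k => (b k).2
  -- linear independence
  have h1 : LinearIndependent R (fun k => ((b k : latt (R := R) U) : ι → R)) :=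
    b.linearIndependent.map' (latt (R := R) U).subtype (Submodule.ker_subtype _)
  have h2 : LinearIndependent R (fun k => fun i => algebraMap R F ((b k : ι → R) i)) := by
    have hker : LinearMap.ker ((Algebra.linearMap R F).compLeft ι) = ⊥ := by
      rw [LinearMap.ker_eq_bot]
      intro x y hxy
      funext i
      exact IsFractionRing.injective R F (congrFun hxy i)
    exact h1.map' ((Algebra.linearMap R F).compLeft ι) hker
  have h3 : LinearIndependent F (fun k => fun i => algebraMap R F ((b k : ι → R) i)) :=
    (LinearIndependent.iff_fractionRing R F).mp h2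
  have h4 : LinearIndependent K (fun k => coordMap R K ι (b k : ι → R)) := by
    have h5 := linearIndependent_pi_algebraMap (K := K) _ h3
    have h6 : (fun k => coordMap R K ι (b k : ι → R)) =
        fun k i => algebraMap F K (algebraMap R F ((b k : ι → R) i)) := by
      funext k i
      rw [coordMap_apply, IsScalarTower.algebraMap_apply R F K]
    rw [h6]
    exact h5
  -- spanning
  have hinj : Function.Injective (algebraMap R K) := algebraMap_injective_of_tower R F K
  have hspanR : ∀ x : ι → R, x ∈ latt (R := R) U →
      coordMap R K ι x ∈ Submodule.span K (Set.range fun k => coordMap R K ι (b k : ι → R)) := by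
    intro x hx
    have h := b.mem_span (⟨x, hx⟩ : latt (R := R) U)
    have h' := Submodule.mem_map_of_mem
      (f := (coordMap R K ι).comp (latt (R := R) U).subtype) h
    rw [Submodule.map_span, ← Set.range_comp] at h'
    exact Submodule.span_subset_span R K _ h'
  have h7 : Submodule.span K (Set.range fun k => coordMap R K ι (b k : ι → R)) = U := by
    apply le_antisymm
    · rw [Submodule.span_le]
      rintro _ ⟨k, rfl⟩
      exact hmem k
    · refine le_trans (le_of_eq hw) ?_
      rw [Submodule.span_le]
      rintro _ ⟨k, rfl⟩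
      obtain ⟨r, hr⟩ := IsLocalization.exist_integer_multiples_of_finite (nonZeroDivisors R) (w k)
      choose x hx using hr
      have hr0 : (r : R) ≠ 0 := nonZeroDivisors.ne_zero r.2
      have hr' : algebraMap R K (r : R) ≠ 0 := fun h0 => hr0 (hinj (by rw [h0, map_zero]))
      have hcx : coordMap R K ι x =
          algebraMap R K (r : R) • (fun i => algebraMap F K (w k i)) := by
        funext i
        rw [coordMap_apply, IsScalarTower.algebraMap_apply R F K, hx i, Pi.smul_apply,
          smul_eq_mul, Algebra.smul_def, map_mul, ← IsScalarTower.algebraMap_apply R F K]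
      have hwU : (fun i => algebraMap F K (w k i)) ∈ U := by
        rw [hw]
        exact Submodule.subset_span ⟨k, rfl⟩
      have hxl : x ∈ latt (R := R) U := by
        rw [mem_latt, hcx]
        exact U.smul_mem _ hwU
      have h8 := hspanR x hxl
      rw [hcx] at h8
      exact (Submodule.smul_mem_iff _ hr').mp h8
  -- the basis of `U`
  have hli : LinearIndependent K (fun k => (⟨coordMap R K ι (b k : ι → R), hmem k⟩ : U)) :=
    LinearIndependent.of_comp U.subtype h4
  have hsp : ⊤ ≤ Submodule.span K
      (Set.range fun k => (⟨coordMap R K ι (b k : ι → R), hmem k⟩ : U)) := by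
    intro u _
    have hu : (u : ι → K) ∈
        Submodule.span K (Set.range fun k => coordMap R K ι (b k : ι → R)) := by
      rw [h7]; exact u.2
    have h9 : Submodule.map U.subtype (Submodule.span K
        (Set.range fun k => (⟨coordMap R K ι (b k : ι → R), hmem k⟩ : U))) =
        Submodule.span K (Set.range fun k => coordMap R K ι (b k : ι → R)) := by
      rw [Submodule.map_span, ← Set.range_comp]
      rfl
    rw [← h9] at hu
    obtain ⟨u', hu', hu'eq⟩ := hu
    have : u' = u := Subtype.ext hu'eq
    rw [← this]
    exact hu'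
  refine ⟨d, b, Module.Basis.mk hli hsp, fun k => ?_⟩
  rw [Module.Basis.mk_apply]

end Basis

/-! ### Characteristic polynomials on the lattice and on the subspace -/

section Charpoly

variable {R K : Type*} [CommRing R] [Field K] [Algebra R K]
variable {ι : Type*} [Fintype ι] [DecidableEq ι]

omit [Fintype ι] [DecidableEq ι] in
theorem repr_coordMap {U : Submodule K (ι → K)} {d : ℕ}
    (b : Module.Basis (Fin d) R (latt (R := R) U)) (B : Module.Basis (Fin d) K U)
    (hB : ∀ k, ((B k : U) : ι → K) = coordMap R K ι (b k : ι → R))
    (x : latt (R := R) U) (hx : coordMap R K ι (x : ι → R) ∈ U) (i : Fin d) :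
    B.repr ⟨coordMap R K ι (x : ι → R), hx⟩ i = algebraMap R K (b.repr x i) := by
  have h1 : (⟨coordMap R K ι (x : ι → R), hx⟩ : U) =
      ∑ k, algebraMap R K (b.repr x k) • B k := by
    apply Subtype.ext
    have h2 := congrArg (fun y : latt (R := R) U => coordMap R K ι (y : ι → R)) (b.sum_repr x)
    simp only [Submodule.coe_sum, Submodule.coe_smul, map_sum, coordMap_smul] at h2
    rw [Submodule.coe_sum]
    simp only [Submodule.coe_smul, hB]
    exact h2.symm
  rw [h1, B.repr_sum_self]

omit [DecidableEq ι] in
/-- The characteristic polynomial of a stable matrix on `U` is the image of its characteristic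
polynomial on `latt U`. -/
theorem charpoly_restrict_latt {U : Submodule K (ι → K)} {d : ℕ}
    (b : Module.Basis (Fin d) R (latt (R := R) U)) (B : Module.Basis (Fin d) K U)
    (hB : ∀ k, ((B k : U) : ι → K) = coordMap R K ι (b k : ι → R))
    (A : Matrix ι ι R) (hA : ∀ u ∈ U, (A.map (algebraMap R K)).mulVec u ∈ U) :
    haveI := Module.Free.of_basis b
    haveI := Module.Finite.of_basis b
    ((Matrix.mulVecLin (A.map (algebraMap R K))).restrict hA).charpoly =
      (((Matrix.mulVecLin A).restrict
        (fun v (hv : v ∈ latt (R := R) U) => mulVec_mem_latt A hA hv)).charpoly).map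
          (algebraMap R K) := by
  have := Module.Free.of_basis b
  have := Module.Finite.of_basis b
  rw [← LinearMap.charpoly_toMatrix _ B, ← LinearMap.charpoly_toMatrix _ b, ← Matrix.charpoly_map]
  congr 1
  ext i j
  rw [LinearMap.toMatrix_apply, Matrix.map_apply, LinearMap.toMatrix_apply]
  have h1 : ((Matrix.mulVecLin (A.map (algebraMap R K))).restrict hA) (B j) =
      ⟨coordMap R K ι (((Matrix.mulVecLin A).restrict
        (fun v (hv : v ∈ latt (R := R) U) => mulVec_mem_latt A hA hv) (b j) :
          latt (R := R) U) : ι → R), by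
        have := ((Matrix.mulVecLin A).restrict
          (fun v (hv : v ∈ latt (R := R) U) => mulVec_mem_latt A hA hv) (b j)).2
        exact this⟩ := by
    apply Subtype.ext
    show (A.map (algebraMap R K)).mulVec ((B j : U) : ι → K) =
      coordMap R K ι (A.mulVec ((b j : latt (R := R) U) : ι → R))
    rw [hB, coordMap_mulVec]
  rw [h1]
  exact repr_coordMap b B hB _ _ i

end Charpoly

/-! ### Restriction of a matrix representation to a stable submodule -/

section Rep

variable {G : Type*} [Monoid G] {R : Type*} [CommRing R] {ι : Type*} [Fintype ι] [DecidableEq ι]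

/-- The restriction of a matrix representation to a stable submodule. -/
def restrictRep (N : G →* Matrix ι ι R) (V : Submodule R (ι → R))
    (hV : ∀ g, ∀ v ∈ V, (N g).mulVec v ∈ V) : G →* Module.End R V where
  toFun g := (Matrix.mulVecLin (N g)).restrict (hV g)
  map_one' := by
    apply LinearMap.ext
    intro v
    apply Subtype.ext
    show (N 1).mulVec (v : ι → R) = v
    rw [map_one, Matrix.one_mulVec]
  map_mul' g h := by
    apply LinearMap.ext
    intro v
    apply Subtype.ext
    show (N (g * h)).mulVec (v : ι → R) = (N g).mulVec ((N h).mulVec (v : ι → R))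
    rw [map_mul, Matrix.mulVec_mulVec]

theorem restrictRep_apply (N : G →* Matrix ι ι R) (V : Submodule R (ι → R))
    (hV : ∀ g, ∀ v ∈ V, (N g).mulVec v ∈ V) (g : G) (v : V) :
    ((restrictRep N V hV g v : V) : ι → R) = (N g).mulVec (v : ι → R) := rfl

theorem restrictRep_eq (N : G →* Matrix ι ι R) (V : Submodule R (ι → R))
    (hV : ∀ g, ∀ v ∈ V, (N g).mulVec v ∈ V) (g : G) :
    restrictRep N V hV g = (Matrix.mulVecLin (N g)).restrict (hV g) := rfl

/-- Change of coefficients of a matrix representation. -/
def mapRep {S : Type*} [CommRing S] (f : R →+* S) (N : G →* Matrix ι ι R) :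
    G →* Matrix ι ι S :=
  (RingHom.mapMatrix f).toMonoidHom.comp N

theorem mapRep_apply {S : Type*} [CommRing S] (f : R →+* S) (N : G →* Matrix ι ι R) (g : G) :
    mapRep f N g = (N g).map f := rfl

end Rep

/-! ### Minimal stable subspaces and fields of definition -/

section Minimal

variable {K X : Type*} [Field K] [AddCommGroup X] [Module K X] [FiniteDimensional K X]

/-- A nonzero subspace stable under a family of endomorphisms contains a minimal nonzero stable
subspace. -/
theorem exists_minimal_stable (S : Set (Module.End K X)) (W₀ : Submodule K X) (hW₀ : W₀ ≠ ⊥)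
    (hst : ∀ f ∈ S, ∀ w ∈ W₀, f w ∈ W₀) :
    ∃ U : Submodule K X, U ≤ W₀ ∧ U ≠ ⊥ ∧ (∀ f ∈ S, ∀ u ∈ U, f u ∈ U) ∧
      ∀ U' : Submodule K X, U' ≤ U → (∀ f ∈ S, ∀ u ∈ U', f u ∈ U') → U' = ⊥ ∨ U' = U := by
  classical
  let P : ℕ → Prop := fun n => ∃ U : Submodule K X, U ≤ W₀ ∧ U ≠ ⊥ ∧
    (∀ f ∈ S, ∀ u ∈ U, f u ∈ U) ∧ Module.finrank K U = n
  have hP : ∃ n, P n := ⟨_, W₀, le_rfl, hW₀, hst, rfl⟩
  obtain ⟨U, hU1, hU2, hU3, hU4⟩ := Nat.find_spec hP
  refine ⟨U, hU1, hU2, hU3, fun U' hU' hst' => ?_⟩
  by_cases h0 : U' = ⊥
  · exact Or.inl h0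
  · right
    have h1 : P (Module.finrank K U') := ⟨U', hU'.trans hU1, h0, hst', rfl⟩
    have h2 := Nat.find_min' hP h1
    rw [← hU4] at h2
    exact Submodule.eq_of_le_of_finrank_le hU' h2

end Minimal

section FieldOfDef

variable {E K : Type*} [Field E] [Field K] [Algebra E K] [Algebra.IsAlgebraic E K]

/-- A subspace of `K^ι` (`ι` finite, `K/E` algebraic) is spanned by vectors with coordinates in
a finite subextension. -/
theorem exists_field_of_definition {ι : Type*} [Finite ι] (U : Submodule K (ι → K)) :
    ∃ E'' : IntermediateField E K, FiniteDimensional E E'' ∧ ∃ (κ : Type) (w : κ → ι → E''),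
      U = Submodule.span K (Set.range fun k i => algebraMap E'' K (w k i)) := by
  classical
  let u := Module.finBasis K U
  let S : Set K := Set.range fun p : Fin (Module.finrank K U) × ι => ((u p.1 : U) : ι → K) p.2
  have hSfin : Finite S := (Set.finite_range _).to_subtype
  refine ⟨IntermediateField.adjoin E S,
    IntermediateField.finiteDimensional_adjoin (fun x _ => Algebra.IsIntegral.isIntegral x),
    Fin (Module.finrank K U),
    fun k i => ⟨((u k : U) : ι → K) i, IntermediateField.subset_adjoin E S ⟨(k, i), rfl⟩⟩, ?_⟩
  have h1 : (fun (k : Fin (Module.finrank K U)) (i : ι) =>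
      algebraMap (IntermediateField.adjoin E S) K
        ⟨((u k : U) : ι → K) i, IntermediateField.subset_adjoin E S ⟨(k, i), rfl⟩⟩) =
      fun k => ((u k : U) : ι → K) := rfl
  rw [h1]
  have h2 : Submodule.map U.subtype (Submodule.span K (Set.range u)) =
      Submodule.span K (Set.range fun k => ((u k : U) : ι → K)) := by
    rw [Submodule.map_span, ← Set.range_comp]
    rfl
  rw [← h2, u.span_eq, Submodule.map_subtype_top]

end FieldOfDef

/-! ### Membership in `I • ⊤` -/

section SmulTop

variable {R : Type*} [CommRing R]

theorem pi_mem_smul_top {ι : Type*} [Fintype ι] [DecidableEq ι] (I : Ideal R) (x : ι → R)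
    (h : ∀ i, x i ∈ I) : x ∈ I • (⊤ : Submodule R (ι → R)) := by
  rw [pi_eq_sum_univ x]
  exact Submodule.sum_mem _ (fun i _ => Submodule.smul_mem_smul (h i) Submodule.mem_top)

theorem repr_mem_of_mem_smul_top {M : Type*} [AddCommGroup M] [Module R M] {κ : Type*}
    (b : Module.Basis κ R M) (I : Ideal R) {x : M} (hx : x ∈ I • (⊤ : Submodule R M)) (k : κ) :
    b.repr x k ∈ I := by
  refine Submodule.smul_induction_on (p := fun x => b.repr x k ∈ I) hx ?_ ?_
  · intro r hr m _
    rw [map_smul, Finsupp.smul_apply, smul_eq_mul]
    exact I.mul_mem_right _ hr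
  · intro y z hy hz
    rw [map_add, Finsupp.add_apply]
    exact I.add_mem hy hz

end SmulTop

end Fermat.Agent.P5.Lattice
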