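import Mathlib
import Fermat.Prelude.Def_GaloisRep_Adic
import Fermat.Agent.P5.Lattice
import Fermat.Agent.Lib.AdjugateLemma
import Fermat.Agent.Lib.CompleteDVRExt

/-!
# P5, block [G8]: from a stable subspace with the scalar relation to a `GaloisRepAdic`

Abstract algebraic core of step 8 of the construction of the Galois representation attached to a
Hecke eigensystem (`S30`), in matrix coordinates.
-/

set_option autoImplicit false

open Polynomial

namespace Fermat.Agent.P5.Lattice

/-- The absolute Galois group of `ℚ`. -/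
abbrev GQ : Type := AlgebraicClosure ℚ ≃ₐ[ℚ] AlgebraicClosure ℚ

/-! ### Adic continuity of matrix representations -/

section Cont

/-- Adic continuity of a matrix representation of `GQ` over a local ring. -/
def MatCont {O : Type} [CommRing O] [IsLocalRing O] {ι : Type} [Fintype ι] [DecidableEq ι]
    (N : GQ →* Matrix ι ι O) : Prop :=
  ∀ n : ℕ, ∃ L : IntermediateField ℚ (AlgebraicClosure ℚ), FiniteDimensional ℚ L ∧
    ∀ σ : GQ, (∀ x ∈ L, σ x = x) → ∀ i j, (N σ - 1) i j ∈ IsLocalRing.maximalIdeal O ^ n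

theorem map_maximalIdeal_pow_le {O O'' : Type} [CommRing O] [IsLocalRing O] [CommRing O'']
    [IsLocalRing O''] (f : O →+* O'') [IsLocalHom f] (n : ℕ) :
    (IsLocalRing.maximalIdeal O ^ n).map f ≤ IsLocalRing.maximalIdeal O'' ^ n := by
  rw [Ideal.map_pow]
  exact Ideal.pow_right_mono (Ideal.map_le_iff_le_comap.mpr fun a ha =>
    Ideal.mem_comap.mpr (map_nonunit f a ha)) n

theorem MatCont.map {O O'' : Type} [CommRing O] [IsLocalRing O] [CommRing O''] [IsLocalRing O'']
    {ι : Type} [Fintype ι] [DecidableEq ι] (f : O →+* O'') [IsLocalHom f]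
    {N : GQ →* Matrix ι ι O} (hN : MatCont N) : MatCont (mapRep f N) := by
  intro n
  obtain ⟨L, hL, h⟩ := hN n
  refine ⟨L, hL, fun σ hσ i j => ?_⟩
  have h1 : (mapRep f N σ - 1) i j = f ((N σ - 1) i j) := by
    rw [mapRep_apply, Matrix.sub_apply, Matrix.sub_apply, Matrix.map_apply, map_sub,
      Matrix.one_apply, Matrix.one_apply]
    split_ifs <;> simp
  rw [h1]
  exact map_maximalIdeal_pow_le f n (Ideal.mem_map_of_mem f (h σ hσ i j))

/-- The lattice of a stable subspace is adically continuous. -/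
theorem isAdicContinuous_restrictRep_latt {O : Type} [CommRing O] [IsDomain O]
    [IsDiscreteValuationRing O] {K : Type*} [Field K] [Algebra O K]
    (hinj : Function.Injective (algebraMap O K)) {ι : Type} [Fintype ι] [DecidableEq ι]
    (N : GQ →* Matrix ι ι O) (hN : MatCont N) (U : Submodule K (ι → K))
    (hV : ∀ g, ∀ v ∈ latt (R := O) U, (N g).mulVec v ∈ latt (R := O) U) :
    GaloisActionIsAdicContinuous O (restrictRep N (latt (R := O) U) hV) := by
  intro n
  obtain ⟨L, hL, h⟩ := hN n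
  refine ⟨L, hL, fun σ hσ v => ?_⟩
  obtain ⟨ϖ, hϖ⟩ := IsDiscreteValuationRing.exists_irreducible O
  have hm : IsLocalRing.maximalIdeal O ^ n = Ideal.span {ϖ ^ n} := by
    rw [hϖ.maximalIdeal_eq, Ideal.span_singleton_pow]
  have hdvd : ∀ i j, ϖ ^ n ∣ (N σ - 1) i j := fun i j => by
    have h1 := h σ hσ i j
    rw [hm, Ideal.mem_span_singleton] at h1
    exact h1
  choose c hc using hdvd
  have hC : N σ - 1 = ϖ ^ n • Matrix.of c := by
    ext i j
    rw [Matrix.smul_apply, smul_eq_mul, Matrix.of_apply]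
    exact hc i j
  have hx : ϖ ^ n • (Matrix.of c).mulVec (v : ι → O) = (N σ).mulVec (v : ι → O) - v := by
    rw [← Matrix.smul_mulVec, ← hC, Matrix.sub_mulVec, Matrix.one_mulVec]
  have hxV : (Matrix.of c).mulVec (v : ι → O) ∈ latt (R := O) U := by
    refine latt_saturated hinj (pow_ne_zero n hϖ.ne_zero) ?_
    rw [hx]
    exact Submodule.sub_mem _ (hV σ v v.2) v.2
  have h2 : restrictRep N (latt (R := O) U) hV σ v - v =
      ϖ ^ n • (⟨(Matrix.of c).mulVec (v : ι → O), hxV⟩ : latt (R := O) U) := by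
    apply Subtype.ext
    rw [Submodule.coe_sub, restrictRep_apply, Submodule.coe_smul]
    exact hx.symm
  rw [h2]
  refine Submodule.smul_mem_smul ?_ Submodule.mem_top
  rw [hm]
  exact Ideal.mem_span_singleton_self _

end Cont

/-! ### The two packagings -/

section Pack

/-- The rank-two lattice of a two-dimensional stable subspace, as a `GaloisRepAdic`. -/
noncomputable def latticeRep {O : Type} [CommRing O] [IsDomain O] [IsDiscreteValuationRing O]
    {K : Type*} [Field K] [Algebra O K] (hinj : Function.Injective (algebraMap O K))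
    {ι : Type} [Fintype ι] [DecidableEq ι] (N : GQ →* Matrix ι ι O) (hN : MatCont N)
    (U : Submodule K (ι → K))
    (hV : ∀ g, ∀ v ∈ latt (R := O) U, (N g).mulVec v ∈ latt (R := O) U)
    (b : Module.Basis (Fin 2) O (latt (R := O) U)) : GaloisRepAdic O :=
  { V := latt (R := O) U
    instFree := Module.Free.of_basis b
    instFinite := Module.Finite.of_basis b
    finrank_eq := by rw [Module.finrank_eq_card_basis b, Fintype.card_fin]
    ρ := restrictRep N (latt (R := O) U) hV
    isAdicContinuous := isAdicContinuous_restrictRep_latt hinj N hN U hV }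

/-- The diagonal rank-two representation attached to two characters. -/
noncomputable def diagRep {O : Type} [CommRing O] (ψ₁ ψ₂ : GQ →* O) :
    GQ →* Module.End O (Fin 2 → O) where
  toFun g := Matrix.toLin' (Matrix.diagonal ![ψ₁ g, ψ₂ g])
  map_one' := by
    rw [map_one, map_one]
    have h : (![1, 1] : Fin 2 → O) = 1 := by
      funext i
      fin_cases i <;> rfl
    rw [h]
    simp
    rfl
  map_mul' g h := by
    rw [map_mul, map_mul, Module.End.mul_eq_comp, ← Matrix.toLin'_mul,
      Matrix.diagonal_mul_diagonal]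
    congr 2
    funext i
    fin_cases i <;> rfl

theorem diagRep_apply {O : Type} [CommRing O] (ψ₁ ψ₂ : GQ →* O) (g : GQ) :
    diagRep ψ₁ ψ₂ g = Matrix.toLin' (Matrix.diagonal ![ψ₁ g, ψ₂ g]) := rfl

theorem charpoly_diagRep {O : Type} [CommRing O] [Nontrivial O] (ψ₁ ψ₂ : GQ →* O) (g : GQ) :
    (diagRep ψ₁ ψ₂ g).charpoly = X ^ 2 - C (ψ₁ g + ψ₂ g) * X + C (ψ₁ g * ψ₂ g) := by
  rw [diagRep_apply, Matrix.charpoly_toLin', Matrix.charpoly_fin_two, Matrix.trace_fin_two,
    Matrix.det_fin_two]
  simp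

theorem isAdicContinuous_diagRep {O : Type} [CommRing O] [IsLocalRing O] (ψ₁ ψ₂ : GQ →* O)
    (h : ∀ n : ℕ, ∃ L : IntermediateField ℚ (AlgebraicClosure ℚ), FiniteDimensional ℚ L ∧
      ∀ σ : GQ, (∀ x ∈ L, σ x = x) → ψ₁ σ - 1 ∈ IsLocalRing.maximalIdeal O ^ n ∧
        ψ₂ σ - 1 ∈ IsLocalRing.maximalIdeal O ^ n) :
    GaloisActionIsAdicContinuous O (diagRep ψ₁ ψ₂) := by
  intro n
  obtain ⟨L, hL, hσL⟩ := h n
  refine ⟨L, hL, fun σ hσ v => ?_⟩
  obtain ⟨h1, h2⟩ := hσL σ hσ
  refine pi_mem_smul_top _ _ (fun i => ?_)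
  rw [Pi.sub_apply, diagRep_apply, Matrix.toLin'_apply, Matrix.mulVec_diagonal]
  have h3 : (![ψ₁ σ, ψ₂ σ] : Fin 2 → O) i * v i - v i = ((![ψ₁ σ, ψ₂ σ] : Fin 2 → O) i - 1) * v i := by
    ring
  rw [h3]
  refine Ideal.mul_mem_right _ _ ?_
  fin_cases i
  · exact h1
  · exact h2

/-- The diagonal representation as a `GaloisRepAdic`. -/
noncomputable def diagRepAdic {O : Type} [CommRing O] [IsLocalRing O] (ψ₁ ψ₂ : GQ →* O)
    (h : ∀ n : ℕ, ∃ L : IntermediateField ℚ (AlgebraicClosure ℚ), FiniteDimensional ℚ L ∧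
      ∀ σ : GQ, (∀ x ∈ L, σ x = x) → ψ₁ σ - 1 ∈ IsLocalRing.maximalIdeal O ^ n ∧
        ψ₂ σ - 1 ∈ IsLocalRing.maximalIdeal O ^ n) : GaloisRepAdic O :=
  { V := Fin 2 → O
    finrank_eq := Module.finrank_fin_fun O
    ρ := diagRep ψ₁ ψ₂
    isAdicContinuous := isAdicContinuous_diagRep ψ₁ ψ₂ h }

theorem diagRep_eq_one {O : Type} [CommRing O] (ψ₁ ψ₂ : GQ →* O) (g : GQ) (h1 : ψ₁ g = 1)
    (h2 : ψ₂ g = 1) : diagRep ψ₁ ψ₂ g = 1 := by
  rw [← map_one (diagRep ψ₁ ψ₂), diagRep_apply, diagRep_apply, h1, h2, map_one, map_one]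

end Pack

/-! ### The core: from a lattice basis to a `GaloisRepAdic` -/

section Core

variable {O' : Type} [CommRing O'] [IsLocalRing O']
  {O'' : Type} [CommRing O''] [IsDomain O''] [IsDiscreteValuationRing O'']
  [Algebra O' O''] [IsLocalHom (algebraMap O' O'')]
  {K : Type} [Field K] [Algebra O' K] [Algebra O'' K]
  {ι : Type} [Fintype ι] [DecidableEq ι]

omit [IsLocalRing O'] [IsDomain O''] [IsDiscreteValuationRing O''] [IsLocalHom (algebraMap O' O'')]
  [DecidableEq ι] [Fintype ι] in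
theorem map_map_algebraMap
    (hcomp : ∀ x : O', algebraMap O'' K (algebraMap O' O'' x) = algebraMap O' K x)
    (A : Matrix ι ι O') :
    (A.map (algebraMap O' O'')).map (algebraMap O'' K) = A.map (algebraMap O' K) := by
  ext i j
  rw [Matrix.map_apply, Matrix.map_apply, Matrix.map_apply, hcomp]

/-- Rank two: the lattice itself. -/
theorem exists_rep_of_lattice_two
    (hcomp : ∀ x : O', algebraMap O'' K (algebraMap O' O'' x) = algebraMap O' K x)
    (hinj : Function.Injective (algebraMap O'' K))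
    (M : GQ →* Matrix ι ι O') (hM : MatCont M) (δ : GQ →* O'ˣ)
    (U : Submodule K (ι → K))
    (hU : ∀ g, ∀ u ∈ U, ((M g).map (algebraMap O' K)).mulVec u ∈ U)
    (b : Module.Basis (Fin 2) O'' (latt (R := O'') U)) (B : Module.Basis (Fin 2) K U)
    (hB : ∀ k, ((B k : U) : ι → K) = coordMap O'' K ι (b k : ι → O''))
    (t : GQ → K)
    (hcp : ∀ g, (restrictRep (mapRep (algebraMap O' K) M) U hU g).charpoly =
      X ^ 2 - C (t g) * X + C (algebraMap O' K (δ g)))
    (hrel : ∀ g, ∀ w ∈ U, ((M g).map (algebraMap O' K)).mulVec w +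
      algebraMap O' K (δ g) • ((M g⁻¹).map (algebraMap O' K)).mulVec w = t g • w)
    (Fr : GQ → O' → O' → Prop)
    (hFr : ∀ σ a c, Fr σ a c → (δ σ : O') = c ∧ ∀ w ∈ U,
      ((M σ).map (algebraMap O' K)).mulVec (((M σ).map (algebraMap O' K)).mulVec w)
        - algebraMap O' K a • ((M σ).map (algebraMap O' K)).mulVec w
        + algebraMap O' K c • w = 0)
    (In : GQ → Prop) (hIn : ∀ σ, In σ → M σ = 1 ∧ δ σ = 1) :
    ∃ ρ : GaloisRepAdic O'',
      (∀ σ a c, Fr σ a c → LinearMap.charpoly (ρ.ρ σ) =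
        X ^ 2 - C (algebraMap O' O'' a) * X + C (algebraMap O' O'' c)) ∧
      (∀ σ, In σ → ρ.ρ σ = 1) := by
  have hmap := map_map_algebraMap (ι := ι) hcomp
  have hA : ∀ g, ∀ u ∈ U,
      ((mapRep (algebraMap O' O'') M g).map (algebraMap O'' K)).mulVec u ∈ U := by
    intro g u hu
    rw [mapRep_apply, hmap]
    exact hU g u hu
  have hV : ∀ g, ∀ v ∈ latt (R := O'') U,
      (mapRep (algebraMap O' O'') M g).mulVec v ∈ latt (R := O'') U :=
    fun g v hv => mulVec_mem_latt _ (hA g) hv
  have hne : ∃ u : ι → K, u ∈ U ∧ u ≠ 0 := by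
    refine ⟨(B 0 : U), (B 0).2, fun h0 => B.ne_zero 0 (Subtype.ext h0)⟩
  obtain ⟨u, huU, hu0⟩ := hne
  refine ⟨latticeRep hinj (mapRep (algebraMap O' O'') M) (hM.map (algebraMap O' O'')) U hV b,
    fun σ a c hσ => ?_, fun σ hσ => ?_⟩
  · obtain ⟨hc, hquad⟩ := hFr σ a c hσ
    apply Polynomial.map_injective (algebraMap O'' K) hinj
    have h1 := charpoly_restrict_latt b B hB (mapRep (algebraMap O' O'') M σ) (hA σ)
    have h2 : (Matrix.mulVecLin ((mapRep (algebraMap O' O'') M σ).map (algebraMap O'' K))).restrict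
        (hA σ) = restrictRep (mapRep (algebraMap O' K) M) U hU σ := by
      apply LinearMap.ext
      intro x
      apply Subtype.ext
      show ((mapRep (algebraMap O' O'') M σ).map (algebraMap O'' K)).mulVec (x : ι → K) =
        (mapRep (algebraMap O' K) M σ).mulVec (x : ι → K)
      rw [mapRep_apply, hmap, mapRep_apply]
    rw [h2, hcp σ] at h1
    -- identify `t σ`
    have h3 := hrel σ _ (hU σ u huU)
    have h4 : ((M σ⁻¹).map (algebraMap O' K)).mulVec (((M σ).map (algebraMap O' K)).mulVec u)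
        = u := by
      rw [Matrix.mulVec_mulVec, ← Matrix.map_mul, ← map_mul, inv_mul_cancel, map_one,
        Matrix.map_one _ (map_zero _) (map_one _), Matrix.one_mulVec]
    rw [h4] at h3
    have h5 := hquad u huU
    have h6 : (t σ - algebraMap O' K a) • ((M σ).map (algebraMap O' K)).mulVec u = 0 := by
      rw [sub_smul, ← h3]
      rw [← hc] at h5
      refine Eq.trans ?_ h5
      abel
    have h7 : ((M σ).map (algebraMap O' K)).mulVec u ≠ 0 := by
      intro h0
      rw [h0, Matrix.mulVec_zero] at h4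
      exact hu0 h4.symm
    have h8 : t σ = algebraMap O' K a := by
      rcases smul_eq_zero.mp h6 with h | h
      · exact sub_eq_zero.mp h
      · exact absurd h h7
    have h9 : (latticeRep hinj (mapRep (algebraMap O' O'') M) (hM.map (algebraMap O' O'')) U hV
        b).ρ σ = (Matrix.mulVecLin (mapRep (algebraMap O' O'') M σ)).restrict (hV σ) := rfl
    rw [h9]
    refine h1.symm.trans ?_
    rw [h8, hc]
    simp only [Polynomial.map_add, Polynomial.map_sub, Polynomial.map_mul, Polynomial.map_pow,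
      Polynomial.map_X, Polynomial.map_C, hcomp]
  · obtain ⟨h1, -⟩ := hIn σ hσ
    have hone : restrictRep (mapRep (algebraMap O' O'') M) (latt (R := O'') U) hV σ = 1 := by
      apply LinearMap.ext
      intro x
      apply Subtype.ext
      rw [restrictRep_apply, mapRep_apply, h1, Matrix.map_one _ (map_zero _) (map_one _),
        Matrix.one_mulVec]
      rfl
    exact hone

/-- Rank one: the character `ψ` of the lattice line, completed by `δ ψ⁻¹`. -/
theorem exists_rep_of_lattice_one
    (hcomp : ∀ x : O', algebraMap O'' K (algebraMap O' O'' x) = algebraMap O' K x)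
    (hinj : Function.Injective (algebraMap O'' K))
    (M : GQ →* Matrix ι ι O') (hM : MatCont M) (δ : GQ →* O'ˣ)
    (hδ : ∀ n : ℕ, ∃ L : IntermediateField ℚ (AlgebraicClosure ℚ), FiniteDimensional ℚ L ∧
      ∀ σ : GQ, (∀ x ∈ L, σ x = x) → (δ σ : O') - 1 ∈ IsLocalRing.maximalIdeal O' ^ n)
    (U : Submodule K (ι → K))
    (hU : ∀ g, ∀ u ∈ U, ((M g).map (algebraMap O' K)).mulVec u ∈ U)
    (b : Module.Basis (Fin 1) O'' (latt (R := O'') U))
    (Fr : GQ → O' → O' → Prop)
    (hFr : ∀ σ a c, Fr σ a c → (δ σ : O') = c ∧ ∀ w ∈ U,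
      ((M σ).map (algebraMap O' K)).mulVec (((M σ).map (algebraMap O' K)).mulVec w)
        - algebraMap O' K a • ((M σ).map (algebraMap O' K)).mulVec w
        + algebraMap O' K c • w = 0)
    (In : GQ → Prop) (hIn : ∀ σ, In σ → M σ = 1 ∧ δ σ = 1) :
    ∃ ρ : GaloisRepAdic O'',
      (∀ σ a c, Fr σ a c → LinearMap.charpoly (ρ.ρ σ) =
        X ^ 2 - C (algebraMap O' O'' a) * X + C (algebraMap O' O'' c)) ∧
      (∀ σ, In σ → ρ.ρ σ = 1) := by
  have hmap := map_map_algebraMap (ι := ι) hcomp
  have hA : ∀ g, ∀ u ∈ U,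
      ((mapRep (algebraMap O' O'') M g).map (algebraMap O'' K)).mulVec u ∈ U := by
    intro g u hu
    rw [mapRep_apply, hmap]
    exact hU g u hu
  have hV : ∀ g, ∀ v ∈ latt (R := O'') U,
      (mapRep (algebraMap O' O'') M g).mulVec v ∈ latt (R := O'') U :=
    fun g v hv => mulVec_mem_latt _ (hA g) hv
  have hrepr : ∀ v : latt (R := O'') U, v = b.repr v 0 • b 0 := by
    intro v
    conv_lhs => rw [← b.sum_repr v]
    rw [Fin.sum_univ_one]
  have hψ : ∀ g, restrictRep (mapRep (algebraMap O' O'') M) (latt (R := O'') U) hV g (b 0) =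
      b.repr (restrictRep (mapRep (algebraMap O' O'') M) (latt (R := O'') U) hV g (b 0)) 0 • b 0 :=
    fun g => hrepr _
  have hψ1 : b.repr (restrictRep (mapRep (algebraMap O' O'') M) (latt (R := O'') U) hV 1 (b 0)) 0
      = 1 := by
    rw [map_one, Module.End.one_apply, b.repr_self, Finsupp.single_eq_same]
  have hψmul : ∀ g h,
      b.repr (restrictRep (mapRep (algebraMap O' O'') M) (latt (R := O'') U) hV (g * h) (b 0)) 0 =
      b.repr (restrictRep (mapRep (algebraMap O' O'') M) (latt (R := O'') U) hV g (b 0)) 0 *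
      b.repr (restrictRep (mapRep (algebraMap O' O'') M) (latt (R := O'') U) hV h (b 0)) 0 := by
    intro g h
    conv_lhs => rw [map_mul, Module.End.mul_apply, hψ h, map_smul, hψ g, smul_smul, map_smul,
      b.repr_self, Finsupp.smul_apply, Finsupp.single_eq_same, smul_eq_mul, mul_one, mul_comm]
  let ψ : GQ →* O'' :=
    { toFun := fun g =>
        b.repr (restrictRep (mapRep (algebraMap O' O'') M) (latt (R := O'') U) hV g (b 0)) 0
      map_one' := hψ1
      map_mul' := hψmul }
  have hψdef : ∀ g, ψ g =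
      b.repr (restrictRep (mapRep (algebraMap O' O'') M) (latt (R := O'') U) hV g (b 0)) 0 :=
    fun _ => rfl
  let ψ₂ : GQ →* O'' :=
    { toFun := fun g => algebraMap O' O'' (δ g : O') * ψ g⁻¹
      map_one' := by rw [map_one, inv_one, map_one, Units.val_one, map_one, mul_one]
      map_mul' := fun g h => by
        rw [map_mul, mul_inv_rev, map_mul, Units.val_mul, map_mul]
        ring }
  have hψ₂def : ∀ g, ψ₂ g = algebraMap O' O'' (δ g : O') * ψ g⁻¹ := fun _ => rfl
  have hψinv : ∀ g, ψ g * ψ g⁻¹ = 1 := fun g => by rw [← map_mul, mul_inv_cancel, map_one]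
  have hcont : ∀ n : ℕ, ∃ L : IntermediateField ℚ (AlgebraicClosure ℚ), FiniteDimensional ℚ L ∧
      ∀ σ : GQ, (∀ x ∈ L, σ x = x) → ψ σ - 1 ∈ IsLocalRing.maximalIdeal O'' ^ n ∧
        ψ₂ σ - 1 ∈ IsLocalRing.maximalIdeal O'' ^ n := by
    intro n
    obtain ⟨L₁, hL₁, h1⟩ := isAdicContinuous_restrictRep_latt hinj
      (mapRep (algebraMap O' O'') M) (hM.map (algebraMap O' O'')) U hV n
    obtain ⟨L₂, hL₂, h2⟩ := hδ n
    refine ⟨L₁ ⊔ L₂, IntermediateField.finiteDimensional_sup L₁ L₂, fun σ hσ => ?_⟩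
    have hσ1 : ∀ x ∈ L₁, σ x = x := fun x hx => hσ x ((le_sup_left : L₁ ≤ L₁ ⊔ L₂) hx)
    have hσ2 : ∀ x ∈ L₂, σ x = x := fun x hx => hσ x ((le_sup_right : L₂ ≤ L₁ ⊔ L₂) hx)
    have hσ1' : ∀ x ∈ L₁, σ⁻¹ x = x := fun x hx => by
      have h3 : σ⁻¹ (σ x) = x := by
        rw [← AlgEquiv.mul_apply, inv_mul_cancel, AlgEquiv.one_apply]
      rw [hσ1 x hx] at h3
      exact h3
    have key : ∀ τ : GQ, (∀ x ∈ L₁, τ x = x) → ψ τ - 1 ∈ IsLocalRing.maximalIdeal O'' ^ n := by
      intro τ hτ
      have h3 := repr_mem_of_mem_smul_top b _ (h1 τ hτ (b 0)) 0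
      rw [map_sub, Finsupp.sub_apply, b.repr_self, Finsupp.single_eq_same] at h3
      exact h3
    refine ⟨key σ hσ1, ?_⟩
    have h4 : ψ₂ σ - 1 = algebraMap O' O'' (δ σ : O') * (ψ σ⁻¹ - 1) +
        algebraMap O' O'' ((δ σ : O') - 1) := by
      rw [hψ₂def, map_sub, map_one]
      ring
    rw [h4]
    exact Ideal.add_mem _ (Ideal.mul_mem_left _ _ (key σ⁻¹ hσ1'))
      (map_maximalIdeal_pow_le (algebraMap O' O'') n (Ideal.mem_map_of_mem _ (h2 σ hσ2)))
  refine ⟨diagRepAdic ψ ψ₂ hcont, fun σ a c hσ => ?_, fun σ hσ => ?_⟩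
  · obtain ⟨hc, hquad⟩ := hFr σ a c hσ
    have h1 : LinearMap.charpoly ((diagRepAdic ψ ψ₂ hcont).ρ σ) =
        LinearMap.charpoly (diagRep ψ ψ₂ σ) := rfl
    rw [h1, charpoly_diagRep]
    have hprod : ψ σ * ψ₂ σ = algebraMap O' O'' c := by
      rw [hψ₂def, mul_left_comm, hψinv, mul_one, hc]
    have hsum : ψ σ + ψ₂ σ = algebraMap O' O'' a := by
      have hu0 : coordMap O'' K ι (b 0 : ι → O'') ∈ U := (b 0).2
      have h2 := hquad _ hu0
      have h3 : ((M σ).map (algebraMap O' K)).mulVec (coordMap O'' K ι (b 0 : ι → O'')) =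
          algebraMap O'' K (ψ σ) • coordMap O'' K ι (b 0 : ι → O'') := by
        rw [← hmap, ← coordMap_mulVec, ← coordMap_smul]
        congr 1
        exact congrArg Subtype.val (hψ σ)
      rw [h3, Matrix.mulVec_smul, h3, smul_smul, smul_smul, ← sub_smul, ← add_smul] at h2
      have h4 : coordMap O'' K ι (b 0 : ι → O'') ≠ 0 := by
        intro h0
        have h00 : (b 0 : ι → O'') = 0 := by
          funext i
          have h01 := congrFun h0 i
          rw [coordMap_apply] at h01
          exact hinj (h01.trans (map_zero _).symm)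
        exact b.ne_zero 0 (Subtype.ext h00)
      have h5 : algebraMap O'' K (ψ σ) * algebraMap O'' K (ψ σ)
          - algebraMap O' K a * algebraMap O'' K (ψ σ) + algebraMap O' K c = 0 := by
        rcases smul_eq_zero.mp h2 with h | h
        · exact h
        · exact absurd h h4
      have h6 : ψ σ * ψ σ - algebraMap O' O'' a * ψ σ + algebraMap O' O'' c = 0 := by
        apply hinj
        rw [map_add, map_sub, map_mul, map_mul, hcomp, hcomp, map_zero]
        exact h5
      have h7 := hψinv σ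
      rw [hψ₂def, hc]
      linear_combination ψ σ⁻¹ * h6 + (algebraMap O' O'' a - ψ σ) * h7
    rw [hsum, hprod]
  · obtain ⟨h1, h2⟩ := hIn σ hσ
    have hone : ∀ τ : GQ, M τ = 1 → ψ τ = 1 := by
      intro τ hτ
      have h3 : restrictRep (mapRep (algebraMap O' O'') M) (latt (R := O'') U) hV τ (b 0) = b 0 := by
        apply Subtype.ext
        rw [restrictRep_apply, mapRep_apply, hτ, Matrix.map_one _ (map_zero _) (map_one _),
          Matrix.one_mulVec]
      rw [hψdef, h3, b.repr_self, Finsupp.single_eq_same]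
    have h3 : M σ⁻¹ = 1 := by
      have h4 : M σ⁻¹ * M σ = 1 := by rw [← map_mul, inv_mul_cancel, map_one]
      rw [h1, mul_one] at h4
      exact h4
    have h5 : ψ₂ σ = 1 := by
      rw [hψ₂def, hone σ⁻¹ h3, h2, Units.val_one, map_one, mul_one]
    exact diagRep_eq_one ψ ψ₂ σ (hone σ h1) h5

end Core

/-! ### The main theorem -/

section Main

/-- **[G8], matrix form.**  Let `O'` be a complete DVR of characteristic zero with finite residue
field, `E` its fraction field, `K ⊇ E` an algebraically closed algebraic extension, `M` an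
adically continuous matrix representation of `G_ℚ` over `O'`, and `δ` an adically continuous
character.  Let `WK ⊆ K^ι` be a nonzero stable subspace on which `g + δ(g) g⁻¹` is a scalar for
every `g`.  Then there are a finite extension `O''` of `O'` (again a complete DVR) and a
`GaloisRepAdic O''` such that every `σ` with `σ² - a σ + c = 0` on `WK` and `δ σ = c` (`Fr σ a c`)
has characteristic polynomial `X² - a X + c`, and every `σ` with `M σ = 1`, `δ σ = 1` (`In σ`)
acts trivially. -/
theorem exists_galoisRepAdic_of_matrix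
    (O' : Type) [CommRing O'] [IsDomain O'] [IsDiscreteValuationRing O']
    [IsAdicComplete (IsLocalRing.maximalIdeal O') O'] [Finite (IsLocalRing.ResidueField O')]
    [CharZero O']
    (E : Type) [Field E] [Algebra O' E] [IsFractionRing O' E]
    (K : Type) [Field K] [Algebra E K] [Algebra O' K] [IsScalarTower O' E K] [IsAlgClosed K]
    [Algebra.IsAlgebraic E K]
    {ι : Type} [Fintype ι] [DecidableEq ι]
    (M : GQ →* Matrix ι ι O') (hM : MatCont M)
    (δ : GQ →* O'ˣ)
    (hδ : ∀ n : ℕ, ∃ L : IntermediateField ℚ (AlgebraicClosure ℚ), FiniteDimensional ℚ L ∧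
      ∀ σ : GQ, (∀ x ∈ L, σ x = x) → (δ σ : O') - 1 ∈ IsLocalRing.maximalIdeal O' ^ n)
    (WK : Submodule K (ι → K)) (hWK : WK ≠ ⊥)
    (hstab : ∀ g, ∀ w ∈ WK, ((M g).map (algebraMap O' K)).mulVec w ∈ WK)
    (hrel : ∀ g, ∃ t : K, ∀ w ∈ WK, ((M g).map (algebraMap O' K)).mulVec w +
        algebraMap O' K (δ g) • ((M g⁻¹).map (algebraMap O' K)).mulVec w = t • w)
    (Fr : GQ → O' → O' → Prop)
    (hFr : ∀ σ a c, Fr σ a c → (δ σ : O') = c ∧ ∀ w ∈ WK,
        ((M σ).map (algebraMap O' K)).mulVec (((M σ).map (algebraMap O' K)).mulVec w)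
          - algebraMap O' K a • ((M σ).map (algebraMap O' K)).mulVec w
          + algebraMap O' K c • w = 0)
    (In : GQ → Prop) (hIn : ∀ σ, In σ → M σ = 1 ∧ δ σ = 1) :
    ∃ (O'' : Type) (_ : CommRing O'') (_ : IsDomain O'') (_ : IsDiscreteValuationRing O'')
      (_ : IsAdicComplete (IsLocalRing.maximalIdeal O'') O'')
      (_ : Finite (IsLocalRing.ResidueField O'')) (_ : CharZero O'')
      (_ : Algebra O' O'') (_ : Module.Finite O' O'') (_ : IsLocalHom (algebraMap O' O'')),
      Function.Injective (algebraMap O' O'') ∧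
      ∃ ρ : GaloisRepAdic O'',
        (∀ σ a c, Fr σ a c → LinearMap.charpoly (ρ.ρ σ) =
          X ^ 2 - C (algebraMap O' O'' a) * X + C (algebraMap O' O'' c)) ∧
        (∀ σ, In σ → ρ.ρ σ = 1) := by
  classical
  -- a minimal stable subspace
  obtain ⟨U, hUW, hU0, hUst, hUmin⟩ := exists_minimal_stable
    (Set.range fun g : GQ => Matrix.mulVecLin ((M g).map (algebraMap O' K))) WK hWK
    (by
      rintro _ ⟨g, rfl⟩ w hw
      exact hstab g w hw)
  have hU : ∀ g, ∀ u ∈ U, ((M g).map (algebraMap O' K)).mulVec u ∈ U :=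
    fun g u hu => hUst _ ⟨g, rfl⟩ u hu
  choose t ht using hrel
  have hnt : Nontrivial U := Submodule.nontrivial_iff_ne_bot.mpr hU0
  have hinjO'K : Function.Injective (algebraMap O' K) := algebraMap_injective_of_tower O' E K
  have : CharZero K := charZero_of_injective_algebraMap hinjO'K
  have h2 : (2 : K) ≠ 0 := two_ne_zero
  -- the adjugate lemma on `U`
  have hρ : ∀ g, restrictRep (mapRep (algebraMap O' K) M) U hU g +
      (((Units.map (algebraMap O' K).toMonoidHom).comp δ g : Kˣ) : K) •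
        restrictRep (mapRep (algebraMap O' K) M) U hU g⁻¹ = t g • LinearMap.id := by
    intro g
    apply LinearMap.ext
    intro u
    apply Subtype.ext
    exact ht g u (hUW u.2)
  have hirr : ∀ W : Submodule K U,
      (∀ g, ∀ u ∈ W, restrictRep (mapRep (algebraMap O' K) M) U hU g u ∈ W) → W = ⊥ ∨ W = ⊤ := by
    intro W hW
    rcases hUmin (W.map U.subtype) (Submodule.map_subtype_le U W) (by
      rintro _ ⟨g, rfl⟩ _ ⟨u, hu, rfl⟩
      exact ⟨restrictRep (mapRep (algebraMap O' K) M) U hU g u, hW g u hu, rfl⟩) with h | h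
    · left
      apply Submodule.map_injective_of_injective U.injective_subtype
      rw [h, Submodule.map_bot]
    · right
      apply Submodule.map_injective_of_injective U.injective_subtype
      rw [h, Submodule.map_subtype_top]
  obtain ⟨hdim, hcp⟩ := Fermat.Agent.Lib.AdjugateLemma.adjugate_of_irreducible
    (restrictRep (mapRep (algebraMap O' K) M) U hU)
    ((Units.map (algebraMap O' K).toMonoidHom).comp δ) t h2 hρ hirr
  -- a field of definition, and its ring of integers
  obtain ⟨E'', hE''fin, κ, w, hw⟩ := exists_field_of_definition (E := E) U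
  have := hE''fin
  have : IsScalarTower O' E'' K := IsScalarTower.of_algebraMap_eq (fun x => rfl)
  obtain ⟨O'', i1, i2, i3, i4, i5, i6, i7, i8, i9, i10, i11, i12, hinj, -, -, -⟩ :=
    Fermat.Agent.Lib.CompleteDVRExt.exists_ext O' E E''
  let : Algebra O'' K := ((algebraMap E'' K).comp (algebraMap O'' E'')).toAlgebra
  have : IsScalarTower O'' E'' K := IsScalarTower.of_algebraMap_eq (fun x => rfl)
  have hcomp : ∀ x : O', algebraMap O'' K (algebraMap O' O'' x) = algebraMap O' K x := by
    intro x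
    rw [IsScalarTower.algebraMap_apply O'' E'' K, ← IsScalarTower.algebraMap_apply O' O'' E'',
      ← IsScalarTower.algebraMap_apply O' E'' K]
  have hinjK : Function.Injective (algebraMap O'' K) := algebraMap_injective_of_tower O'' E'' K
  obtain ⟨d, b, B, hB⟩ := exists_basis_latt (R := O'') (F := E'') U ⟨κ, w, hw⟩
  have hd : Module.finrank K U = d := by rw [Module.finrank_eq_card_basis B, Fintype.card_fin]
  refine ⟨O'', i1, i2, i3, i4, i5, i6, i7, i8, i9, hinj, ?_⟩
  have hFrU : ∀ σ a c, Fr σ a c → (δ σ : O') = c ∧ ∀ w ∈ U,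
      ((M σ).map (algebraMap O' K)).mulVec (((M σ).map (algebraMap O' K)).mulVec w)
        - algebraMap O' K a • ((M σ).map (algebraMap O' K)).mulVec w
        + algebraMap O' K c • w = 0 :=
    fun σ a c hσ => ⟨(hFr σ a c hσ).1, fun w hw => (hFr σ a c hσ).2 w (hUW hw)⟩
  rcases hdim with h | h
  · have hd1 : d = 1 := by omega
    subst hd1
    exact exists_rep_of_lattice_one hcomp hinjK M hM δ hδ U hU b Fr hFrU In hIn
  · have hd2 : d = 2 := by omega
    subst hd2
    exact exists_rep_of_lattice_two hcomp hinjK M hM δ U hU b B hB t (fun g => hcp h g)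
      (fun g w hw => ht g w (hUW hw)) Fr hFrU In hIn

end Main

end Fermat.Agent.P5.Lattice

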