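import Mathlib
import Fermat.Agent.P5.Plan
import Fermat.Agent.P5.LatticeRep
import Fermat.Agent.P5.CycloDelta
import Fermat.Agent.Lib.LucasClosure

/-!
# P5, block [G8]: the block contract `Plan.LatticeBlock`

From the eigenlattice `Tate p N S 𝒪' χ` (a nonzero finite free `𝒪'`-module with an adically
continuous Galois action, unramified outside `N p`, satisfying the Eichler--Shimura relation with
the eigenvalues of `χ`) and weak Chebotarev to the conclusion of `S30`.

* closure step: `ρ g + δ(g) ρ g⁻¹` is a scalar for every `g` (`Lib/LucasClosure`, `δ` the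
  cyclotomic character of `P5/CycloDelta`);
* lattice step: `P5/LatticeRep.exists_galoisRepAdic_of_matrix` in the coordinates of a basis.
-/

set_option autoImplicit false

open Polynomial CuspForm

namespace Fermat.Agent.P5.LatticeBlock

open Fermat.Agent.P5.Lattice

/-! ### Coordinates -/

section Coord

variable {O : Type} [CommRing O] {W : Type} [AddCommGroup W] [Module O W] {ι : Type} [Fintype ι]
  [DecidableEq ι]

/-- The matrix representation attached to a representation on a module with a basis. -/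
noncomputable def matRep (b : Module.Basis ι O W) (ρ : GQ →* Module.End O W) :
    GQ →* Matrix ι ι O where
  toFun g := LinearMap.toMatrixAlgEquiv b (ρ g)
  map_one' := by rw [map_one, map_one]
  map_mul' g h := by rw [map_mul, map_mul]

theorem matRep_apply (b : Module.Basis ι O W) (ρ : GQ →* Module.End O W) (g : GQ) :
    matRep b ρ g = LinearMap.toMatrixAlgEquiv b (ρ g) := rfl

theorem matCont_matRep [IsLocalRing O] (b : Module.Basis ι O W) (ρ : GQ →* Module.End O W)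
    (hρ : GaloisActionIsAdicContinuous O ρ) : MatCont (matRep b ρ) := by
  intro n
  obtain ⟨L, hL, h⟩ := hρ n
  refine ⟨L, hL, fun σ hσ i j => ?_⟩
  have h1 : (matRep b ρ σ - 1) i j = b.repr (ρ σ (b j) - b j) i := by
    rw [matRep_apply, Matrix.sub_apply, LinearMap.toMatrixAlgEquiv_apply, map_sub,
      Finsupp.sub_apply, b.repr_self, Matrix.one_apply, Finsupp.single_apply]
    simp only [eq_comm]
  rw [h1]
  exact repr_mem_of_mem_smul_top b _ (h σ hσ (b j)) i

omit [Fintype ι] [DecidableEq ι] in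
theorem map_smul_matrix {K : Type} [CommRing K] (f : O →+* K) (c : O) (A : Matrix ι ι O) :
    (c • A).map f = f c • A.map f := by
  ext i j
  rw [Matrix.map_apply, Matrix.smul_apply, Matrix.smul_apply, Matrix.map_apply, smul_eq_mul,
    smul_eq_mul, map_mul]

theorem rel_mulVec {K : Type} [Field K] [Algebra O K] (b : Module.Basis ι O W)
    (ρ : GQ →* Module.End O W) (g : GQ) (d c : O)
    (h : ρ g + d • ρ g⁻¹ = c • (1 : Module.End O W)) (w : ι → K) :
    ((matRep b ρ g).map (algebraMap O K)).mulVec w +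
      algebraMap O K d • ((matRep b ρ g⁻¹).map (algebraMap O K)).mulVec w =
      algebraMap O K c • w := by
  have h1 : matRep b ρ g + d • matRep b ρ g⁻¹ = c • (1 : Matrix ι ι O) := by
    have h0 := congrArg (LinearMap.toMatrixAlgEquiv b) h
    rw [map_add, map_smul, map_smul, map_one] at h0
    exact h0
  have h2 := congrArg (fun A : Matrix ι ι O => (A.map (algebraMap O K)).mulVec w) h1
  beta_reduce at h2
  rw [Matrix.map_add _ (map_add _), map_smul_matrix, map_smul_matrix,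
    Matrix.map_one _ (map_zero _) (map_one _), Matrix.add_mulVec, Matrix.smul_mulVec,
    Matrix.smul_mulVec, Matrix.one_mulVec] at h2
  exact h2

theorem quad_mulVec {K : Type} [Field K] [Algebra O K] (b : Module.Basis ι O W)
    (ρ : GQ →* Module.End O W) (σ : GQ) (a c : O)
    (h : ρ σ * ρ σ - a • ρ σ + c • (1 : Module.End O W) = 0) (w : ι → K) :
    ((matRep b ρ σ).map (algebraMap O K)).mulVec
        (((matRep b ρ σ).map (algebraMap O K)).mulVec w)
      - algebraMap O K a • ((matRep b ρ σ).map (algebraMap O K)).mulVec w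
      + algebraMap O K c • w = 0 := by
  have h1 : matRep b ρ σ * matRep b ρ σ - a • matRep b ρ σ + c • (1 : Matrix ι ι O) = 0 := by
    have h0 := congrArg (LinearMap.toMatrixAlgEquiv b) h
    rw [map_add, map_sub, map_mul, map_smul, map_smul, map_one, map_zero] at h0
    exact h0
  have h2 := congrArg (fun A : Matrix ι ι O => (A.map (algebraMap O K)).mulVec w) h1
  beta_reduce at h2
  rw [Matrix.map_add _ (map_add _), Matrix.map_sub _ (map_sub _), Matrix.map_mul,
    map_smul_matrix, map_smul_matrix,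
    Matrix.map_one _ (map_zero _) (map_one _), Matrix.add_mulVec, Matrix.sub_mulVec,
    Matrix.smul_mulVec, Matrix.smul_mulVec, Matrix.one_mulVec, ← Matrix.mulVec_mulVec,
    Matrix.map_zero _ (map_zero _), Matrix.zero_mulVec] at h2
  exact h2

end Coord

/-! ### The closure step -/

section Closure

/-- Every finite level is contained in a finite Galois level. -/
theorem exists_galois_ge (L : IntermediateField ℚ (AlgebraicClosure ℚ)) [FiniteDimensional ℚ L] :
    ∃ M : IntermediateField ℚ (AlgebraicClosure ℚ), FiniteDimensional ℚ M ∧ IsGalois ℚ M ∧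
      L ≤ M := by
  have h1 : Algebra.IsAlgebraic ℚ (AlgebraicClosure ℚ) := AlgebraicClosure.isAlgebraic ℚ
  have h2 : IsAlgClosure ℚ (AlgebraicClosure ℚ) := ⟨inferInstance, inferInstance⟩
  have h3 : Normal ℚ (AlgebraicClosure ℚ) := IsAlgClosure.normal ℚ (AlgebraicClosure ℚ)
  refine ⟨IntermediateField.normalClosure ℚ L (AlgebraicClosure ℚ), inferInstance, ?_,
    IntermediateField.le_normalClosure L⟩
  have h4 : Normal ℚ (IntermediateField.normalClosure ℚ L (AlgebraicClosure ℚ)) :=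
    normalClosure.normal ℚ L (AlgebraicClosure ℚ)
  exact ⟨⟩

/-- **Closure step.**  On the lattice of `Plan.Tate`, `ρ g + δ(g) ρ g⁻¹` is a scalar for every
`g`, as soon as this holds for the Frobenius lifts in `FrS` and weak Chebotarev holds for
`FrS`. -/
theorem exists_scalar_of_tate {O' : Type} [CommRing O'] [IsDomain O']
    [IsDiscreteValuationRing O'] {W : Type} [AddCommGroup W] [Module O' W] [Module.Free O' W]
    [Module.Finite O' W] (ρ : GQ →* Module.End O' W)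
    (hcont : GaloisActionIsAdicContinuous O' ρ) (δ : GQ →* O'ˣ)
    (hδ : ∀ n : ℕ, ∃ L : IntermediateField ℚ (AlgebraicClosure ℚ), FiniteDimensional ℚ L ∧
      ∀ σ : GQ, (∀ x ∈ L, σ x = x) → (δ σ : O') - 1 ∈ IsLocalRing.maximalIdeal O' ^ n)
    (FrS : Set GQ)
    (hFr : ∀ σ ∈ FrS, ∃ c : O', ρ σ + (δ σ : O') • ρ σ⁻¹ = c • (1 : Module.End O' W))
    (hcheb : ∀ (M : IntermediateField ℚ (AlgebraicClosure ℚ)) [FiniteDimensional ℚ M]
      [IsGalois ℚ M] (g : GQ), ∃ σ ∈ FrS, ∃ j : ℕ, ∀ x ∈ M, (σ ^ j) x = g x)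
    (g : GQ) : ∃ c : O', ρ g + (δ g : O') • ρ g⁻¹ = c • (1 : Module.End O' W) := by
  have hI : ∀ x : O', (∀ k : ℕ, x ∈ IsLocalRing.maximalIdeal O' ^ k) → x = 0 := by
    intro x hx
    have h1 := Ideal.iInf_pow_eq_bot_of_isLocalRing (IsLocalRing.maximalIdeal O')
      (IsLocalRing.maximalIdeal.isMaximal O').ne_top
    have h2 : x ∈ ⨅ i : ℕ, IsLocalRing.maximalIdeal O' ^ i := by
      rw [Ideal.mem_iInf]
      exact hx
    rw [h1] at h2
    exact h2
  exact Fermat.Agent.Lib.LucasClosure.exists_eq_smul_one_of_continuous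
    (IsLocalRing.maximalIdeal O') hI ρ ((Units.coeHom O').comp δ) hcont hδ FrS hFr
    (fun L hL g => by
      obtain ⟨M, hM1, hM2, hLM⟩ := exists_galois_ge L
      obtain ⟨σ, hσ, j, hj⟩ := hcheb M g
      exact ⟨σ, hσ, j, fun x hx => hj x (hLM hx)⟩) g

end Closure

/-! ### The block -/

/-- **[G8] block contract.** -/
theorem latticeBlock : Fermat.Agent.P5.Plan.LatticeBlock := by
  intro p _ N _ S hpS hNS O' _ _ _ _ _ _ hpO' χ hTate hcheb
  classical
  obtain ⟨W, iW1, iW2, iW3, iW4, ρ, hnt, hcont, hunr, hES⟩ := hTate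
  obtain ⟨δ, hδfrob, hδin, hδcont, -⟩ :=
    Fermat.Agent.P5.CycloDelta.exists_delta p (IsLocalRing.maximalIdeal O') hpO'
  have hδcont' : ∀ n : ℕ, ∃ L : IntermediateField ℚ (AlgebraicClosure ℚ),
      FiniteDimensional ℚ L ∧ ∀ σ : GQ, (∀ x ∈ L, σ x = x) →
        (δ σ : O') - 1 ∈ IsLocalRing.maximalIdeal O' ^ n := by
    intro n
    obtain ⟨M, hM1, -, hM2, -⟩ := hδcont n
    exact ⟨M, hM1, hM2⟩
  -- the Frobenius lifts outside `S`
  let FrS : Set GQ := {σ | ∃ ℓ : ℕ, ℓ.Prime ∧ ℓ ∉ S ∧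
    ∃ A : ValuationSubring (AlgebraicClosure ℚ), A.LiesOverPrime ℓ ∧ A.IsFrobeniusAt σ ℓ}
  have hFrS : ∀ σ ∈ FrS, ∃ c : O', ρ σ + (δ σ : O') • ρ σ⁻¹ = c • (1 : Module.End O' W) := by
    rintro σ ⟨ℓ, hℓ, hℓS, A, hA, hσ⟩
    have hℓN : ¬ ℓ ∣ N := fun h => hℓS (hNS ℓ hℓ h)
    have hℓp : ℓ ≠ p := fun h => hℓS (h ▸ hpS)
    have hℓS' : ℓ ∉ (↑S : Set ℕ) := fun h => hℓS (Finset.mem_coe.mp h)
    have h1 := hES ℓ hℓ hℓN hℓS' A hA σ hσ
    refine ⟨χ (heckeAlgebra.T hℓ hℓN hℓS'), ?_⟩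
    have h2 : ρ σ * ρ σ⁻¹ = 1 := by rw [← map_mul, mul_inv_cancel, map_one]
    have h3 := congrArg (fun f => f * ρ σ⁻¹) h1
    beta_reduce at h3
    rw [zero_mul, add_mul, sub_mul, mul_assoc, h2, mul_one, smul_mul_assoc, h2, smul_mul_assoc,
      one_mul] at h3
    rw [hδfrob ℓ hℓ hℓp A hA σ hσ, ← sub_eq_zero]
    refine Eq.trans ?_ h3
    abel
  have hrel : ∀ g : GQ, ∃ c : O', ρ g + (δ g : O') • ρ g⁻¹ = c • (1 : Module.End O' W) :=
    exists_scalar_of_tate ρ hcont δ hδcont' FrS hFrS (fun M _ _ g => by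
      obtain ⟨ℓ, hℓ, hℓS, A, hA, σ, hσ, j, hj⟩ := hcheb M g S
      exact ⟨σ, ⟨ℓ, hℓ, hℓS, A, hA, hσ⟩, j, hj⟩)
  -- coordinates
  let bW : Module.Basis (Fin (Module.finrank O' W)) O' W := Module.finBasis O' W
  have hne : Nonempty (Fin (Module.finrank O' W)) := bW.index_nonempty
  obtain ⟨O'', i1, i2, i3, i4, i5, i6, i7, i8, i9, hinj, ρ', hρ'Fr, hρ'In⟩ :=
    exists_galoisRepAdic_of_matrix O' (FractionRing O') (AlgebraicClosure (FractionRing O'))
      (matRep bW ρ) (matCont_matRep bW ρ hcont) δ hδcont' ⊤ top_ne_bot (fun _ _ _ => trivial)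
      (fun g => by
        obtain ⟨c, hc⟩ := hrel g
        exact ⟨algebraMap O' _ c, fun w _ => rel_mulVec bW ρ g (δ g : O') c hc w⟩)
      (fun σ a c => ∃ (ℓ : ℕ) (hℓ : ℓ.Prime) (hℓN : ¬ ℓ ∣ N) (hℓS : ℓ ∉ (↑S : Set ℕ))
        (A : ValuationSubring (AlgebraicClosure ℚ)), A.LiesOverPrime ℓ ∧ A.IsFrobeniusAt σ ℓ ∧
          a = χ (heckeAlgebra.T hℓ hℓN hℓS) ∧ c = (ℓ : O'))
      (by
        rintro σ a c ⟨ℓ, hℓ, hℓN, hℓS, A, hA, hσ, rfl, rfl⟩
        have hℓp : ℓ ≠ p := fun h => hℓS (h ▸ Finset.mem_coe.mpr hpS)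
        exact ⟨hδfrob ℓ hℓ hℓp A hA σ hσ, fun w _ =>
          quad_mulVec bW ρ σ _ _ (hES ℓ hℓ hℓN hℓS A hA σ hσ) w⟩)
      (fun σ => ∃ q : ℕ, q.Prime ∧ ¬ q ∣ N ∧ q ≠ p ∧
        ∃ P : ValuationSubring (AlgebraicClosure ℚ), P.LiesOverPrime q ∧
          σ ∈ P.inertiaSubgroupIn ℚ)
      (by
        rintro σ ⟨q, hq, hqN, hqp, P, hP, hσ⟩
        refine ⟨?_, hδin q hq hqp P hP σ hσ⟩
        rw [matRep_apply, hunr q hq hqN hqp P hP σ hσ, map_one])
  refine ⟨O'', i1, i2, i3, i4, i5, i6, i7, i8, i9, hinj, ρ', ?_, ?_⟩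
  · intro ℓ hℓ hℓN hℓS A hA σ hσ
    rw [hρ'Fr σ _ _ ⟨ℓ, hℓ, hℓN, hℓS, A, hA, hσ, rfl, rfl⟩, map_natCast]
  · intro q hq hqN hqp P hP σ hσ
    exact hρ'In σ ⟨q, hq, hqN, hqp, P, hP, hσ⟩

end Fermat.Agent.P5.LatticeBlock
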