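import Mathlib
import Fermat.Agent.P5.Plan
import Fermat.Agent.P5.LatticeBlock
import Fermat.Agent.Lib.WeakCheb.Final
import Fermat.Agent.P5.Kappa.FinTorsion
import Fermat.Agent.P5.ModFun.RealCInf
import Fermat.Agent.P5.G9.LevelZero

/-!
# Program P5: the assembly from the contracts that are still hypotheses (helper14)

`Plan.s30Stmt_of_blocks` / `Plan.s29Stmt_of_blocks` with every landed block discharged:

* `[G8]`  `LatticeBlock.latticeBlock`               (helper62)
* `[G4]`  `Lib.WeakCheb.weakChebotarev`             (helper7, helper53)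
* `[FIN]` `Kappa.finTorsion_of_modFun` + `ModFun.RealC.modFunStmt_realQ` (helper72, helper91, helper50)
* `N = 0` `G9.levelZeroStmt`                        (helper57)

What remains as hypotheses is exactly the list of contracts not yet proved.
-/

set_option autoImplicit false

namespace Fermat.Agent.P5.Assembly

open Fermat.Agent.P5.Plan

/-- **[FIN]** finiteness of the `p`-power torsion of `J₀(N)(Q̄)`. -/
theorem finTorsion (N : ℕ) [NeZero N] (p : ℕ) (hp : p.Prime) : FinTorsion N p :=
  Fermat.Agent.P5.Kappa.finTorsion_of_modFun N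
    (Fermat.Agent.P5.ModFun.RealC.modFunStmt_realQ N) p hp.pos

/-- **S30** from the contracts `TateBlock`, `LambdaStmt`, `CoreAll`. -/
theorem s30Stmt_of_open (hT : TateBlock)
    (hlam : ∀ (N : ℕ) [NeZero N], LambdaStmt N)
    (hcore : ∀ (N : ℕ) [NeZero N] (p : ℕ), p.Prime → Fermat.Agent.S37.Core.CoreAll N p) :
    Fermat.Agent.P5.G9.S30Stmt :=
  s30Stmt_of_blocks hT Fermat.Agent.P5.LatticeBlock.latticeBlock hlam
    (fun N _ p hp => finTorsion N p hp) hcore Fermat.Agent.Lib.WeakCheb.weakChebotarev

/-- **S29** from the contracts `ResidualBlock`, `LambdaStmt`, `CoreAll`. -/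
theorem s29Stmt_of_open (hR : ResidualBlock)
    (hlam : ∀ (N : ℕ) [NeZero N], LambdaStmt N)
    (hcore : ∀ (N : ℕ) [NeZero N] (p : ℕ), p.Prime → Fermat.Agent.S37.Core.CoreAll N p) :
    Fermat.Agent.P5.G9.S29Stmt :=
  s29Stmt_of_blocks hR Fermat.Agent.P5.G9.levelZeroStmt hlam hcore
    Fermat.Agent.Lib.WeakCheb.weakChebotarev

end Fermat.Agent.P5.Assembly
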