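import Mathlib
import Fermat.Agent.S18.Plan
import Fermat.Agent.S37.Gal

/-!
# P5 — torsion-only core, part (a): inertia acts trivially (helper81)

Vocabulary of `S18/Plan.lean`: `Kbar = Q̄`, `FN N = F_N ⊂ Om = Q̄((q))`, `Ocal A` (content valuation
ring of `A`), `red A : Ocal A →+* k((q))`.

* `FreeProp A N ℓ` : the place-map-free divisor core — a degree-zero divisor `D` of `F_N` with
  `m • D = div f`, `ℓ ∤ m`, `f ∈ Ocal A` and `red f = 1`, is principal.
* `freeProp_of_s18` : `FreeProp` follows from the (type of the) frozen S18 statement, the Prelude's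
  `ReductionInputsModL` and the S18 contract `Plan.UnitDiv`.
* `inertia_of_free` : `FreeProp` (and `Plan.RedStmt`) imply that the inertia group of `A` acts
  trivially on the `p`-power torsion of `J₀(N)`, `ℓ ∤ p` — the first half of `S37.Core.CoreStmt`.
* `exists_unit_rep`, `mk_eq_zero_of_free`, `ord_smul_mul_inv` : the pieces, reusable for the
  Eichler–Shimura half.
-/

set_option autoImplicit false

noncomputable section

namespace Fermat.Agent.P5.CoreInertia

open ModularCurve AlgebraicCurve Fermat.Agent.S24 Fermat.Agent.S18.Content Fermat.Agent.S18.Plan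

set_option synthInstance.maxHeartbeats 400000
set_option maxHeartbeats 1600000

variable (A : ValuationSubring Kbar) (N : ℕ)

/-- The place-map-free divisor core: `m • D = div f`, `f ≡ 1` coefficientwise modulo the maximal
ideal of `A`, `ℓ ∤ m`  ⟹  `D` principal. -/
def FreeProp (ℓ : ℕ) : Prop :=
  ∀ m : ℕ, ¬ ℓ ∣ m → ∀ D : Divisor Kbar (FN N), Divisor.degree D = 0 →
    ∀ (f : FN N) (hf : (f : Om) ∈ Ocal A), red A ⟨(f : Om), hf⟩ = 1 →
      (∀ P : Place Kbar (FN N), (m • D) P = P.ord f) →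
      D ∈ Divisor.principal (K := Kbar) (F := FN N)

variable {A N}

/-- The class of a degree-zero divisor `E` with `m • E = div h`, `red h = 1`, `ℓ ∤ m`, is zero. -/
theorem mk_eq_zero_of_free {ℓ : ℕ} (hfree : FreeProp A N ℓ) (m : ℕ) (hm : ¬ ℓ ∣ m)
    (E : Divisor.degZero (K := Kbar) (F := FN N)) (h : FN N) (hh : (h : Om) ∈ Ocal A)
    (hred : red A ⟨(h : Om), hh⟩ = 1)
    (hE : ∀ P : Place Kbar (FN N), (m • (E : Divisor Kbar (FN N))) P = P.ord h) :
    Pic0.mk E = 0 :=
  (QuotientAddGroup.eq_zero_iff E).mpr (AddSubgroup.mem_addSubgroupOf.mpr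
    (hfree m hm E (Divisor.mem_degZero.mp E.2) h hh hred hE))

/-- A torsion class is represented by a degree-zero divisor `D` with `n • D = div f`, `f` a unit
of the content valuation. -/
theorem exists_unit_rep (hred : RedStmt A N) (x : JZero N) (n : ℕ) (hx : n • x = 0) :
    ∃ (D : Divisor.degZero (K := Kbar) (F := FN N)) (f : FN N) (hf : (f : Om) ∈ Ocal A),
      Pic0.mk D = x ∧ red A ⟨(f : Om), hf⟩ ≠ 0 ∧
        ∀ P : Place Kbar (FN N), (n • (D : Divisor Kbar (FN N))) P = P.ord f := by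
  obtain ⟨D, rfl⟩ := Pic0.mk_surjective x
  have hnD : n • (D : Divisor Kbar (FN N)) ∈ Divisor.principal (K := Kbar) (F := FN N) := by
    have h1 : Pic0.mk (n • D) = 0 := hx
    have h2 := (QuotientAddGroup.eq_zero_iff (n • D)).mp h1
    rw [AddSubgroup.mem_addSubgroupOf] at h2
    simpa using h2
  obtain ⟨f₀, hf₀, hD⟩ := hnD
  have hf₀' : (f₀ : Om) ≠ 0 := fun h => hf₀ (Subtype.ext h)
  obtain ⟨c, hc, hmem, hredc⟩ := hred.1 (f₀ : Om) f₀.2 hf₀'
  have hcoe : ((algebraMap Kbar (FN N) c * f₀ : FN N) : Om) = HahnSeries.C c * (f₀ : Om) := by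
    rw [← algebraMap_LS_eq_C]
    rfl
  refine ⟨D, algebraMap Kbar (FN N) c * f₀, by rw [hcoe]; exact hmem, rfl, ?_, fun P => ?_⟩
  · rw [red_congr A hcoe (by rw [hcoe]; exact hmem) hmem]
    exact hredc
  · have hc' : algebraMap Kbar (FN N) c ≠ 0 := by
      rw [Ne, map_eq_zero_iff _ (algebraMap Kbar (FN N)).injective]
      exact hc
    rw [hD P, Place.ord_mul P hc' hf₀, ord_algebraMap, zero_add]

/-- `ord_P ((g • f) / f) = ord_{g⁻¹ P} f - ord_P f`. -/
theorem ord_smul_mul_inv (g : SemilinearAut Kbar (FN N)) {f : FN N} (hf : f ≠ 0)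
    (P : Place Kbar (FN N)) :
    P.ord ((g • f) * f⁻¹) = (g⁻¹ • P).ord f - P.ord f := by
  have hgf : g • f ≠ 0 := by
    rw [Ne, smul_eq_zero_iff_eq]
    exact hf
  have h1 := SemilinearAut.ord_smul g (g⁻¹ • P) f
  rw [smul_inv_smul] at h1
  rw [Place.ord_mul P hgf (inv_ne_zero hf), Place.ord_inv, h1]
  ring

/-- The divisor of `(g • f) / f` is `g • div f - div f`. -/
theorem smul_sub_apply_eq_ord (g : SemilinearAut Kbar (FN N)) {f : FN N} (hf : f ≠ 0)
    (n : ℕ) (D : Divisor Kbar (FN N)) (hD : ∀ P : Place Kbar (FN N), (n • D) P = P.ord f)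
    (P : Place Kbar (FN N)) :
    (n • (g • D - D)) P = P.ord ((g • f) * f⁻¹) := by
  rw [ord_smul_mul_inv g hf P, smul_sub, Finsupp.sub_apply, ← hD P, ← hD (g⁻¹ • P),
    smul_comm n g D, SemilinearAut.divisor_smul_apply]

/-- **Bridge**: the place-map-free core follows from the frozen S18 statement (as a hypothesis),
the Prelude's reduction inputs and the S18 contract `UnitDiv`. -/
theorem freeProp_of_s18 (N : ℕ) [NeZero N] (ℓ : ℕ) (A : ValuationSubring Kbar)
    (hRed : ReductionInputsModL A N) (hUD : UnitDiv A N)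
    (hS18 : ∀ m : ℕ, ¬ ℓ ∣ m → ∀ z : JZero N, m • z = 0 → reductionModL A N z = 0 → z = 0) :
    FreeProp A N ℓ := by
  intro m hm D hD0 f hf hredf hDf
  have hm0 : m ≠ 0 := by
    rintro rfl
    exact hm (dvd_zero ℓ)
  have hf0 : f ≠ 0 := fun h0 =>
    ne_zero_of_red_ne_zero A ⟨(f : Om), hf⟩ (by rw [hredf]; exact one_ne_zero)
      (congrArg Subtype.val h0)
  have hr := isPlaceReductionModL_placeReductionModL hRed
  have hyk : red A ⟨(f : Om), hf⟩ ∈ Fk A N := by
    rw [hredf]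
    exact one_mem _
  -- `r_* (m • D) = 0`
  have h1 : Finsupp.mapDomain (placeReductionModL hRed) (m • D) = 0 := by
    ext Q
    rw [hUD (placeReductionModL hRed) hr f hf hyk (by rw [hredf]; exact one_ne_zero) (m • D) hDf Q]
    have e : (⟨red A ⟨(f : Om), hf⟩, hyk⟩ : Fk A N) = 1 := Subtype.ext hredf
    rw [e, Place.ord_one]
    rfl
  have h2 : Finsupp.mapDomain (placeReductionModL hRed) D = 0 := by
    have h3 : m • Finsupp.mapDomain (placeReductionModL hRed) D = 0 := by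
      rw [← h1]
      exact (map_nsmul (Finsupp.mapDomain.addMonoidHom (placeReductionModL hRed)) m D).symm
    ext Q
    have h4 := DFunLike.congr_fun h3 Q
    rw [Finsupp.smul_apply, Finsupp.zero_apply, nsmul_eq_mul] at h4
    rcases mul_eq_zero.mp h4 with h5 | h5
    · exact absurd (by exact_mod_cast h5) hm0
    · exact h5
  set D' : Divisor.degZero (K := Kbar) (F := FN N) := ⟨D, Divisor.mem_degZero.mpr hD0⟩ with hD'
  have hz : Pic0.mk D' = 0 := by
    refine hS18 m hm (Pic0.mk D') ?_ ?_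
    · have : Pic0.mk (m • D') = 0 :=
        (QuotientAddGroup.eq_zero_iff (m • D')).mpr (AddSubgroup.mem_addSubgroupOf.mpr
          (by
            show ((m • D' : Divisor.degZero (K := Kbar) (F := FN N)) : Divisor Kbar (FN N)) ∈ _
            rw [AddSubgroupClass.coe_nsmul]
            exact ⟨f, hf0, hDf⟩))
      exact this
    · rw [reductionModL_mk hRed D']
      have : reductionDegZeroAlong (placeReductionModL hRed) hr.1 D' = 0 := Subtype.ext h2
      rw [this]
      rfl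
  have h5 := (QuotientAddGroup.eq_zero_iff D').mp hz
  rw [AddSubgroup.mem_addSubgroupOf] at h5
  exact h5

/-- **Inertia acts trivially on `p`-power torsion** (`ℓ ∤ p`): the first half of
`S37.Core.CoreStmt N p ℓ hℓ A`, from the place-map-free divisor core. -/
theorem inertia_of_free (N p ℓ : ℕ) [NeZero N] (hℓ : ℓ.Prime) (hℓp : ¬ ℓ ∣ p)
    (A : ValuationSubring Kbar) (hred : RedStmt A N) (hfree : FreeProp A N ℓ) :
    ∀ σ ∈ A.inertiaSubgroupIn ℚ, ∀ x : JZero N, (∃ n : ℕ, p ^ n • x = 0) → σ • x = x := by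
  rintro σ hσ x ⟨n, hx⟩
  obtain ⟨σ', hσ', rfl⟩ := Subgroup.mem_map.mp hσ
  obtain ⟨D, f, hf, rfl, hredf, hD⟩ := exists_unit_rep hred x (p ^ n) hx
  have hf0 : f ≠ 0 := fun h0 =>
    ne_zero_of_red_ne_zero A ⟨(f : Om), hf⟩ hredf (congrArg Subtype.val h0)
  set g : SemilinearAut Kbar (FN N) := S37.Gal.gK A N σ' with hg
  -- the function `h = σ f / f`
  have hσf : ((g • f : FN N) : Om) ∈ Ocal A := S37.Gal.coeffMap_mem_Ocal A σ' hf
  have hinv : ((f⁻¹ : FN N) : Om) ∈ Ocal A := inv_mem_Ocal A ⟨(f : Om), hf⟩ hredf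
  have hh : (((g • f) * f⁻¹ : FN N) : Om) ∈ Ocal A := (Ocal A).mul_mem hσf hinv
  have hbar : S37.Gal.sigmaBar A σ' = RingHom.id _ := by
    have h1 : MulSemiringAction.toRingAut (A.decompositionSubgroup ℚ)
        (IsLocalRing.ResidueField A) σ' = 1 := hσ'
    ext a
    show (MulSemiringAction.toRingAut (A.decompositionSubgroup ℚ)
        (IsLocalRing.ResidueField A) σ') a = a
    rw [h1]
    rfl
  have hredσ : red A ⟨((g • f : FN N) : Om), hσf⟩ = red A ⟨(f : Om), hf⟩ := by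
    have h1 := S37.Gal.red_coeffMap A σ' (f : Om) hf
    rw [hbar, coeffMap_id] at h1
    exact h1
  have hredh : red A ⟨(((g • f) * f⁻¹ : FN N) : Om), hh⟩ = 1 := by
    have e : (⟨(((g • f) * f⁻¹ : FN N) : Om), hh⟩ : Ocal A) =
        ⟨((g • f : FN N) : Om), hσf⟩ * ⟨((f⁻¹ : FN N) : Om), hinv⟩ := rfl
    rw [e, map_mul, hredσ]
    have e2 : (⟨((f⁻¹ : FN N) : Om), hinv⟩ : Ocal A) =
        ⟨((⟨(f : Om), hf⟩ : Ocal A) : Om)⁻¹, inv_mem_Ocal A ⟨(f : Om), hf⟩ hredf⟩ := rfl
    rw [e2, red_inv A ⟨(f : Om), hf⟩ hredf, mul_inv_cancel₀ hredf]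
  -- the divisor `E = σ D - D`
  have hE : Pic0.mk (SemilinearAut.degZeroSMulHom g D - D) = 0 := by
    refine mk_eq_zero_of_free hfree (p ^ n) (fun h => hℓp (hℓ.dvd_of_dvd_pow h)) _
      ((g • f) * f⁻¹) hh hredh fun P => ?_
    exact smul_sub_apply_eq_ord g hf0 (p ^ n) (D : Divisor Kbar (FN N)) hD P
  have h1 : (σ' : Kbar ≃ₐ[ℚ] Kbar) • Pic0.mk D = Pic0.mk (SemilinearAut.degZeroSMulHom g D) :=
    rfl
  have h2 : Pic0.mk (SemilinearAut.degZeroSMulHom g D) - Pic0.mk D = 0 := hE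
  exact h1.trans (sub_eq_zero.mp h2)

end Fermat.Agent.P5.CoreInertia
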