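/-
P5 [G1'] (helper58): **the torsion-only core**.

`S37.Core.CoreStmt N p ℓ hℓ A` (inertia at `A` acts trivially on the `p`-power torsion of
`JZero N`, and every Frobenius at `A` satisfies the Eichler--Shimura relation there) from ONE
divisor-level statement without any place map:

  `DivFree A N ℓ` : if `m • D = div f` with `ℓ ∤ m`, `deg D = 0` and `f ≡ 1` (coefficientwise
  modulo the maximal ideal of `A`), then `D` is principal.

Proof: for `x = [D]` with `p^m • D = div f`, `f` normalised to a unit of the content valuation,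
 (a) inertia `τ`:  `p^m • (τ D - D) = div (τ f / f)` and `red (τ f / f) = 1`;
 (b) Frobenius `σ`: `p^m • (σ σ D - T_ℓ (σ D) + ℓ D) = div (σ σ f · f^ℓ / Norm_α (β (σ f)))`, and
     the Kronecker congruence gives `red (Norm_α (β y)) = ȳ(q^ℓ) · ȳ^{(ℓ)}`, so this function
     reduces to `1` as well.
The second ending `coreStmt_of_s18` derives `DivFree` from the Prelude place reduction and the
statement of S18 (taken as a hypothesis).
-/
import Mathlib
import Fermat.Agent.S37.Core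
import Fermat.Agent.S37.Gal
import Fermat.Agent.S37.KronFinal
import Fermat.Agent.S37.Conj.Degree
import Fermat.Agent.Lib.HeckeKummerDiv
import Fermat.Agent.Lib.KroneckerCong
import Fermat.Agent.Lib.FFPlaces
import Fermat.Agent.S18.Red
import Fermat.Agent.S18.Char0

set_option autoImplicit false
set_option linter.style.haveILetI false
set_option linter.unusedSectionVars false

noncomputable section

namespace Fermat.Agent.P5.CoreT

open ModularCurve AlgebraicCurve Fermat.Agent.S24 Fermat.Agent.S18.Content Fermat.Agent.S18.Plan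

set_option synthInstance.maxHeartbeats 400000
set_option maxHeartbeats 1600000

/-! ### Generic lemmas -/

section Generic

variable {K F F' : Type*} [Field K] [Field F] [Field F'] [Algebra K F] [Algebra K F']

/-- Transport of a Kummer relation `n • D = div f` by a semilinear automorphism. -/
theorem kummer_smul (g : SemilinearAut K F) (n : ℤ) (D : Divisor K F) (f : F)
    (hD : ∀ v : Place K F, n * D v = v.ord f) (v : Place K F) :
    n * (g • D) v = v.ord (g • f) := by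
  rw [SemilinearAut.divisor_smul_apply, hD (g⁻¹ • v)]
  have h := SemilinearAut.ord_smul g (g⁻¹ • v) f
  rw [smul_inv_smul] at h
  exact h.symm

/-- Two embeddings that differ by an automorphism of the target have the same norms. -/
theorem norm_along_eq_of_equiv (φ ψ : F →ₐ[K] F') (w : F' ≃+* F') (h : ∀ x, w (φ x) = ψ x)
    (z : F') :
    @Algebra.norm F F' _ _ (algebraAlong φ) z = @Algebra.norm F F' _ _ (algebraAlong ψ) (w z) := by
  have h1 := @Algebra.norm_eq_of_equiv_equiv F F' F F' _ _ _ _ (algebraAlong φ) (algebraAlong ψ)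
    (RingEquiv.refl F) w (by ext x; exact (h x).symm) z
  simpa using h1

/-- The order of a natural power. -/
theorem ord_npow (P : Place K F) (a : F) (m : ℕ) : P.ord (a ^ m) = m * P.ord a := by
  rw [← zpow_natCast, P.ord_zpow]

/-- The norm as the constant coefficient of the characteristic polynomial. -/
theorem norm_eq_sign_charpoly_coeff {R S : Type*} [Field R] [Field S] [Algebra R S]
    [Module.Finite R S] (z : S) :
    Algebra.norm R z =
      (-1) ^ Module.finrank R S * (LinearMap.charpoly (LinearMap.mulLeft R z)).coeff 0 := by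
  rw [Algebra.norm_apply, LinearMap.det_eq_sign_charpoly_coeff]
  rfl

end Generic

/-! ### The `r`-free divisor core -/

/-- **The divisor core without a place map**: if `m • D = div f` with `ℓ ∤ m`, `deg D = 0` and
`f ≡ 1` modulo the maximal ideal of `A` (coefficientwise), then `D` is principal. -/
def DivFree (A : ValuationSubring Kbar) (N ℓ : ℕ) : Prop :=
  ∀ m : ℕ, ¬ ℓ ∣ m → ∀ D : Divisor Kbar (FN N), Divisor.degree D = 0 →
    ∀ (f : FN N) (hf : (f : Om) ∈ Ocal A), red A ⟨(f : Om), hf⟩ = 1 →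
      (∀ P : Place Kbar (FN N), (m • D) P = P.ord f) →
      D ∈ Divisor.principal (K := Kbar) (F := FN N)

/-! ### Kummer data -/

section Kummer

variable (N ℓ : ℕ) [NeZero N]

/-- A class killed by `n` is the class of `D` with `n • D = div f`, `f` a unit of the content
valuation. -/
theorem exists_kummer (hℓ : ℓ.Prime) (hℓN : ¬ ℓ ∣ N) (A : ValuationSubring Kbar)
    (hA : A.LiesOverPrime ℓ) (n : ℕ) (D : Divisor.degZero (K := Kbar) (F := FN N))
    (hn : n • (Pic0.mk D : JZero N) = 0) :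
    ∃ (f : FN N) (hfO : (f : Om) ∈ Ocal A), f ≠ 0 ∧ red A ⟨(f : Om), hfO⟩ ≠ 0 ∧
      ∀ v : Place Kbar (FN N), (n : ℤ) * (D : Divisor Kbar (FN N)) v = v.ord f := by
  haveI : Fact ℓ.Prime := ⟨hℓ⟩
  have h1 : ((n • D : Divisor.degZero (K := Kbar) (F := FN N)) : Divisor Kbar (FN N)) ∈
      Divisor.principal (K := Kbar) (F := FN N) := by
    have h2 : (Pic0.mk (n • D) : JZero N) = 0 := hn
    exact AddSubgroup.mem_addSubgroupOf.mp ((QuotientAddGroup.eq_zero_iff _).mp h2)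
  obtain ⟨f₀, hf₀, hD⟩ := h1
  have hfOm : ((f₀ : FN N) : Om) ≠ 0 := fun h => hf₀ (Subtype.ext h)
  obtain ⟨c, hc0, hcO, hcred⟩ :=
    (Fermat.Agent.S18.Red.redStmt N ℓ hℓN A hA).1 (f₀ : Om) f₀.2 hfOm
  have hc' : algebraMap Kbar (FN N) c ≠ 0 := by
    rw [Ne, map_eq_zero]; exact hc0
  have hcoe : ((algebraMap Kbar (FN N) c * f₀ : FN N) : Om) = HahnSeries.C c * (f₀ : Om) := by
    rw [← algebraMap_LS_eq_C]; rfl
  have hO : ((algebraMap Kbar (FN N) c * f₀ : FN N) : Om) ∈ Ocal A := by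
    rw [hcoe]; exact hcO
  refine ⟨algebraMap Kbar (FN N) c * f₀, hO, mul_ne_zero hc' hf₀, ?_, fun v => ?_⟩
  · rw [red_congr A hcoe hO hcO]
    exact hcred
  · rw [v.ord_mul hc' hf₀, Fermat.Agent.Lib.FFPlaces.ord_algebraMap, zero_add, ← hD v]
    simp [Finsupp.smul_apply]

end Kummer

/-! ### Inertia and Frobenius on the residue field -/

section Decomp

variable (A : ValuationSubring Kbar)

/-- An element of the inertia group lies in the decomposition group and acts trivially on the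
residue field. -/
theorem exists_decomp_of_inertia {σ : Kbar ≃ₐ[ℚ] Kbar} (hσ : σ ∈ A.inertiaSubgroupIn ℚ) :
    ∃ s : A.decompositionSubgroup ℚ, (s : Kbar ≃ₐ[ℚ] Kbar) = σ ∧
      Fermat.Agent.S37.Gal.sigmaBar A s = RingHom.id _ := by
  obtain ⟨s, hs, rfl⟩ := hσ
  refine ⟨s, rfl, ?_⟩
  have h1 : MulSemiringAction.toRingAut (A.decompositionSubgroup ℚ)
      (IsLocalRing.ResidueField A) s = 1 := hs
  ext x
  show (MulSemiringAction.toRingAut (A.decompositionSubgroup ℚ)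
      (IsLocalRing.ResidueField A) s) x = x
  rw [h1]
  rfl

end Decomp

/-! ### The reduction of `Norm_α (β y)` -/

section Norm

variable (N ℓ : ℕ) [NeZero N] [NeZero ℓ]

/-- `Norm_α (β y) = Norm_β (α y)` (Atkin–Lehner). -/
theorem norm_alpha_beta_eq (h : Nat.Coprime N ℓ) (y : FN N) :
    @Algebra.norm (FN N) (FN (N * ℓ)) _ _ (algebraAlong (heckeAlphaBar Kbar N ℓ))
        (heckeBetaBar Kbar N ℓ y) =
      @Algebra.norm (FN N) (FN (N * ℓ)) _ _ (algebraAlong (heckeBetaBar Kbar N ℓ))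
        (heckeAlphaBar Kbar N ℓ y) := by
  obtain ⟨w, hwα, hwβ⟩ := Fermat.Agent.S37.Kron.AtkinLehner.exists_atkinLehner N ℓ h
  rw [norm_along_eq_of_equiv (heckeAlphaBar Kbar N ℓ) (heckeBetaBar Kbar N ℓ)
    (w : FN (N * ℓ) ≃+* FN (N * ℓ)) hwα]
  congr 1
  exact hwβ y

/-- **Kronecker congruence for the norm**: for `y ∈ F_N ∩ Ocal`, `Norm_α (β y)` lies in `Ocal`
and reduces to `ȳ(q^ℓ) · τ ȳ`, `τ` the coefficientwise Frobenius. -/
theorem red_norm (hℓ : ℓ.Prime) (hℓN : ¬ ℓ ∣ N) (A : ValuationSubring Kbar)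
    (hA : A.LiesOverPrime ℓ) (τ : kk A ≃+* kk A) (hτ : ∀ x, τ x = x ^ ℓ) (y : FN N)
    (hy : (y : Om) ∈ Ocal A) :
    ∃ hc : ((@Algebra.norm (FN N) (FN (N * ℓ)) _ _ (algebraAlong (heckeAlphaBar Kbar N ℓ))
        (heckeBetaBar Kbar N ℓ y) : FN N) : Om) ∈ Ocal A,
      red A ⟨_, hc⟩ = qExpand (kk A) ℓ (red A ⟨(y : Om), hy⟩) *
        coeffMap (τ : kk A →+* kk A) (red A ⟨(y : Om), hy⟩) := by
  have hcop : Nat.Coprime N ℓ :=
    Nat.coprime_comm.mp ((Nat.Prime.coprime_iff_not_dvd hℓ).mpr hℓN)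
  have hfin := Fermat.Agent.S37.HeckeInputs.finiteAlong_beta N ℓ
  have hkron := Fermat.Agent.S37.KronMain.kron A N ℓ hℓ hℓN hA hfin τ hτ y hy 0
  have hrank := Fermat.Agent.S37.Conj.finrankAlong_beta N ℓ hℓ hℓN
  haveI : Fact ℓ.Prime := ⟨hℓ⟩
  haveI : CharP (kk A) ℓ := Fermat.Agent.S37.KronMain.charP_kk A hℓ hA
  haveI : CharP (Omk A) ℓ :=
    charP_of_injective_ringHom (f := (HahnSeries.C : kk A →+* Omk A)) HahnSeries.C_injective ℓ
  have hsign : (-1 : Omk A) ^ (ℓ + 1) = 1 := by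
    rw [pow_succ, neg_one_pow_char, neg_mul_neg, one_mul]
  rw [norm_alpha_beta_eq N ℓ hcop y]
  letI := algebraAlong (heckeBetaBar Kbar N ℓ)
  haveI : Module.Finite (FN N) (FN (N * ℓ)) := hfin
  obtain ⟨hc0, hred0⟩ := hkron
  have hnorm : Algebra.norm (FN N) (heckeAlphaBar Kbar N ℓ y) =
      (-1) ^ (ℓ + 1) * (LinearMap.charpoly (LinearMap.mulLeft (FN N)
        (heckeAlphaBar Kbar N ℓ y))).coeff 0 := by
    rw [norm_eq_sign_charpoly_coeff]
    congr 2
  rw [hnorm]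
  have hcoe : (((-1) ^ (ℓ + 1) * (LinearMap.charpoly (LinearMap.mulLeft (FN N)
        (heckeAlphaBar Kbar N ℓ y))).coeff 0 : FN N) : Om) =
      (((-1 : Ocal A) ^ (ℓ + 1) * ⟨_, hc0⟩ : Ocal A) : Om) := by
    push_cast
    rfl
  have hmem : (((-1) ^ (ℓ + 1) * (LinearMap.charpoly (LinearMap.mulLeft (FN N)
        (heckeAlphaBar Kbar N ℓ y))).coeff 0 : FN N) : Om) ∈ Ocal A := by
    rw [hcoe]; exact SetLike.coe_mem _
  refine ⟨hmem, ?_⟩
  rw [red_congr A hcoe hmem (SetLike.coe_mem _)]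
  show red A ((-1 : Ocal A) ^ (ℓ + 1) * ⟨_, hc0⟩) = _
  rw [map_mul, map_pow, map_neg, map_one, hsign, one_mul, hred0]
  simp [Polynomial.mul_coeff_zero, Polynomial.coeff_X_pow, (NeZero.ne ℓ).symm]

end Norm

/-! ### The core -/

section Core

variable (N p ℓ : ℕ) [NeZero N]

/-- A class of `Pic⁰` whose underlying divisor is principal is zero. -/
theorem mk_eq_zero_of_principal (E : Divisor.degZero (K := Kbar) (F := FN N))
    (h : (E : Divisor Kbar (FN N)) ∈ Divisor.principal (K := Kbar) (F := FN N)) :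
    (Pic0.mk E : JZero N) = 0 :=
  (QuotientAddGroup.eq_zero_iff _).mpr (AddSubgroup.mem_addSubgroupOf.mpr h)

/-- **(a) Inertia acts trivially on `p`-power torsion.** -/
theorem inertia_of_divFree (hℓ : ℓ.Prime) (hNp : ¬ ℓ ∣ N * p) (A : ValuationSubring Kbar)
    (hA : A.LiesOverPrime ℓ) (hfree : DivFree A N ℓ)
    (σ : Kbar ≃ₐ[ℚ] Kbar) (hσ : σ ∈ A.inertiaSubgroupIn ℚ) (x : JZero N)
    (hx : ∃ n : ℕ, p ^ n • x = 0) : σ • x = x := by
  have hℓN : ¬ ℓ ∣ N := fun h => hNp (h.mul_right p)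
  have hℓp : ¬ ℓ ∣ p := fun h => hNp (h.mul_left N)
  obtain ⟨m, hm⟩ := hx
  have hpm : ¬ ℓ ∣ p ^ m := fun h => hℓp (hℓ.dvd_of_dvd_pow h)
  obtain ⟨D, rfl⟩ := Pic0.mk_surjective x
  obtain ⟨f, hfO, hf0, hfred, hDf⟩ := exists_kummer N ℓ hℓ hℓN A hA (p ^ m) D hm
  obtain ⟨s, rfl, hs⟩ := exists_decomp_of_inertia A hσ
  set g : SemilinearAut Kbar (FN N) := Fermat.Agent.S37.Gal.gK A N s with hg
  -- the function `h = τ f / f`
  have hgO : ((g • f : FN N) : Om) ∈ Ocal A := Fermat.Agent.S37.Gal.coeffMap_mem_Ocal A s hfO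
  have hgred : red A ⟨_, hgO⟩ = red A ⟨_, hfO⟩ := by
    have h1 := Fermat.Agent.S37.Gal.red_coeffMap A s (f : Om) hfO
    rw [hs, coeffMap_id] at h1
    exact h1
  have hinvO : ((f⁻¹ : FN N) : Om) ∈ Ocal A := inv_mem_Ocal A ⟨_, hfO⟩ hfred
  have hinvred : red A ⟨_, hinvO⟩ = (red A ⟨_, hfO⟩)⁻¹ := red_inv A ⟨_, hfO⟩ hfred
  have hO : ((g • f * f⁻¹ : FN N) : Om) ∈ Ocal A := (Ocal A).mul_mem hgO hinvO
  have hred1 : red A ⟨_, hO⟩ = 1 := by
    have e : (⟨_, hO⟩ : Ocal A) = ⟨_, hgO⟩ * ⟨_, hinvO⟩ := rfl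
    rw [e, map_mul, hgred, hinvred, mul_inv_cancel₀ hfred]
  have hgf0 : g • f ≠ 0 := by
    rw [Ne, smul_eq_zero_iff_eq]; exact hf0
  -- the divisor `E = τ D - D`
  set E : Divisor.degZero (K := Kbar) (F := FN N) := SemilinearAut.degZeroSMulHom g D - D with hE
  have hprin : (E : Divisor Kbar (FN N)) ∈ Divisor.principal (K := Kbar) (F := FN N) := by
    refine hfree (p ^ m) hpm (E : Divisor Kbar (FN N)) (Divisor.mem_degZero.mp E.2)
      (g • f * f⁻¹) hO hred1 (fun P => ?_)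
    rw [P.ord_mul hgf0 (inv_ne_zero hf0), P.ord_inv, ← kummer_smul g _ _ f hDf P, ← hDf P]
    simp only [hE, AddSubgroup.coe_sub, SemilinearAut.coe_degZeroSMulHom, Finsupp.smul_apply,
      Finsupp.coe_sub, Pi.sub_apply, nsmul_eq_mul]
    ring
  have h0 : (Pic0.mk E : JZero N) = 0 := mk_eq_zero_of_principal N E hprin
  have h1 : ((s : Kbar ≃ₐ[ℚ] Kbar) • (Pic0.mk D : JZero N)) - Pic0.mk D = Pic0.mk E := rfl
  exact sub_eq_zero.mp (h1.trans h0)

/-- **(b) The Eichler--Shimura relation on `p`-power torsion.** -/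
theorem frob_of_divFree (hℓ : ℓ.Prime) (hNp : ¬ ℓ ∣ N * p) (A : ValuationSubring Kbar)
    (hA : A.LiesOverPrime ℓ) (hfree : DivFree A N ℓ)
    (φ : Kbar ≃ₐ[ℚ] Kbar) (hφ : A.IsFrobeniusAt φ ℓ) (x : JZero N)
    (hx : ∃ n : ℕ, p ^ n • x = 0) :
    φ • φ • x - heckeOperatorBar N ⟨ℓ, hℓ⟩ (φ • x) + ℓ • x = 0 := by
  have hℓN : ¬ ℓ ∣ N := fun h => hNp (h.mul_right p)
  have hℓp : ¬ ℓ ∣ p := fun h => hNp (h.mul_left N)
  haveI : NeZero ℓ := ⟨hℓ.ne_zero⟩
  haveI : Fact ℓ.Prime := ⟨hℓ⟩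
  haveI : CharP (kk A) ℓ := Fermat.Agent.S37.KronMain.charP_kk A hℓ hA
  obtain ⟨m, hm⟩ := hx
  have hpm : ¬ ℓ ∣ p ^ m := fun h => hℓp (hℓ.dvd_of_dvd_pow h)
  obtain ⟨D, rfl⟩ := Pic0.mk_surjective x
  obtain ⟨f, hfO, hf0, hfred, hDf⟩ := exists_kummer N ℓ hℓ hℓN A hA (p ^ m) D hm
  set s : A.decompositionSubgroup ℚ := ⟨φ, hφ.mem_decompositionSubgroup⟩ with hs
  set g : SemilinearAut Kbar (FN N) := Fermat.Agent.S37.Gal.gK A N s with hg
  set τ : kk A ≃+* kk A :=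
    MulSemiringAction.toRingAut (A.decompositionSubgroup ℚ) (kk A) s with hτdef
  have hτ : ∀ x, τ x = x ^ ℓ := hφ.smul_residue_eq
  have hτinj : Function.Injective (coeffMap (τ : kk A →+* kk A)) :=
    Fermat.Agent.S37.Gal.coeffMap_injective_of_injective _ τ.injective
  set u : Omk A := red A ⟨(f : Om), hfO⟩ with hu
  -- `σ f` and `σ σ f`
  have hf1O : ((g • f : FN N) : Om) ∈ Ocal A := Fermat.Agent.S37.Gal.coeffMap_mem_Ocal A s hfO
  have hf1red : red A ⟨_, hf1O⟩ = coeffMap (τ : kk A →+* kk A) u :=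
    Fermat.Agent.S37.Gal.red_coeffMap A s (f : Om) hfO
  have hf2O : ((g • g • f : FN N) : Om) ∈ Ocal A :=
    Fermat.Agent.S37.Gal.coeffMap_mem_Ocal A s hf1O
  have hf2red : red A ⟨_, hf2O⟩ = coeffMap (τ : kk A →+* kk A) (coeffMap (τ : kk A →+* kk A) u) := by
    have h1 := Fermat.Agent.S37.Gal.red_coeffMap A s ((g • f : FN N) : Om) hf1O
    rw [hf1red] at h1
    exact h1
  have hf1_0 : g • f ≠ 0 := by
    rw [Ne, smul_eq_zero_iff_eq]; exact hf0
  have hf2_0 : g • g • f ≠ 0 := by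
    rw [Ne, smul_eq_zero_iff_eq]; exact hf1_0
  -- the Hecke operator
  obtain ⟨D', hT, hN0, hD'⟩ := Fermat.Agent.Lib.HeckeKummerDiv.exists_hecke_datum N ℓ hℓ
    ((p ^ m : ℕ) : ℤ) (SemilinearAut.degZeroSMulHom g D) (g • f) hf1_0
    (kummer_smul g _ _ f hDf)
  -- the norm
  obtain ⟨hNO, hNred⟩ := red_norm N ℓ hℓ hℓN A hA τ hτ (g • f) hf1O
  set Nm : FN N := @Algebra.norm (FN N) (FN (N * ℓ)) _ _
    (algebraAlong (heckeAlphaBar Kbar N ℓ)) (heckeBetaBar Kbar N ℓ (g • f)) with hNm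
  -- the reductions
  have hpow : u ^ ℓ = qExpand (kk A) ℓ (coeffMap (τ : kk A →+* kk A) u) := by
    rw [Fermat.Agent.Lib.KroneckerCong.pow_char_eq]
    have h6 : coeffMap (frobenius (kk A) ℓ) = coeffMap (τ : kk A →+* kk A) := by
      congr 1
      ext x
      simp [frobenius_def, hτ]
    rw [h6]
  have hu0 : u ≠ 0 := hfred
  have hτu0 : coeffMap (τ : kk A →+* kk A) (coeffMap (τ : kk A →+* kk A) u) ≠ 0 := by
    intro h
    rw [← map_zero (coeffMap (τ : kk A →+* kk A))] at h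
    have h' := hτinj h
    rw [← map_zero (coeffMap (τ : kk A →+* kk A))] at h'
    exact hu0 (hτinj h')
  have hq0 : qExpand (kk A) ℓ (coeffMap (τ : kk A →+* kk A) u) ≠ 0 := by
    rw [← hpow]; exact pow_ne_zero _ hu0
  have hNred0 : red A ⟨_, hNO⟩ ≠ 0 := by
    rw [hNred, hf1red]; exact mul_ne_zero hq0 hτu0
  have hNinvO : ((Nm⁻¹ : FN N) : Om) ∈ Ocal A := inv_mem_Ocal A ⟨_, hNO⟩ hNred0
  have hNinvred : red A ⟨_, hNinvO⟩ = (red A ⟨_, hNO⟩)⁻¹ := red_inv A ⟨_, hNO⟩ hNred0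
  have hpowO : ((f ^ ℓ : FN N) : Om) ∈ Ocal A := (Ocal A).pow_mem hfO ℓ
  have hpowred : red A ⟨_, hpowO⟩ = u ^ ℓ := by
    have e : (⟨_, hpowO⟩ : Ocal A) = ⟨_, hfO⟩ ^ ℓ := rfl
    rw [e, map_pow]
  have hO : ((g • g • f * f ^ ℓ * Nm⁻¹ : FN N) : Om) ∈ Ocal A :=
    (Ocal A).mul_mem ((Ocal A).mul_mem hf2O hpowO) hNinvO
  have hred1 : red A ⟨_, hO⟩ = 1 := by
    have e : (⟨_, hO⟩ : Ocal A) = ⟨_, hf2O⟩ * ⟨_, hpowO⟩ * ⟨_, hNinvO⟩ := rfl
    rw [e, map_mul, map_mul, hf2red, hpowred, hNinvred, hNred, hf1red, hpow]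
    field_simp
  -- the divisor `E = σ σ D - T_ℓ (σ D) + ℓ D`
  set E : Divisor.degZero (K := Kbar) (F := FN N) :=
    SemilinearAut.degZeroSMulHom g (SemilinearAut.degZeroSMulHom g D) - D' + ℓ • D with hE
  have hprin : (E : Divisor Kbar (FN N)) ∈ Divisor.principal (K := Kbar) (F := FN N) := by
    refine hfree (p ^ m) hpm (E : Divisor Kbar (FN N)) (Divisor.mem_degZero.mp E.2)
      (g • g • f * f ^ ℓ * Nm⁻¹) hO hred1 (fun P => ?_)
    have k2 : ((p ^ m : ℕ) : ℤ) * (g • g • (D : Divisor Kbar (FN N))) P = P.ord (g • g • f) :=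
      kummer_smul g _ _ (g • f) (kummer_smul g _ _ f hDf) P
    rw [P.ord_mul (mul_ne_zero hf2_0 (pow_ne_zero _ hf0)) (inv_ne_zero hN0),
      P.ord_mul hf2_0 (pow_ne_zero _ hf0), P.ord_inv, ord_npow, ← k2, ← hD' P, ← hDf P]
    simp only [hE, AddSubgroup.coe_add, AddSubgroup.coe_sub, AddSubgroup.coe_nsmul,
      SemilinearAut.coe_degZeroSMulHom, Finsupp.smul_apply, Finsupp.coe_add, Finsupp.coe_sub,
      Pi.add_apply, Pi.sub_apply, nsmul_eq_mul]
    ring
  have h0 : (Pic0.mk E : JZero N) = 0 := mk_eq_zero_of_principal N E hprin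
  have h1 : φ • φ • (Pic0.mk D : JZero N) - heckeOperatorBar N ⟨ℓ, hℓ⟩ (φ • Pic0.mk D)
      + ℓ • Pic0.mk D = Pic0.mk E := by
    have e1 : φ • (Pic0.mk D : JZero N) = Pic0.mk (SemilinearAut.degZeroSMulHom g D) := rfl
    rw [e1, hT]
    rfl
  exact h1.trans h0

/-- **[G1'] the torsion-only core** from the `r`-free divisor core. -/
theorem coreStmt_of_divFree (hℓ : ℓ.Prime) (hNp : ¬ ℓ ∣ N * p) (A : ValuationSubring Kbar)
    (hA : A.LiesOverPrime ℓ) (hfree : DivFree A N ℓ) :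
    Fermat.Agent.S37.Core.CoreStmt N p ℓ hℓ A :=
  ⟨fun σ hσ x hx => inertia_of_divFree N p ℓ hℓ hNp A hA hfree σ hσ x hx,
    fun φ hφ x hx => frob_of_divFree N p ℓ hℓ hNp A hA hfree φ hφ x hx⟩

end Core

end Fermat.Agent.P5.CoreT

end
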