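/-
P5 [G1'] (helper58): **the torsion-only core, unconditional.**

`coreAll N p : S37.Core.CoreAll N p` — for every prime `ℓ ∤ N p` and every valuation subring `A`
of `Q̄` over `ℓ`, inertia at `A` acts trivially on the `p`-power torsion of `JZero N` and every
Frobenius at `A` satisfies the Eichler--Shimura relation `φ² - T_ℓ φ + ℓ = 0` there.

`CoreT.coreStmt_of_divFree` (P5/CoreT.lean) fed with helper77's divisor-level core without a place
map, `S18.MainFree.divCoreFree` (S18/MainFreeFinal.lean).
-/
import Mathlib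
import Fermat.Agent.P5.CoreT
import Fermat.Agent.S18.MainFreeFinal

set_option autoImplicit false

namespace Fermat.Agent.P5.CoreT

open ModularCurve AlgebraicCurve Fermat.Agent.S24 Fermat.Agent.S18.Content Fermat.Agent.S18.Plan

set_option synthInstance.maxHeartbeats 400000 in
set_option maxHeartbeats 1000000 in
/-- `DivFree A N ℓ` for every prime `ℓ ∤ N` and `A` over `ℓ`. -/
theorem divFree (N ℓ : ℕ) [NeZero N] (hℓ : ℓ.Prime) (hℓN : ¬ ℓ ∣ N)
    (A : ValuationSubring Kbar) (hA : A.LiesOverPrime ℓ) : DivFree A N ℓ :=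
  haveI : Fact ℓ.Prime := ⟨hℓ⟩
  fun m hm D hD f hf h1 hP =>
    Fermat.Agent.S18.MainFree.divCoreFree N ℓ hℓN A hA m hm D hD f hf h1 hP

set_option synthInstance.maxHeartbeats 400000 in
set_option maxHeartbeats 1000000 in
/-- **[G1] for P5, unconditional**: the `hcomm`-free core at every good prime. -/
theorem coreAll (N p : ℕ) [NeZero N] : Fermat.Agent.S37.Core.CoreAll N p :=
  fun ℓ hℓ hNp A hA =>
    coreStmt_of_divFree N p ℓ hℓ hNp A hA (divFree N ℓ hℓ (fun h => hNp (h.mul_right p)) A hA)

end Fermat.Agent.P5.CoreT
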