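/-
P5 [G1'] (helper58), second ending: the `r`-free divisor core `CoreT.DivFree A N ℓ` — hence
`S37.Core.CoreStmt N p ℓ hℓ A` — from the Prelude place reduction (`ReductionInputsModL A N`) and
the statement of S18 at `A` (taken as a hypothesis `hS18`, of the type of the frozen statement
after its first five arguments).

Proof: if `m • D = div f` with `red f = 1`, then `r_* (m • D) = div (red f) = 0` by `[RED] (B5)`
(`S18.Red.unitDiv`), so `r_* D = 0` (divisors are torsion-free), so `reductionModL [D] = 0`, and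
`m • [D] = 0`: S18 gives `[D] = 0`.
-/
import Mathlib
import Fermat.Agent.P5.CoreT

set_option autoImplicit false
set_option linter.style.haveILetI false

noncomputable section

namespace Fermat.Agent.P5.CoreTS18

open ModularCurve AlgebraicCurve Fermat.Agent.S24 Fermat.Agent.S18.Content Fermat.Agent.S18.Plan

set_option synthInstance.maxHeartbeats 400000
set_option maxHeartbeats 1600000

/-- **`DivFree` from the place reduction and S18.** -/
theorem divFree_of_s18 (N ℓ : ℕ) [NeZero N] (hℓ : ℓ.Prime) (hℓN : ¬ ℓ ∣ N)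
    (A : ValuationSubring Kbar) (hA : A.LiesOverPrime ℓ) (hRed : ReductionInputsModL A N)
    (hS18 : ∀ m : ℕ, ¬ ℓ ∣ m → ∀ z : JZero N, m • z = 0 → reductionModL A N z = 0 → z = 0) :
    CoreT.DivFree A N ℓ := by
  intro m hm D hD f hfO hfred hDf
  haveI : Fact ℓ.Prime := ⟨hℓ⟩
  have hunit := Fermat.Agent.S18.Red.unitDiv N ℓ hℓN A hA (Fermat.Agent.S18.Char0.char0Stmt N)
  have hr := isPlaceReductionModL_placeReductionModL hRed
  have hk : red A ⟨(f : Om), hfO⟩ ∈ Fk A N := by rw [hfred]; exact one_mem _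
  have h1 := hunit (placeReductionModL hRed) hr f hfO hk (by rw [hfred]; exact one_ne_zero)
    (m • D) hDf
  have hone : (⟨red A ⟨(f : Om), hfO⟩, hk⟩ : Fk A N) = 1 := Subtype.ext hfred
  have hm0 : m ≠ 0 := by rintro rfl; exact hm (dvd_zero ℓ)
  have h3 : Finsupp.mapDomain (placeReductionModL hRed) D = 0 := by
    ext Q
    have h4 := h1 Q
    rw [hone, Place.ord_one] at h4
    have h5 : Finsupp.mapDomain (placeReductionModL hRed) (m • D) =
        m • Finsupp.mapDomain (placeReductionModL hRed) D :=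
      map_nsmul (Finsupp.mapDomain.addMonoidHom (placeReductionModL hRed)) m D
    rw [h5, Finsupp.smul_apply, nsmul_eq_mul] at h4
    rcases mul_eq_zero.mp h4 with h6 | h6
    · exact absurd (by exact_mod_cast h6) hm0
    · exact h6
  have hf0 : f ≠ 0 := by
    rintro rfl
    have h7 : red A ⟨((0 : FN N) : Om), hfO⟩ = 0 := map_zero (red A)
    rw [h7] at hfred
    exact zero_ne_one hfred
  set Dz : Divisor.degZero (K := Kbar) (F := FN N) := ⟨D, Divisor.mem_degZero.mpr hD⟩ with hDz
  have hmz : m • (Pic0.mk Dz : JZero N) = 0 :=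
    CoreT.mk_eq_zero_of_principal N (m • Dz) ⟨f, hf0, hDf⟩
  have hz : reductionModL A N (Pic0.mk Dz) = 0 := by
    rw [reductionModL_mk hRed]
    have h8 : reductionDegZeroAlong (placeReductionModL hRed) hr.1 Dz = 0 := Subtype.ext h3
    rw [h8]
    rfl
  have h0 := hS18 m hm _ hmz hz
  exact AddSubgroup.mem_addSubgroupOf.mp ((QuotientAddGroup.eq_zero_iff _).mp h0)

/-- **[G1'] the torsion-only core from S18** (`hS18` has the type of the frozen statement S18
applied to `N`, `hℓN`, `A`, `hA`, `hRed`). -/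
theorem coreStmt_of_s18 (N p ℓ : ℕ) [NeZero N] (hℓ : ℓ.Prime) (hNp : ¬ ℓ ∣ N * p)
    (A : ValuationSubring Kbar) (hA : A.LiesOverPrime ℓ) (hRed : ReductionInputsModL A N)
    (hS18 : ∀ m : ℕ, ¬ ℓ ∣ m → ∀ z : JZero N, m • z = 0 → reductionModL A N z = 0 → z = 0) :
    Fermat.Agent.S37.Core.CoreStmt N p ℓ hℓ A :=
  CoreT.coreStmt_of_divFree N p ℓ hℓ hNp A hA
    (divFree_of_s18 N ℓ hℓ (fun h => hNp (h.mul_right p)) A hA hRed hS18)

end Fermat.Agent.P5.CoreTS18

end
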