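import Mathlib
import Fermat.Agent.P5.Desc.Plan
import Fermat.Agent.P5.Desc.Deg
import Fermat.Agent.Lib.PlaceBaseChange
import Fermat.Agent.Lib.ReducedDivisor

/-!
# P5 [DESC] — the leaves (D3b) and (D4) against the block contract `P5/Desc/Plan.lean`

* `extStmt` : `Desc.ExtStmt ι F₀` (every place of `A` extends to `B` with `e = 1`) from
  `Desc.DegStmt ι F₀`, for algebraically closed `K₀`, `K₁`.
* `isRed_iff`, `exists_isRed`, `isRed_unique` : the reduced representative in the `Desc.IsRed`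
  spelling.  NOTE: uniqueness needs `deg D = 0`; the clause of `Desc.RedStmt` without this
  hypothesis is false (`redStmt_deg` is the corrected statement).
-/

set_option autoImplicit false

noncomputable section

namespace Fermat.Agent.P5.DescExt

open AlgebraicCurve ModularCurve IntermediateField

open Fermat.Agent.Lib Fermat.Agent.P5.Desc

/-- Separability is automatic in characteristic zero. -/
theorem isSeparable_of_charZero {K F : Type*} [Field K] [Field F] [Algebra K F] [CharZero K]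
    (x : F) [FiniteDimensional K⟮x⟯ F] : Algebra.IsSeparable K⟮x⟯ F := by
  have : CharZero K⟮x⟯ := charZero_of_injective_algebraMap (algebraMap K K⟮x⟯).injective
  infer_instance

section Ext

variable {K₀ K₁ : Type*} [Field K₀] [Field K₁] [Algebra ℚ K₀] [Algebra ℚ K₁]
variable (ι : K₀ →+* K₁) (F₀ : IntermediateField ℚ (LaurentSeries ℚ))

/-- The `PlaceBaseChange.Setup` for the coefficientwise base change `A → B`. -/
theorem setup (x₀ : laurentBaseChange K₀ F₀) (hx₀ : Transcendental K₀ x₀)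
    (hfin : Module.finrank K₁⟮baseMap ι F₀ x₀⟯ (laurentBaseChange K₁ F₀)
      = Module.finrank K₀⟮x₀⟯ (laurentBaseChange K₀ F₀)) :
    PlaceBaseChange.Setup ι (baseMap ι F₀) x₀ (baseMap ι F₀ x₀) := by
  refine ⟨?_, ?_, ?_, ?_, ?_, ?_⟩
  · exact baseMap_algebraMap ι F₀
  · rfl
  · exact hx₀
  · exact transcendental_baseMap ι F₀ x₀ hx₀
  · exact hfin
  · exact mem_range_algebraMap_of_baseMap_mem ι F₀

/-- **(D3b)** `ExtStmt` from `DegStmt`: every place of `A` has an extension to `B` with the same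
order function. -/
theorem extStmt [IsAlgClosed K₀] [IsAlgClosed K₁] (x₀ : laurentBaseChange K₀ F₀)
    (hx₀ : Transcendental K₀ x₀) [FiniteDimensional K₀⟮x₀⟯ (laurentBaseChange K₀ F₀)]
    (hdeg : DegStmt ι F₀) : ExtStmt ι F₀ := by
  obtain ⟨hfd, hfin⟩ := hdeg x₀ hx₀ inferInstance
  have hS := setup ι F₀ x₀ hx₀ hfin
  have : CharZero K₀ := algebraRat.charZero K₀
  have : CharZero K₁ := algebraRat.charZero K₁
  have hs0 : Algebra.IsSeparable K₀⟮x₀⟯ (laurentBaseChange K₀ F₀) := isSeparable_of_charZero x₀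
  have hs1 : Algebra.IsSeparable K₁⟮baseMap ι F₀ x₀⟯ (laurentBaseChange K₁ F₀) :=
    isSeparable_of_charZero _
  intro p
  exact ⟨hS.ext p, hS.ord_ext p⟩

/-- Uniqueness of the extension. -/
theorem existsUnique_ext [IsAlgClosed K₀] [IsAlgClosed K₁] (x₀ : laurentBaseChange K₀ F₀)
    (hx₀ : Transcendental K₀ x₀) [FiniteDimensional K₀⟮x₀⟯ (laurentBaseChange K₀ F₀)]
    (hdeg : DegStmt ι F₀) (p : Place K₀ (laurentBaseChange K₀ F₀)) :
    ∃! P : Place K₁ (laurentBaseChange K₁ F₀),
      ∀ f : laurentBaseChange K₀ F₀, P.ord (baseMap ι F₀ f) = p.ord f := by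
  obtain ⟨hfd, hfin⟩ := hdeg x₀ hx₀ inferInstance
  have hS := setup ι F₀ x₀ hx₀ hfin
  have : CharZero K₀ := algebraRat.charZero K₀
  have : CharZero K₁ := algebraRat.charZero K₁
  have hs0 : Algebra.IsSeparable K₀⟮x₀⟯ (laurentBaseChange K₀ F₀) := isSeparable_of_charZero x₀
  have hs1 : Algebra.IsSeparable K₁⟮baseMap ι F₀ x₀⟯ (laurentBaseChange K₁ F₀) :=
    isSeparable_of_charZero _
  exact hS.existsUnique_place p

/-- **(D3b)**, unconditional: `ExtStmt ι F₀` for algebraically closed `K₀`, `K₁` as soon as `A`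
is a function field in one variable (via helper31's `Deg.degStmt`). -/
theorem extStmt' [IsAlgClosed K₀] [IsAlgClosed K₁] (x₀ : laurentBaseChange K₀ F₀)
    (hx₀ : Transcendental K₀ x₀) [FiniteDimensional K₀⟮x₀⟯ (laurentBaseChange K₀ F₀)] :
    ExtStmt ι F₀ :=
  extStmt ι F₀ x₀ hx₀ (Deg.degStmt ι F₀)

/-- Unique extension, unconditional form. -/
theorem existsUnique_ext' [IsAlgClosed K₀] [IsAlgClosed K₁] (x₀ : laurentBaseChange K₀ F₀)
    (hx₀ : Transcendental K₀ x₀) [FiniteDimensional K₀⟮x₀⟯ (laurentBaseChange K₀ F₀)]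
    (p : Place K₀ (laurentBaseChange K₀ F₀)) :
    ∃! P : Place K₁ (laurentBaseChange K₁ F₀),
      ∀ f : laurentBaseChange K₀ F₀, P.ord (baseMap ι F₀ f) = p.ord f :=
  existsUnique_ext ι F₀ x₀ hx₀ (Deg.degStmt ι F₀) p

end Ext

section Red

variable {K F : Type*} [Field K] [Field F] [Algebra K F]

/-- The contract's `IsRed` is `Lib.ReducedDivisor.IsReduced`. -/
theorem isRed_iff (P : Place K F) (D : Divisor K F) (m : ℕ) (E : Divisor K F) :
    IsRed P D m E ↔ ReducedDivisor.IsReduced P D m E := Iff.rfl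

variable {x : F} [FiniteDimensional K⟮x⟯ F] [Algebra.IsSeparable K⟮x⟯ F] [IsAlgClosed K]

theorem exists_isRed (hxt : Transcendental K x) (P : Place K F) (D : Divisor K F) :
    ∃ (m : ℕ) (E : Divisor K F), IsRed P D m E :=
  ReducedDivisor.exists_isReduced hxt P D

theorem isRed_unique (hxt : Transcendental K x) {P : Place K F} {D : Divisor K F}
    (hD : Divisor.degree D = 0) {m m' : ℕ} {E E' : Divisor K F} (h : IsRed P D m E)
    (h' : IsRed P D m' E') : m = m' ∧ E = E' :=
  ReducedDivisor.IsReduced.unique hxt hD h h'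

/-- **(D4)** the corrected form of `Desc.RedStmt` (uniqueness for divisors of degree zero). -/
theorem redStmt_deg (hxt : Transcendental K x) (P : Place K F) :
    (∀ D : Divisor K F, Divisor.degree D = 0 → ∃ (m : ℕ) (E : Divisor K F), IsRed P D m E) ∧
    (∀ (D : Divisor K F), Divisor.degree D = 0 → ∀ (m m' : ℕ) (E E' : Divisor K F),
      IsRed P D m E → IsRed P D m' E' → m = m' ∧ E = E') :=
  ⟨fun D _ => exists_isRed hxt P D, fun _ hD _ _ _ _ h h' => isRed_unique hxt hD h h'⟩

end Red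

end Fermat.Agent.P5.DescExt
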