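import Mathlib
import Fermat.Agent.P5.Plan
import Fermat.Agent.Lib.EigenCharLattice

/-!
# P5: the eigenvector contract `Plan.EigVecStmt` (helper89)

A character `χ` of the Hecke algebra with values in a domain `O` of characteristic zero has a
nonzero eigenvector in `O ⊗[ℤ] Lat N`.

* `exists_eigenvector_tensor` : the abstract statement (a commutative ring acting faithfully on
  a finite free `ℤ`-module `L`; eigenvector in `O ⊗[ℤ] L`), with the coordinates of the
  eigenvector;
* `eigVecStmt : Plan.EigVecStmt` : the contract of `P5/Plan.lean`, verbatim.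
-/

set_option autoImplicit false

open scoped TensorProduct

namespace Fermat.Agent.P5.EigVec

/-- The `k₀`-th coordinate `O ⊗[ℤ] L → O`, `o ⊗ x ↦ (b.coord k₀ x) • o`. -/
noncomputable def coordT {O : Type*} [CommRing O] {L : Type*} [AddCommGroup L] {κ : Type*}
    (b : Module.Basis κ ℤ L) (k₀ : κ) : O ⊗[ℤ] L →ₗ[ℤ] O :=
  TensorProduct.lift (((LinearMap.lsmul ℤ O).flip).compl₂ (b.coord k₀))

theorem coordT_tmul {O : Type*} [CommRing O] {L : Type*} [AddCommGroup L] {κ : Type*}
    (b : Module.Basis κ ℤ L) (k₀ : κ) (o : O) (x : L) :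
    coordT b k₀ (o ⊗ₜ[ℤ] x) = b.coord k₀ x • o := rfl

theorem coordT_sum {O : Type*} [CommRing O] {L : Type*} [AddCommGroup L] {κ : Type*} [Fintype κ]
    [DecidableEq κ] (b : Module.Basis κ ℤ L) (k₀ : κ) (o : κ → O) :
    coordT b k₀ (∑ k, o k ⊗ₜ[ℤ] b k) = o k₀ := by
  rw [map_sum]
  have h1 : ∀ k, coordT b k₀ (o k ⊗ₜ[ℤ] b k) = if k = k₀ then o k else 0 := by
    intro k
    rw [coordT_tmul, Module.Basis.coord_apply, Module.Basis.repr_self, Finsupp.single_apply]
    split_ifs with h
    · rw [one_smul]
    · rw [zero_smul]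
  rw [Finset.sum_congr rfl fun k _ => h1 k, Finset.sum_ite_eq' Finset.univ k₀ o,
    if_pos (Finset.mem_univ _)]

/-- **Eigenvector for a character, tensor form.**  A commutative ring `A` acting faithfully on a
finite free `ℤ`-module `L` with basis `b`, and a character `χ : A →+* O` with values in a domain
of characteristic zero: `O ⊗[ℤ] L` contains a nonzero eigenvector `∑ k, o k ⊗ b k` with
eigencharacter `χ`. -/
theorem exists_eigenvector_tensor_coord {O : Type*} [CommRing O] [IsDomain O] [CharZero O]
    {L : Type*} [AddCommGroup L] {κ : Type*} [Fintype κ] (b : Module.Basis κ ℤ L)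
    {A : Type*} [CommRing A] (act : A →+* Module.End ℤ L) (hact : Function.Injective act)
    (χ : A →+* O) :
    ∃ o : κ → O, o ≠ 0 ∧
      ∀ a : A, LinearMap.lTensor O (act a) (∑ k, o k ⊗ₜ[ℤ] b k) = χ a • ∑ k, o k ⊗ₜ[ℤ] b k := by
  classical
  let E := FractionRing O
  haveI : CharZero E := charZero_of_injective_algebraMap (IsFractionRing.injective O E)
  have hOE : Function.Injective (algebraMap O E) := IsFractionRing.injective O E
  let actM : A →+* Matrix κ κ ℤ :=
    (LinearMap.toMatrixAlgEquiv b : Module.End ℤ L ≃ₐ[ℤ] Matrix κ κ ℤ).toRingEquiv.toRingHom.comp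
      act
  have hactM : ∀ a, actM a = LinearMap.toMatrixAlgEquiv b (act a) := fun a => rfl
  have h' : ∀ a, actM a = 0 → ((algebraMap O E).comp χ) a = 0 := by
    intro a ha
    have h1 : act a = 0 := by
      apply (LinearMap.toMatrixAlgEquiv b : Module.End ℤ L ≃ₐ[ℤ] Matrix κ κ ℤ).injective
      rw [map_zero]
      exact ha
    have h2 : a = 0 := hact (by rw [h1, map_zero])
    rw [h2, map_zero]
  obtain ⟨u, hu0, hu⟩ := Fermat.Agent.Lib.EigenCharLattice.exists_eigenvector_matrix actM
    ((algebraMap O E).comp χ) h'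
  have hmv : ∀ a l, ∑ k, ((actM a l k : ℤ) : E) * u k = algebraMap O E (χ a) * u l := by
    intro a l
    have := congrFun (hu a) l
    simpa [Matrix.mulVec, dotProduct] using this
  -- clear denominators
  obtain ⟨d, hd⟩ := IsLocalization.exist_integer_multiples (nonZeroDivisors O)
    (Finset.univ : Finset κ) u
  have hd0 : algebraMap O E (d : O) ≠ 0 := by
    intro h0
    exact nonZeroDivisors.coe_ne_zero d ((injective_iff_map_eq_zero (algebraMap O E)).mp hOE _ h0)
  choose o ho using fun k => hd k (Finset.mem_univ k)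
  have ho' : ∀ k, algebraMap O E (o k) = algebraMap O E (d : O) * u k := by
    intro k
    rw [ho k, Algebra.smul_def]
  have hoeq : ∀ a l, ∑ k, ((actM a l k : ℤ) : O) * o k = χ a * o l := by
    intro a l
    apply hOE
    rw [map_sum, map_mul, ho' l]
    calc ∑ k, algebraMap O E (((actM a l k : ℤ) : O) * o k)
        = algebraMap O E (d : O) * ∑ k, ((actM a l k : ℤ) : E) * u k := by
          rw [Finset.mul_sum]
          refine Finset.sum_congr rfl fun k _ => ?_
          rw [map_mul, ho' k, map_intCast]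
          ring
      _ = algebraMap O E (χ a) * (algebraMap O E (d : O) * u l) := by
          rw [hmv a l]
          ring
  refine ⟨o, ?_, fun a => ?_⟩
  · intro h0
    apply hu0
    funext k
    have h1 := ho' k
    rw [h0, Pi.zero_apply, map_zero] at h1
    rcases mul_eq_zero.mp h1.symm with h | h
    · exact absurd h hd0
    · exact h
  · have hexp : ∀ k, act a (b k) = ∑ l, (actM a l k) • b l := by
      intro k
      conv_lhs => rw [← b.sum_repr (act a (b k))]
      refine Finset.sum_congr rfl fun l _ => ?_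
      rw [hactM, LinearMap.toMatrixAlgEquiv_apply]
    rw [map_sum, Finset.smul_sum]
    calc ∑ k, LinearMap.lTensor O (act a) (o k ⊗ₜ[ℤ] b k)
        = ∑ k, ∑ l, (((actM a l k : ℤ) : O) * o k) ⊗ₜ[ℤ] b l := by
          refine Finset.sum_congr rfl fun k _ => ?_
          rw [LinearMap.lTensor_tmul, hexp, TensorProduct.tmul_sum]
          refine Finset.sum_congr rfl fun l _ => ?_
          rw [TensorProduct.tmul_smul, TensorProduct.smul_tmul', zsmul_eq_mul]
      _ = ∑ l, (∑ k, ((actM a l k : ℤ) : O) * o k) ⊗ₜ[ℤ] b l := by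
          rw [Finset.sum_comm]
          refine Finset.sum_congr rfl fun l _ => ?_
          rw [TensorProduct.sum_tmul]
      _ = ∑ l, χ a • o l ⊗ₜ[ℤ] b l := by
          refine Finset.sum_congr rfl fun l _ => ?_
          rw [hoeq, TensorProduct.smul_tmul', smul_eq_mul]

/-- **Eigenvector for a character, tensor form** (existence only). -/
theorem exists_eigenvector_tensor {O : Type*} [CommRing O] [IsDomain O] [CharZero O]
    {L : Type*} [AddCommGroup L] {κ : Type*} [Fintype κ] (b : Module.Basis κ ℤ L)
    {A : Type*} [CommRing A] (act : A →+* Module.End ℤ L) (hact : Function.Injective act)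
    (χ : A →+* O) :
    ∃ v : O ⊗[ℤ] L, v ≠ 0 ∧ ∀ a : A, LinearMap.lTensor O (act a) v = χ a • v := by
  classical
  obtain ⟨o, ho0, ho⟩ := exists_eigenvector_tensor_coord b act hact χ
  refine ⟨∑ k, o k ⊗ₜ[ℤ] b k, fun h0 => ho0 ?_, ho⟩
  funext k
  rw [← coordT_sum b k o, h0, map_zero, Pi.zero_apply]

/-- **[EIGVEC]** the contract of `P5/Plan.lean`: a character of the Hecke algebra with values in
a domain of characteristic zero has a nonzero eigenvector in `O ⊗[ℤ] Lat N`. -/
theorem eigVecStmt : Fermat.Agent.P5.Plan.EigVecStmt := by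
  intro N _ S hNS O _ _ _ χ
  obtain ⟨s, b, -, -⟩ := Fermat.Agent.P5.Per.exists_lat_basis N
  exact exists_eigenvector_tensor b (Fermat.Agent.P5.Per.heckeAct N S hNS)
    (Fermat.Agent.P5.Per.heckeAct_injective N S hNS) χ

end Fermat.Agent.P5.EigVec
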