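import Mathlib
import Fermat.Prelude.Def_ModularCurve_HeckeModule
import Fermat.Prelude.Thm_ModularCurve_coeffMap_qExpand
import Fermat.Agent.Lib.CorrSemilinear
import Fermat.Agent.S37.HeckeInputs

/-!
# P5 block [G2]: Galois commutes with the Hecke operators on `J₀(N)(Q̄)` (helper94)

The Prelude's Hecke operator `heckeOperatorBar N ℓ` on `JZero N = Pic⁰` of the function field
of `X₀(N)` over `Q̄` is the correspondence `α_* ∘ β^*` of the two degeneracy maps
`α, β : F_N → F_{Nℓ}` (`S37/HeckeInputs`).  Both maps are defined over `ℚ`: they commute with the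
coefficientwise action of `Gal(Q̄/ℚ)`.  Hence the Hecke operators commute with the Galois action
on `JZero N` — for every prime `ℓ`, with no hypothesis.
-/

set_option autoImplicit false
set_option linter.unusedSectionVars false
set_option linter.style.haveILetI false

noncomputable section

namespace Fermat.Agent.P5.GalHecke

open AlgebraicCurve ModularCurve Fermat.Agent.Lib Fermat.Agent.S37

section Along

variable (N ℓ : ℕ) [NeZero N] [NeZero ℓ]
  (σ : AlgebraicClosure ℚ ≃ₐ[ℚ] AlgebraicClosure ℚ)

/-- The coefficientwise Galois action commutes with the inclusion `α : F_N → F_{Nℓ}`. -/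
theorem intertwines_alpha :
    SemilinearAut.IntertwinesAlong
      (heckeAlphaBar (AlgebraicClosure ℚ) N ℓ :
        laurentBaseChange (AlgebraicClosure ℚ) (modularFunctionFieldFull N) →+*
          laurentBaseChange (AlgebraicClosure ℚ) (modularFunctionFieldFull (N * ℓ)))
      (arithmeticGalois (modularFunctionFieldFull N) σ)
      (arithmeticGalois (modularFunctionFieldFull (N * ℓ)) σ) := by
  intro x
  apply Subtype.ext
  show coeffMap (σ : AlgebraicClosure ℚ →+* AlgebraicClosure ℚ)
      ((heckeAlphaBar (AlgebraicClosure ℚ) N ℓ x :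
        ↥(laurentBaseChange (AlgebraicClosure ℚ) (modularFunctionFieldFull (N * ℓ)))) :
        LaurentSeries (AlgebraicClosure ℚ)) =
    ((heckeAlphaBar (AlgebraicClosure ℚ) N ℓ
      (arithmeticGalois (modularFunctionFieldFull N) σ • x) :
        ↥(laurentBaseChange (AlgebraicClosure ℚ) (modularFunctionFieldFull (N * ℓ)))) :
        LaurentSeries (AlgebraicClosure ℚ))
  rw [coe_heckeAlphaBar, coe_heckeAlphaBar]
  rfl

/-- The coefficientwise Galois action commutes with `β : F_N → F_{Nℓ}`, `q ↦ q^ℓ`. -/
theorem intertwines_beta :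
    SemilinearAut.IntertwinesAlong
      (heckeBetaBar (AlgebraicClosure ℚ) N ℓ :
        laurentBaseChange (AlgebraicClosure ℚ) (modularFunctionFieldFull N) →+*
          laurentBaseChange (AlgebraicClosure ℚ) (modularFunctionFieldFull (N * ℓ)))
      (arithmeticGalois (modularFunctionFieldFull N) σ)
      (arithmeticGalois (modularFunctionFieldFull (N * ℓ)) σ) := by
  intro x
  apply Subtype.ext
  show coeffMap (σ : AlgebraicClosure ℚ →+* AlgebraicClosure ℚ)
      ((heckeBetaBar (AlgebraicClosure ℚ) N ℓ x :
        ↥(laurentBaseChange (AlgebraicClosure ℚ) (modularFunctionFieldFull (N * ℓ)))) :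
        LaurentSeries (AlgebraicClosure ℚ)) =
    ((heckeBetaBar (AlgebraicClosure ℚ) N ℓ
      (arithmeticGalois (modularFunctionFieldFull N) σ • x) :
        ↥(laurentBaseChange (AlgebraicClosure ℚ) (modularFunctionFieldFull (N * ℓ)))) :
        LaurentSeries (AlgebraicClosure ℚ))
  rw [coe_heckeBetaBar, coe_heckeBetaBar, ModularCurve.coeffMap_qExpand]
  rfl

/-- The divisor-level Hecke correspondence commutes with Galois. -/
theorem galois_smul_heckeDivBar
    (D : Divisor (AlgebraicClosure ℚ)
      (laurentBaseChange (AlgebraicClosure ℚ) (modularFunctionFieldFull N))) :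
    haveI := HeckeInputs.hasPrincipalDivisors_FN (N * ℓ)
    arithmeticGalois (modularFunctionFieldFull N) σ •
        heckeDivBar (HeckeInputs.heckeAlphaBarIntegral N ℓ) (HeckeInputs.heckeBetaBarIntegral N ℓ) D =
      heckeDivBar (HeckeInputs.heckeAlphaBarIntegral N ℓ) (HeckeInputs.heckeBetaBarIntegral N ℓ)
        (arithmeticGalois (modularFunctionFieldFull N) σ • D) := by
  haveI := HeckeInputs.hasPrincipalDivisors_FN (N * ℓ)
  exact CorrSemilinear.smul_correspondence _ _ _ _ (intertwines_beta N ℓ σ)
    (intertwines_alpha N ℓ σ) D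

/-- The Prelude's Hecke operator (total form) commutes with Galois. -/
theorem galois_smul_heckeOperatorAlong (x : JZero N) :
    σ • heckeOperatorAlong (AlgebraicClosure ℚ) N ℓ x =
      heckeOperatorAlong (AlgebraicClosure ℚ) N ℓ (σ • x) := by
  haveI := HeckeInputs.hasPrincipalDivisors_FN (N * ℓ)
  rw [HeckeInputs.heckeOperatorAlong_eq_heckePic0Bar, galois_smul_pic0_def,
    galois_smul_pic0_def]
  exact CorrSemilinear.smul_pic0_correspondence _ _ _ _ _ _ _ (intertwines_beta N ℓ σ)
    (intertwines_alpha N ℓ σ) x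

end Along

variable (N : ℕ) [NeZero N]

/-- **[G2]** The Hecke operators on `J₀(N)(Q̄)` commute with `Gal(Q̄/ℚ)`. -/
theorem galois_smul_heckeOperatorBar (ℓ : Nat.Primes)
    (σ : AlgebraicClosure ℚ ≃ₐ[ℚ] AlgebraicClosure ℚ) (x : JZero N) :
    σ • heckeOperatorBar N ℓ x = heckeOperatorBar N ℓ (σ • x) := by
  haveI : NeZero (ℓ : ℕ) := ⟨ℓ.2.ne_zero⟩
  exact galois_smul_heckeOperatorAlong N ℓ σ x

/-- Every element of the ring generated by the Hecke operators commutes with Galois. -/
theorem galois_smul_of_mem_adjoin (σ : AlgebraicClosure ℚ ≃ₐ[ℚ] AlgebraicClosure ℚ)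
    {T : Module.End ℤ (JZero N)}
    (hT : T ∈ Algebra.adjoin ℤ (Set.range (heckeOperatorBar N))) (x : JZero N) :
    σ • T x = T (σ • x) := by
  induction hT using Algebra.adjoin_induction generalizing x with
  | mem T hT =>
    obtain ⟨ℓ, rfl⟩ := hT
    exact galois_smul_heckeOperatorBar N ℓ σ x
  | algebraMap r =>
    rw [Algebra.algebraMap_eq_smul_one, LinearMap.smul_apply, LinearMap.smul_apply,
      Module.End.one_apply, Module.End.one_apply]
    exact map_zsmul (DistribSMul.toAddMonoidHom (JZero N) σ) r x
  | add T U _ _ hT hU =>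
    rw [LinearMap.add_apply, LinearMap.add_apply, smul_add, hT, hU]
  | mul T U _ _ hT hU =>
    rw [Module.End.mul_apply, Module.End.mul_apply, hT, hU]

/-- The hypothesis `SMulCommClass Gal HeckeAlg (JZero N)` of the frozen Eichler–Shimura
statement holds unconditionally (in both branches of the Prelude's `heckeModuleBar`). -/
theorem smulCommClass_heckeModuleBar :
    letI := heckeModuleBar N
    SMulCommClass (AlgebraicClosure ℚ ≃ₐ[ℚ] AlgebraicClosure ℚ) HeckeAlg (JZero N) := by
  letI := heckeModuleBar N
  refine ⟨fun σ t x => ?_⟩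
  by_cases h : HeckeOperatorsCommuteBar N
  · rw [heckeModuleBar_smul_def h, heckeModuleBar_smul_def h, heckeEvalBar_apply]
    exact galois_smul_of_mem_adjoin N σ (heckeEvalBarAux h t).2 x
  · rw [heckeModuleBar_smul_of_not h, heckeModuleBar_smul_of_not h]
    exact map_zsmul (DistribSMul.toAddMonoidHom (JZero N) σ) _ x

end Fermat.Agent.P5.GalHecke
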