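/-
P5 (S30 → S29, S42), block [OPEN] (helper20): every point of `JZero N` has an OPEN stabiliser
for the arithmetic Galois action.

The frozen `GaloisActionIsAdicContinuous`, `GaloisFactorsThroughFiniteLevel` and the number field
`F` of S42 ask for a finite extension `M / ℚ` such that `Gal(ℚ̄ / M)` acts trivially; finiteness of
`J[p^k]` alone only gives a finite-index kernel.  Here:

* `exists_fixing_coeffMap` : every element of `laurentBaseChange L F₀` is fixed by `Gal(L / M)`
  for some finite `M / ℚ` (`L / ℚ` algebraic);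
* `exists_fixing_place`    : the same for places (uses that a nonzero function has finitely many
  zeros, `HasPrincipalDivisors`, and that two distinct discrete valuation rings of one field are
  incomparable);
* `exists_fixing_divisor`, `exists_fixing_pic0`, `exists_fixing_pic0_finite`,
  `exists_normal_fixing_pic0_finite` : divisors, divisor classes, finite sets of classes, with a
  normal `M`.
-/
import Mathlib
import Fermat.Prelude.Def_ModularCurve_ArithmeticGalois

set_option autoImplicit false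

open ModularCurve AlgebraicCurve IntermediateField
open scoped Pointwise

noncomputable section

namespace Fermat.Agent.P5.OpenStab

/-! ### Finite composita of "fixing fields" -/

section Fixing

variable {L : Type*} [Field L] [Algebra ℚ L]

/-- Two properties that hold on `Gal(L/M₁)` resp. `Gal(L/M₂)` hold together on the Galois group
of the compositum. -/
theorem exists_fixing_and {p q : (L ≃ₐ[ℚ] L) → Prop}
    (hp : ∃ M : IntermediateField ℚ L, FiniteDimensional ℚ M ∧
      ∀ σ : L ≃ₐ[ℚ] L, (∀ y ∈ M, σ y = y) → p σ)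
    (hq : ∃ M : IntermediateField ℚ L, FiniteDimensional ℚ M ∧
      ∀ σ : L ≃ₐ[ℚ] L, (∀ y ∈ M, σ y = y) → q σ) :
    ∃ M : IntermediateField ℚ L, FiniteDimensional ℚ M ∧
      ∀ σ : L ≃ₐ[ℚ] L, (∀ y ∈ M, σ y = y) → p σ ∧ q σ := by
  obtain ⟨M₁, h₁, hp⟩ := hp
  obtain ⟨M₂, h₂, hq⟩ := hq
  refine ⟨M₁ ⊔ M₂, IntermediateField.finiteDimensional_sup M₁ M₂, fun σ hσ => ⟨?_, ?_⟩⟩
  · exact hp σ fun y hy => hσ y ((le_sup_left : M₁ ≤ M₁ ⊔ M₂) hy)
  · exact hq σ fun y hy => hσ y ((le_sup_right : M₂ ≤ M₁ ⊔ M₂) hy)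

/-- The trivially true property holds on `Gal(L/ℚ)`. -/
theorem exists_fixing_true {p : (L ≃ₐ[ℚ] L) → Prop} (hp : ∀ σ, p σ) :
    ∃ M : IntermediateField ℚ L, FiniteDimensional ℚ M ∧
      ∀ σ : L ≃ₐ[ℚ] L, (∀ y ∈ M, σ y = y) → p σ :=
  ⟨⊥, inferInstance, fun σ _ => hp σ⟩

/-- Finitely many properties, each holding on some `Gal(L/Mᵢ)` with `Mᵢ/ℚ` finite, hold together
on `Gal(L/M)` for one finite `M/ℚ`. -/
theorem exists_fixing_finite {ι : Type*} {s : Set ι} (hs : s.Finite)
    {p : ι → (L ≃ₐ[ℚ] L) → Prop}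
    (h : ∀ i ∈ s, ∃ M : IntermediateField ℚ L, FiniteDimensional ℚ M ∧
      ∀ σ : L ≃ₐ[ℚ] L, (∀ y ∈ M, σ y = y) → p i σ) :
    ∃ M : IntermediateField ℚ L, FiniteDimensional ℚ M ∧
      ∀ σ : L ≃ₐ[ℚ] L, (∀ y ∈ M, σ y = y) → ∀ i ∈ s, p i σ := by
  induction s, hs using Set.Finite.induction_on with
  | empty => exact exists_fixing_true fun σ i hi => absurd hi (Set.notMem_empty i)
  | @insert a t _ _ ih =>
    obtain ⟨M, hM, hMp⟩ := exists_fixing_and (h a (Set.mem_insert a t))
      (ih fun i hi => h i (Set.mem_insert_of_mem a hi))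
    refine ⟨M, hM, fun σ hσ i hi => ?_⟩
    rcases hi with rfl | hi
    · exact (hMp σ hσ).1
    · exact (hMp σ hσ).2 i hi

end Fixing

/-! ### Functions -/

section Functions

variable {L : Type*} [Field L] [Algebra ℚ L] [Algebra.IsAlgebraic ℚ L]
variable (F₀ : IntermediateField ℚ (LaurentSeries ℚ))

/-- **(O1)** Every element of `laurentBaseChange L F₀` is fixed by the coefficientwise action of
`Gal(L/M)` for some finite `M/ℚ`. -/
theorem exists_fixing_coeffMap {x : LaurentSeries L} (hx : x ∈ laurentBaseChange L F₀) :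
    ∃ M : IntermediateField ℚ L, FiniteDimensional ℚ M ∧
      ∀ σ : L ≃ₐ[ℚ] L, (∀ y ∈ M, σ y = y) → coeffMap (σ : L →+* L) x = x := by
  rw [mem_laurentBaseChange_iff] at hx
  induction hx using Subfield.closure_induction with
  | mem y hy =>
      rcases hy with ⟨a, rfl⟩ | ⟨z, _, rfl⟩
      · refine ⟨ℚ⟮a⟯, IntermediateField.adjoin.finiteDimensional
          (Algebra.IsIntegral.isIntegral a), fun σ hσ => ?_⟩
        rw [coeffMap_algebraMap]
        have : (σ : L →+* L) a = a := hσ a (IntermediateField.mem_adjoin_simple_self ℚ a)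
        rw [this]
      · exact exists_fixing_true fun σ => coeffMap_coeffEmb σ z
  | one => exact exists_fixing_true fun σ => map_one _
  | add x y _ _ hx hy =>
      obtain ⟨M, hM, h⟩ := exists_fixing_and hx hy
      exact ⟨M, hM, fun σ hσ => by rw [map_add, (h σ hσ).1, (h σ hσ).2]⟩
  | neg x _ hx =>
      obtain ⟨M, hM, h⟩ := hx
      exact ⟨M, hM, fun σ hσ => by rw [map_neg, h σ hσ]⟩
  | inv x _ hx =>
      obtain ⟨M, hM, h⟩ := hx
      exact ⟨M, hM, fun σ hσ => by rw [map_inv₀, h σ hσ]⟩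
  | mul x y _ _ hx hy =>
      obtain ⟨M, hM, h⟩ := exists_fixing_and hx hy
      exact ⟨M, hM, fun σ hσ => by rw [map_mul, (h σ hσ).1, (h σ hσ).2]⟩

/-- (O1), in terms of the arithmetic Galois action on the function field. -/
theorem exists_fixing_function (f : laurentBaseChange L F₀) :
    ∃ M : IntermediateField ℚ L, FiniteDimensional ℚ M ∧
      ∀ σ : L ≃ₐ[ℚ] L, (∀ y ∈ M, σ y = y) → arithmeticGalois F₀ σ • f = f := by
  obtain ⟨M, hM, h⟩ := exists_fixing_coeffMap F₀ f.2
  exact ⟨M, hM, fun σ hσ => Subtype.ext (h σ hσ)⟩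

end Functions

/-! ### Places -/

section Places

variable {K F : Type*} [Field K] [Field F] [Algebra K F]

/-- Two places whose valuation rings are comparable are equal (a discrete valuation ring is a
maximal proper subring of its fraction field). -/
theorem place_eq_of_le {v w : Place K F} (h : v.toValuationSubring ≤ w.toValuationSubring) :
    v = w := by
  obtain ⟨π, hπ⟩ := IsDiscreteValuationRing.exists_irreducible v.toValuationSubring
  have hπ0 : (π : F) ≠ 0 := by
    simpa [ne_eq, ZeroMemClass.coe_eq_zero] using hπ.ne_zero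
  -- every element of `F` of nonnegative order lies in `v`
  have hmem : ∀ f : F, f ≠ 0 → 0 ≤ v.ord f → f ∈ v.toValuationSubring := by
    intro f hf hn
    obtain ⟨u, hu⟩ := v.exists_unit_mul_zpow hf hπ
    rw [hu]
    refine mul_mem (u : v.toValuationSubring).2 ?_
    obtain ⟨n, hn'⟩ := Int.eq_ofNat_of_zero_le hn
    rw [hn', zpow_natCast]
    exact pow_mem π.2 n
  apply Place.ext
  refine le_antisymm h fun x hx => ?_
  by_contra hxv
  have hx0 : x ≠ 0 := fun h0 => hxv (h0 ▸ zero_mem _)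
  have hneg : v.ord x < 0 := by
    by_contra hge
    exact hxv (hmem x hx0 (not_lt.mp hge))
  -- then `π⁻¹ ∈ w`, hence `w = ⊤`
  obtain ⟨u, hu⟩ := v.exists_unit_mul_zpow hx0 hπ
  have hu0 : ((u : v.toValuationSubring) : F) ≠ 0 := by
    simp [ne_eq, ZeroMemClass.coe_eq_zero]
  have hpow : (π : F) ^ (v.ord x) ∈ w.toValuationSubring := by
    have h1 : (π : F) ^ (v.ord x) = (((u⁻¹ : v.toValuationSubringˣ) : v.toValuationSubring) : F) * x := by
      have h2 : (((u⁻¹ : v.toValuationSubringˣ) : v.toValuationSubring) : F)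
          * ((u : v.toValuationSubring) : F) = 1 := by
        have h3 := congrArg (fun z : v.toValuationSubring => (z : F)) (Units.inv_mul u)
        simpa only [MulMemClass.coe_mul, OneMemClass.coe_one] using h3
      conv_rhs => rw [hu, ← mul_assoc, h2, one_mul]
    rw [h1]
    exact mul_mem (h ((u⁻¹ : v.toValuationSubringˣ) : v.toValuationSubring).2) hx
  have hπinv : (π : F)⁻¹ ∈ w.toValuationSubring := by
    obtain ⟨m, hm⟩ := Int.exists_eq_neg_ofNat hneg.le
    have hm0 : m ≠ 0 := by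
      rintro rfl
      rw [hm] at hneg
      simp at hneg
    rw [hm, zpow_neg, zpow_natCast] at hpow
    have h3 : (π : F)⁻¹ = (π : F) ^ (m - 1) * ((π : F) ^ m)⁻¹ := by
      have hm1 : m = (m - 1) + 1 := by omega
      conv_rhs => rw [hm1, pow_succ, Nat.add_sub_cancel]
      field_simp
    rw [h3]
    exact mul_mem (pow_mem (h π.2) _) hpow
  apply w.ne_top'
  refine SetLike.ext fun y => ⟨fun _ => ValuationSubring.mem_top y, fun _ => ?_⟩
  rcases eq_or_ne y 0 with rfl | hy
  · exact zero_mem _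
  obtain ⟨u', hu'⟩ := v.exists_unit_mul_zpow hy hπ
  rw [hu']
  refine mul_mem (h (u' : v.toValuationSubring).2) ?_
  rcases le_or_gt 0 (v.ord y) with hn | hn
  · obtain ⟨n, hn'⟩ := Int.eq_ofNat_of_zero_le hn
    rw [hn', zpow_natCast]
    exact pow_mem (h π.2) n
  · obtain ⟨m, hm⟩ := Int.exists_eq_neg_ofNat hn.le
    rw [hm, zpow_neg, zpow_natCast, ← inv_pow]
    exact pow_mem hπinv m

/-- A nonzero function has finitely many zeros and poles. -/
theorem finite_ord_ne_zero [HasPrincipalDivisors K F] {f : F} (hf : f ≠ 0) :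
    {v : Place K F | v.ord f ≠ 0}.Finite := by
  obtain ⟨D, hD, _⟩ := HasPrincipalDivisors.exists_divisor (K := K) f hf
  refine D.support.finite_toSet.subset fun v hv => ?_
  rw [Finset.mem_coe, Finsupp.mem_support_iff, hD v]
  exact hv

end Places

section Abstract

variable {L : Type*} [Field L] [Algebra ℚ L]
variable {K F : Type*} [Field K] [Field F] [Algebra K F]

/-- Abstract **(O2)**: if every function is fixed by `Gal(L/M)` (acting through `φ`) for some
finite `M/ℚ`, then so is every place. -/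
theorem exists_fixing_place_of_function [HasPrincipalDivisors K F]
    (φ : (L ≃ₐ[ℚ] L) → SemilinearAut K F)
    (hφ : ∀ f : F, ∃ M : IntermediateField ℚ L, FiniteDimensional ℚ M ∧
      ∀ σ : L ≃ₐ[ℚ] L, (∀ y ∈ M, σ y = y) → φ σ • f = f)
    (P : Place K F) :
    ∃ M : IntermediateField ℚ L, FiniteDimensional ℚ M ∧
      ∀ σ : L ≃ₐ[ℚ] L, (∀ y ∈ M, σ y = y) → φ σ • P = P := by
  classical
  obtain ⟨π, hπ⟩ := IsDiscreteValuationRing.exists_irreducible P.toValuationSubring
  have hπ0 : (π : F) ≠ 0 := by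
    simpa [ne_eq, ZeroMemClass.coe_eq_zero] using hπ.ne_zero
  have hord : P.ord (π : F) = 1 := P.ord_coe_irreducible hπ
  have hZfin : {v : Place K F | v.ord (π : F) ≠ 0}.Finite := finite_ord_ne_zero hπ0
  -- separating functions
  have hsep : ∀ Q ∈ {v : Place K F | v.ord (π : F) ≠ 0},
      ∃ M : IntermediateField ℚ L, FiniteDimensional ℚ M ∧
      ∀ σ : L ≃ₐ[ℚ] L, (∀ y ∈ M, σ y = y) → φ σ • P ≠ Q ∨ Q = P := by
    intro Q _
    by_cases hQP : Q = P
    · exact exists_fixing_true fun σ => Or.inr hQP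
    · have hnle : ¬ P.toValuationSubring ≤ Q.toValuationSubring := fun hle =>
        hQP (place_eq_of_le hle).symm
      obtain ⟨y, hyP, hyQ⟩ := SetLike.not_le_iff_exists.mp hnle
      obtain ⟨M, hM, hMy⟩ := hφ y
      refine ⟨M, hM, fun σ hσ => Or.inl fun hσP => hyQ ?_⟩
      have h1 : φ σ • y ∈ (φ σ • P).toValuationSubring :=
        ValuationSubring.smul_mem_pointwise_smul (φ σ) y P.toValuationSubring hyP
      rw [hMy σ hσ, hσP] at h1
      exact h1
  obtain ⟨M₁, hM₁, h₁⟩ := exists_fixing_finite hZfin hsep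
  obtain ⟨M₂, hM₂, h₂⟩ := hφ (π : F)
  obtain ⟨M, hM, h⟩ := exists_fixing_and ⟨M₁, hM₁, h₁⟩ ⟨M₂, hM₂, h₂⟩
  refine ⟨M, hM, fun σ hσ => ?_⟩
  obtain ⟨hsepσ, hπσ⟩ := h σ hσ
  have hmem : (φ σ • P).ord (π : F) ≠ 0 := by
    have h3 := SemilinearAut.ord_smul (φ σ) P (π : F)
    rw [hπσ] at h3
    rw [h3, hord]
    exact one_ne_zero
  rcases hsepσ _ hmem with h4 | h4
  · exact absurd rfl h4
  · exact h4

/-- Abstract **(O3)**: if every place is fixed by some `Gal(L/M)`, so is every divisor. -/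
theorem exists_fixing_divisor_of_place
    (φ : (L ≃ₐ[ℚ] L) → SemilinearAut K F)
    (hφ : ∀ P : Place K F, ∃ M : IntermediateField ℚ L, FiniteDimensional ℚ M ∧
      ∀ σ : L ≃ₐ[ℚ] L, (∀ y ∈ M, σ y = y) → φ σ • P = P)
    (D : Divisor K F) :
    ∃ M : IntermediateField ℚ L, FiniteDimensional ℚ M ∧
      ∀ σ : L ≃ₐ[ℚ] L, (∀ y ∈ M, σ y = y) → φ σ • D = D := by
  classical
  obtain ⟨M, hM, h⟩ := exists_fixing_finite (s := (D.support : Set (Place K F)))
    D.support.finite_toSet (p := fun v σ => φ σ • v = v) fun v _ => hφ v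
  refine ⟨M, hM, fun σ hσ => ?_⟩
  rw [SemilinearAut.divisor_smul_def]
  conv_rhs => rw [← Finsupp.mapDomain_id (v := D)]
  exact Finsupp.mapDomain_congr fun v hv => h σ hσ v (Finset.mem_coe.mpr hv)

end Abstract

section PlacesGalois

variable {L : Type*} [Field L] [Algebra ℚ L] [Algebra.IsAlgebraic ℚ L]
variable (F₀ : IntermediateField ℚ (LaurentSeries ℚ))

/-- **(O2)** Every place of `laurentBaseChange L F₀` is fixed by `Gal(L/M)` for some finite
`M/ℚ`. -/
theorem exists_fixing_place [HasPrincipalDivisors L (laurentBaseChange L F₀)]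
    (P : Place L (laurentBaseChange L F₀)) :
    ∃ M : IntermediateField ℚ L, FiniteDimensional ℚ M ∧
      ∀ σ : L ≃ₐ[ℚ] L, (∀ y ∈ M, σ y = y) → arithmeticGalois F₀ σ • P = P :=
  exists_fixing_place_of_function (fun σ => arithmeticGalois F₀ σ)
    (fun f => exists_fixing_function F₀ f) P

/-- **(O3)** Every divisor is fixed by `Gal(L/M)` for some finite `M/ℚ`. -/
theorem exists_fixing_divisor [HasPrincipalDivisors L (laurentBaseChange L F₀)]
    (D : Divisor L (laurentBaseChange L F₀)) :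
    ∃ M : IntermediateField ℚ L, FiniteDimensional ℚ M ∧
      ∀ σ : L ≃ₐ[ℚ] L, (∀ y ∈ M, σ y = y) → arithmeticGalois F₀ σ • D = D :=
  exists_fixing_divisor_of_place (fun σ => arithmeticGalois F₀ σ)
    (fun P => exists_fixing_place F₀ P) D

/-- **(O3)** Every divisor class of degree zero is fixed by `Gal(L/M)` for some finite `M/ℚ`. -/
theorem exists_fixing_pic0 [HasPrincipalDivisors L (laurentBaseChange L F₀)]
    (x : Pic0 L (laurentBaseChange L F₀)) :
    ∃ M : IntermediateField ℚ L, FiniteDimensional ℚ M ∧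
      ∀ σ : L ≃ₐ[ℚ] L, (∀ y ∈ M, σ y = y) → σ • x = x := by
  obtain ⟨D, rfl⟩ := Pic0.mk_surjective x
  obtain ⟨M, hM, h⟩ := exists_fixing_divisor F₀ (D : Divisor L (laurentBaseChange L F₀))
  refine ⟨M, hM, fun σ hσ => ?_⟩
  rw [galois_smul_pic0_def, SemilinearAut.pic0_smul_mk]
  exact congrArg Pic0.mk (Subtype.ext (h σ hσ))

/-- **(O4)** A finite set of divisor classes is fixed pointwise by `Gal(L/M)` for some finite
`M/ℚ`. -/
theorem exists_fixing_pic0_finite [HasPrincipalDivisors L (laurentBaseChange L F₀)]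
    {X : Set (Pic0 L (laurentBaseChange L F₀))} (hX : X.Finite) :
    ∃ M : IntermediateField ℚ L, FiniteDimensional ℚ M ∧
      ∀ σ : L ≃ₐ[ℚ] L, (∀ y ∈ M, σ y = y) → ∀ x ∈ X, σ • x = x :=
  exists_fixing_finite hX fun x _ => exists_fixing_pic0 F₀ x

/-- Any finite subextension of a normal extension of `ℚ` lies in a finite normal one. -/
theorem exists_normal_ge {L : Type*} [Field L] [Algebra ℚ L] [Normal ℚ L]
    (M : IntermediateField ℚ L) (hM : FiniteDimensional ℚ M) :
    ∃ M' : IntermediateField ℚ L, M ≤ M' ∧ FiniteDimensional ℚ M' ∧ Normal ℚ M' := by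
  refine ⟨_, IntermediateField.le_normalClosure M, ?_, ?_⟩
  · exact @normalClosure.is_finiteDimensional ℚ M L _ _ _ (IntermediateField.algebra' M) _ hM
  · have h := @normalClosure.normal ℚ M L _ _ _ (IntermediateField.algebra' M) _ _
    have e : (DivisionRing.toRatAlgebra :
        Algebra ℚ (@IntermediateField.normalClosure ℚ M L _ _ _ (IntermediateField.algebra' M) _))
        = IntermediateField.algebra' _ := Subsingleton.elim _ _
    rw [e]
    exact h

omit [Algebra.IsAlgebraic ℚ L] in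
/-- **(O4), normal form**: the field can be taken normal over `ℚ`. -/
theorem exists_normal_fixing_pic0_finite [Normal ℚ L]
    [HasPrincipalDivisors L (laurentBaseChange L F₀)]
    {X : Set (Pic0 L (laurentBaseChange L F₀))} (hX : X.Finite) :
    ∃ M : IntermediateField ℚ L, FiniteDimensional ℚ M ∧ Normal ℚ M ∧
      ∀ σ : L ≃ₐ[ℚ] L, (∀ y ∈ M, σ y = y) → ∀ x ∈ X, σ • x = x := by
  obtain ⟨M, hM, h⟩ := exists_fixing_pic0_finite F₀ hX
  obtain ⟨M', hle, hfin, hnorm⟩ := exists_normal_ge M hM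
  exact ⟨M', hfin, hnorm, fun σ hσ x hx => h σ (fun y hy => hσ y (hle hy)) x hx⟩

end PlacesGalois

/-! ### The modular Jacobian -/

section JZero

local instance isAlgebraicQbar_os : Algebra.IsAlgebraic ℚ (AlgebraicClosure ℚ) :=
  AlgebraicClosure.isAlgebraic ℚ
local instance isAlgClosureQbar_os : IsAlgClosure ℚ (AlgebraicClosure ℚ) :=
  ⟨inferInstance, inferInstance⟩
local instance normalQbar_os : Normal ℚ (AlgebraicClosure ℚ) :=
  IsAlgClosure.normal ℚ (AlgebraicClosure ℚ)

variable (N : ℕ)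
  [HasPrincipalDivisors (AlgebraicClosure ℚ) (modularFunctionFieldBar N)]

/-- Every point of `J₀(N)(ℚ̄)` has an open stabiliser. -/
theorem exists_fixing_jzero (x : JZero N) :
    ∃ M : IntermediateField ℚ (AlgebraicClosure ℚ), FiniteDimensional ℚ M ∧
      ∀ σ : AlgebraicClosure ℚ ≃ₐ[ℚ] AlgebraicClosure ℚ, (∀ y ∈ M, σ y = y) → σ • x = x :=
  exists_fixing_pic0 (modularFunctionFieldFull N) x

/-- A finite set of points of `J₀(N)(ℚ̄)` is fixed pointwise by `Gal(ℚ̄/M)` for a finite normal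
`M/ℚ`. -/
theorem exists_normal_fixing_jzero_finite {X : Set (JZero N)} (hX : X.Finite) :
    ∃ M : IntermediateField ℚ (AlgebraicClosure ℚ), FiniteDimensional ℚ M ∧ Normal ℚ M ∧
      ∀ σ : AlgebraicClosure ℚ ≃ₐ[ℚ] AlgebraicClosure ℚ, (∀ y ∈ M, σ y = y) →
        ∀ x ∈ X, σ • x = x :=
  exists_normal_fixing_pic0_finite (modularFunctionFieldFull N) hX

end JZero

end Fermat.Agent.P5.OpenStab
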