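/-
P5 — API for the canonical ring homomorphism `padicHom : ℤ_p →+* O` of `P5/CycloDelta.lean`
(owner: helper31).

`O` is a commutative ring, `I` an ideal with `O` `I`-adically complete and `p ∈ I`.

* `mk_padicHom`            : `padicHom x ≡ padicHomLevel n x` modulo `I ^ n`;
* `ringHom_ext_of_pow_eq_zero` : two ring homs out of `ℤ_p` into a ring in which `p ^ n = 0` agree;
* `padicHom_unique`        : `padicHom` is the only ring hom `ℤ_p →+* O`;
* `padicHom_sub_natCast_mem`: `padicHom x - (x.appr n : O) ∈ I ^ n`;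
* `padicHom_mem_pow`       : `x ∈ (p ^ n) → padicHom x ∈ I ^ n`;
* `padicHom_injective`     : injective as soon as `p` is not nilpotent in `O`
                             (`padicHom_injective_of_charZero` for a domain of characteristic `0`);
* `isTorsionFree_padicHom`, `flat_padicHom` : for a domain `O` of characteristic zero, `O` is a
  torsion-free, hence flat, `ℤ_p`-module through `padicHom`.
-/
import Mathlib
import Fermat.Agent.P5.CycloDelta

set_option autoImplicit false

namespace Fermat.Agent.P5.CycloDelta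

variable (p : ℕ) [Fact p.Prime]

/-- Two ring homomorphisms out of `ℤ_p` into a ring in which `p ^ n = 0` agree. -/
theorem ringHom_ext_of_pow_eq_zero {R : Type*} [Ring R] (n : ℕ) (h : (p : R) ^ n = 0)
    (g g' : ℤ_[p] →+* R) : g = g' := by
  have key : ∀ (f : ℤ_[p] →+* R) (x : ℤ_[p]), f x = ((x.appr n : ℕ) : R) := by
    intro f x
    obtain ⟨y, hy⟩ := Ideal.mem_span_singleton.mp (PadicInt.appr_spec n x)
    have hx : x = ((x.appr n : ℕ) : ℤ_[p]) + (p : ℤ_[p]) ^ n * y := by
      rw [← hy]; ring
    have h1 := congrArg f hx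
    rw [map_add, map_mul, map_pow, map_natCast, map_natCast, h, zero_mul, add_zero] at h1
    exact h1
  ext x
  rw [key g x, key g' x]

variable {O : Type*} [CommRing O] (I : Ideal O) [IsAdicComplete I O] (hp : (p : O) ∈ I)

/-- `padicHom x ≡ padicHomLevel n x` modulo `I ^ n`. -/
theorem mk_padicHom (n : ℕ) (x : ℤ_[p]) :
    Ideal.Quotient.mk (I ^ n) (padicHom p I hp x) = padicHomLevel p I hp n x :=
  IsAdicComplete.mk_liftRingHom I _ _ n x

/-- `padicHom` is the only ring homomorphism `ℤ_p →+* O`. -/
theorem padicHom_unique (f : ℤ_[p] →+* O) : f = padicHom p I hp := by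
  refine IsAdicComplete.eq_liftRingHom I _ _ f fun n => ?_
  refine ringHom_ext_of_pow_eq_zero p n ?_ _ _
  have h := natCast_pow_quot_eq_zero p I hp n
  rw [Nat.cast_pow] at h
  exact h

/-- `padicHom x ≡ x.appr n` modulo `I ^ n`. -/
theorem padicHom_sub_natCast_mem (x : ℤ_[p]) (n : ℕ) :
    padicHom p I hp x - ((x.appr n : ℕ) : O) ∈ I ^ n := by
  obtain ⟨y, hy⟩ := Ideal.mem_span_singleton.mp (PadicInt.appr_spec n x)
  have hx : x = ((x.appr n : ℕ) : ℤ_[p]) + (p : ℤ_[p]) ^ n * y := by
    rw [← hy]; ring
  have h1 := congrArg (padicHom p I hp) hx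
  rw [map_add, map_mul, map_pow, map_natCast, map_natCast] at h1
  have : padicHom p I hp x - ((x.appr n : ℕ) : O) = (p : O) ^ n * padicHom p I hp y := by
    rw [h1]; ring
  rw [this]
  exact Ideal.mul_mem_right _ _ (Ideal.pow_mem_pow hp n)

/-- `padicHom` maps `p ^ n ℤ_p` into `I ^ n`. -/
theorem padicHom_mem_pow (x : ℤ_[p]) (n : ℕ) (hx : x ∈ Ideal.span {(p : ℤ_[p]) ^ n}) :
    padicHom p I hp x ∈ I ^ n := by
  obtain ⟨y, rfl⟩ := Ideal.mem_span_singleton.mp hx
  rw [map_mul, map_pow, map_natCast]
  exact Ideal.mul_mem_right _ _ (Ideal.pow_mem_pow hp n)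

/-- `padicHom` is injective as soon as `p` is not nilpotent in `O`. -/
theorem padicHom_injective (h : ∀ k : ℕ, (p : O) ^ k ≠ 0) :
    Function.Injective (padicHom p I hp) := by
  rw [injective_iff_map_eq_zero]
  intro x hx
  by_contra hx0
  have hspec := PadicInt.unitCoeff_spec hx0
  rw [hspec, map_mul, map_pow, map_natCast] at hx
  have hu : IsUnit (padicHom p I hp ((PadicInt.unitCoeff hx0 : ℤ_[p]ˣ) : ℤ_[p])) :=
    (PadicInt.unitCoeff hx0).isUnit.map _
  exact h _ ((hu.mul_right_eq_zero).mp hx)

/-- `padicHom` is injective for a domain of characteristic zero. -/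
theorem padicHom_injective_of_charZero [IsDomain O] [CharZero O] :
    Function.Injective (padicHom p I hp) :=
  padicHom_injective p I hp fun k =>
    pow_ne_zero k (Nat.cast_ne_zero.mpr (Fact.out : p.Prime).ne_zero)

/-- For a domain `O` of characteristic zero, `O` is a torsion-free `ℤ_p`-module through
`padicHom`. -/
theorem isTorsionFree_padicHom [IsDomain O] [CharZero O] :
    letI := (padicHom p I hp).toAlgebra
    Module.IsTorsionFree ℤ_[p] O := by
  let _ := (padicHom p I hp).toAlgebra
  have hinj : Function.Injective (algebraMap ℤ_[p] O) := padicHom_injective_of_charZero p I hp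
  refine Module.IsTorsionFree.of_smul_eq_zero fun r m h => ?_
  rw [Algebra.smul_def, mul_eq_zero] at h
  rcases h with h | h
  · exact Or.inl (hinj (by rw [h, map_zero]))
  · exact Or.inr h

/-- For a domain `O` of characteristic zero, `O` is a flat `ℤ_p`-module through `padicHom`. -/
theorem flat_padicHom [IsDomain O] [CharZero O] :
    letI := (padicHom p I hp).toAlgebra
    Module.Flat ℤ_[p] O := by
  let _ := (padicHom p I hp).toAlgebra
  have := isTorsionFree_padicHom p I hp
  rw [Module.Flat.flat_iff_torsion_eq_bot_of_isBezout]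
  exact Submodule.isTorsionFree_iff_torsion_eq_bot.mp this

end Fermat.Agent.P5.CycloDelta
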