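import Mathlib
import Fermat.Agent.P5.Plan
import Fermat.Agent.P5.EigVec
import Fermat.Agent.P5.PadicHomApi
import Fermat.Agent.P5.GalHecke
import Fermat.Agent.P5.OpenStab
import Fermat.Agent.Lib.TateSeq

/-!
# P5 block [EIG]: the eigen-transfer block `Plan.TateBlock` (helper38)

`W` is the `χ`-eigenlattice of the Hecke operators `T^alg_ℓ` (`ℓ ∉ S`, `ℓ ∤ N`) in
`𝒪' ⊗[ℤ_p] T_p J₀(N)`, where `T_p J₀(N)` is the `p`-adic Tate module
(`Lib/TateSeq.lean`, finite free over `ℤ_p` by `FinTorsion`):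

* it is nonzero: the eigenvector of `Plan.EigVecStmt` in `𝒪' ⊗ Lat N` is carried into it by the
  family `lam (p ^ k)` of `Plan.LambdaStmt`;
* the Galois group acts on it (`GalHecke.galois_smul_heckeOperatorBar`), adically continuously
  (`OpenStab.exists_normal_fixing_jzero_finite` on the finite set `J₀(N)[p ^ n]`);
* inertia at `q ∤ N p` acts trivially and Frobenius at `ℓ ∉ S` satisfies
  `σ² - χ(T_ℓ) σ + ℓ = 0` (`S37.Core.CoreAll`).

`tate_abstract` is the statement for an abstract abelian group `J` with commuting operators;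
`tateBlock` instantiates it at `J₀(N)`.
-/

set_option autoImplicit false

open CuspForm ModularCurve
open scoped TensorProduct

namespace Fermat.Agent.P5.Eig

open Fermat.Agent.Lib Fermat.Agent.P5.Plan
open Fermat.Agent.P5.Per (Lat tcohL heckeAct)

/-! ### The abstract statement -/

/-- **The eigenlattice of the Tate module, abstractly.**  `J` is an abelian group with finite
`p ^ k`-torsion, `r` an action of `Gal(Q̄/ℚ)` with open stabilisers on finite sets, `t i` additive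
operators commuting with `r` on the `p`-power torsion; `lam k : L → J[p ^ k]` is a compatible
family out of a finite free `ℤ`-module with kernels `p ^ k • L`, intertwining operators `g i` of
`L` with the `t i`, and `v` is an eigenvector of the `g i` in `O ⊗ L` with eigenvalues `c i`.
Then the `c`-eigenlattice `W` of the `t i` in `O ⊗[ℤ_p] T_p J` is a nonzero finite free
`O`-module with an adically continuous action `ρ`; `ρ σ = 1` as soon as `r σ` is trivial on the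
`p`-power torsion, and every quadratic relation of `r σ` with `t i` on the `p`-power torsion
holds for `ρ σ` with `c i`. -/
theorem tate_abstract (p : ℕ) [Fact p.Prime] {J : Type} [AddCommGroup J]
    (O : Type) [CommRing O] [IsDomain O] [IsDiscreteValuationRing O] [CharZero O]
    (hpO : (p : O) ∈ IsLocalRing.maximalIdeal O) [Algebra ℤ_[p] O] [Module.Flat ℤ_[p] O]
    {ι : Type} (t : ι → AddMonoid.End J) (c : ι → O) (r : GQ →* AddMonoid.End J)
    (hr : ∀ (σ : GQ) (i : ι) (k : ℕ) (x : J), p ^ k • x = 0 → r σ (t i x) = t i (r σ x))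
    (hfin : ∀ k : ℕ, {x : J | p ^ k • x = 0}.Finite)
    (hopen : ∀ X : Set J, X.Finite → ∃ M : IntermediateField ℚ Qb, FiniteDimensional ℚ M ∧
      ∀ σ : GQ, (∀ y ∈ M, σ y = y) → ∀ x ∈ X, r σ x = x)
    {L : Type} [AddCommGroup L] {κ : Type} [Fintype κ] (b : Module.Basis κ ℤ L)
    (lam : ℕ → L →+ J) (h0 : ∀ k ψ, p ^ k • lam k ψ = 0)
    (h1 : ∀ k ψ, p • lam (k + 1) ψ = lam k ψ)
    (h2 : ∀ k ψ, lam k ψ = 0 → ∃ ψ' : L, ψ = p ^ k • ψ')
    (g : ι → L →ₗ[ℤ] L) (hg : ∀ i k ψ, t i (lam k ψ) = lam k (g i ψ))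
    (v : O ⊗[ℤ] L) (hv : v ≠ 0) (hveig : ∀ i, LinearMap.lTensor O (g i) v = c i • v) :
    ∃ (W : Type) (_ : AddCommGroup W) (_ : Module O W) (_ : Module.Free O W)
      (_ : Module.Finite O W) (ρ : GQ →* Module.End O W),
      Nontrivial W ∧ GaloisActionIsAdicContinuous O ρ ∧
      (∀ σ : GQ, (∀ (k : ℕ) (x : J), p ^ k • x = 0 → r σ x = x) → ρ σ = 1) ∧
      (∀ (i : ι) (σ : GQ) (n : ℕ),
        (∀ (k : ℕ) (x : J), p ^ k • x = 0 → r σ (r σ x) - t i (r σ x) + n • x = 0) →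
        ρ σ * ρ σ - c i • ρ σ + (n : O) • (1 : Module.End O W) = 0) := by
  classical
  have hp : p.Prime := Fact.out
  have hpO0 : (p : O) ≠ 0 := Nat.cast_ne_zero.mpr hp.ne_zero
  have hfin1 : {y : J | p • y = 0}.Finite := by
    have := hfin 1
    rwa [pow_one] at this
  have hθ : LinearIndependent ℤ_[p] (fun i => TateSeq.theta lam h0 h1 (b i)) :=
    TateSeq.linearIndependent_theta b lam h0 h1 h2
  have hg' : ∀ i ψ, TateSeq.tateMap p (t i) (TateSeq.theta lam h0 h1 ψ) =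
      TateSeq.theta lam h0 h1 (g i ψ) :=
    fun i ψ => TateSeq.Tate.ext' fun k => hg i k ψ
  obtain ⟨w, hw, hw0⟩ := TateSeq.exists_mem_eigenLattice_ne_zero b (TateSeq.theta lam h0 h1) hθ
    t c g hg' v hv hveig
  haveI hTF : Module.IsTorsionFree O (O ⊗[ℤ_[p]] TateSeq.Tate p J) :=
    TateSeq.isTorsionFree_tateO hfin1
  refine ⟨↥(TateSeq.eigenLattice p O t c), inferInstance, inferInstance,
    TateSeq.free_eigenLattice hfin1 t c, TateSeq.finite_eigenLattice hfin1 t c,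
    TateSeq.eigenRep r t c hr, ?_, ?_, ?_, ?_⟩
  · exact nontrivial_of_ne (⟨w, hw⟩ : TateSeq.eigenLattice p O t c) 0
      (fun h => hw0 (congrArg Subtype.val h))
  · -- adic continuity
    intro n
    obtain ⟨M, hMfin, hM⟩ := hopen _ (hfin n)
    refine ⟨M, hMfin, fun σ hσ v => ?_⟩
    obtain ⟨q, hq, hqe⟩ := TateSeq.mapO_sub_mem_eigenLattice hpO0 n (r σ)
      (fun x hx => hM σ hσ x hx) (hr σ) v.2
    have hv' : TateSeq.eigenRep r t c hr σ v - v =
        (p : O) ^ n • (⟨q, hq⟩ : TateSeq.eigenLattice p O t c) := Subtype.ext hqe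
    rw [hv']
    exact Submodule.smul_mem_smul (Ideal.pow_mem_pow hpO n) Submodule.mem_top
  · -- triviality
    intro σ hσ
    refine LinearMap.ext fun v => Subtype.ext ?_
    rw [TateSeq.eigenRep_apply]
    have h3 : TateSeq.mapO p O (r σ) = TateSeq.mapO p O 1 :=
      TateSeq.mapO_congr fun k x hx => hσ k x hx
    rw [h3, map_one]
    rfl
  · -- quadratic relations
    intro i σ n hσ
    refine LinearMap.ext fun v => Subtype.ext ?_
    have h3 := TateSeq.eigen_relation (O := O) (c := c) i (r σ) n (hr σ) hσ v.2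
    rw [LinearMap.add_apply, LinearMap.sub_apply, LinearMap.smul_apply, LinearMap.smul_apply,
      Module.End.mul_apply, Module.End.one_apply, LinearMap.zero_apply, Submodule.coe_add,
      Submodule.coe_sub, Submodule.coe_smul, Submodule.coe_smul, TateSeq.eigenRep_apply,
      Submodule.coe_zero]
    exact h3

/-! ### The instance `J = J₀(N)` -/

/-- The Galois action on `J₀(N)` as a monoid homomorphism into the additive endomorphisms. -/
noncomputable def galEnd (N : ℕ) : GQ →* AddMonoid.End (JZero N) :=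
  DistribMulAction.toAddMonoidEnd GQ (JZero N)

theorem galEnd_apply (N : ℕ) (σ : GQ) (x : JZero N) : galEnd N σ x = σ • x := rfl

/-- The good primes: `ℓ ∤ N`, `ℓ ∉ S`. -/
abbrev Good (N : ℕ) (S : Finset ℕ) : Type := {ℓ : ℕ // ℓ.Prime ∧ ¬ ℓ ∣ N ∧ ℓ ∉ (↑S : Set ℕ)}

/-- The Hecke operator `T^alg_ℓ` as an additive endomorphism of `J₀(N)`. -/
noncomputable def heckeEnd (N : ℕ) [NeZero N] (S : Finset ℕ) (i : Good N S) :
    AddMonoid.End (JZero N) :=
  (heckeOperatorBar N ⟨i.1, i.2.1⟩).toAddMonoidHom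

theorem heckeEnd_apply (N : ℕ) [NeZero N] (S : Finset ℕ) (i : Good N S) (x : JZero N) :
    heckeEnd N S i x = heckeOperatorBar N ⟨i.1, i.2.1⟩ x := rfl

theorem not_dvd_mul_of_ne {q N p : ℕ} (hq : q.Prime) (hp : p.Prime) (hqN : ¬ q ∣ N)
    (hqp : q ≠ p) : ¬ q ∣ N * p := fun h =>
  (hq.dvd_mul.mp h).elim hqN fun h' => hqp ((Nat.prime_dvd_prime_iff_eq hq hp).mp h')

/-- Galois commutes with the Hecke operators. -/
theorem galEnd_heckeEnd (N : ℕ) [NeZero N] (S : Finset ℕ) (σ : GQ) (i : Good N S)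
    (x : JZero N) : galEnd N σ (heckeEnd N S i x) = heckeEnd N S i (galEnd N σ x) := by
  rw [galEnd_apply, galEnd_apply, heckeEnd_apply, heckeEnd_apply]
  exact Fermat.Agent.P5.GalHecke.galois_smul_heckeOperatorBar N ⟨i.1, i.2.1⟩ σ x

/-- Open stabilisers of finite sets of points of `J₀(N)`. -/
theorem galEnd_open (N : ℕ) [NeZero N] (X : Set (JZero N)) (hX : X.Finite) :
    ∃ M : IntermediateField ℚ Qb, FiniteDimensional ℚ M ∧
      ∀ σ : GQ, (∀ y ∈ M, σ y = y) → ∀ x ∈ X, galEnd N σ x = x := by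
  haveI := Fermat.Agent.S37.HeckeInputs.hasPrincipalDivisors_FN N
  obtain ⟨M, hMfin, -, hM⟩ :=
    Fermat.Agent.P5.OpenStab.exists_normal_fixing_jzero_finite N hX
  exact ⟨M, hMfin, fun σ hσ x hx => hM σ hσ x hx⟩

/-- The lattice operator of a good prime. -/
noncomputable def latEnd (N : ℕ) [NeZero N] (S : Finset ℕ)
    (hNS : ∀ q : ℕ, q.Prime → q ∣ N → q ∈ (↑S : Set ℕ)) (i : Good N S) : Lat N →ₗ[ℤ] Lat N :=
  heckeAct N (↑S) hNS (heckeAlgebra.T i.2.1 i.2.2.1 i.2.2.2)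

theorem latEnd_apply (N : ℕ) [NeZero N] (S : Finset ℕ)
    (hNS : ∀ q : ℕ, q.Prime → q ∣ N → q ∈ (↑S : Set ℕ)) (i : Good N S) (ψ : Lat N) :
    latEnd N S hNS i ψ = tcohL N i.2.1 i.2.2.1 ψ :=
  Subtype.ext (by
    rw [latEnd, Fermat.Agent.P5.Per.heckeAct_T, Fermat.Agent.P5.Per.coe_tcohL])

/-- The block with a given `ℤ_p`-algebra structure on `𝒪'`. -/
theorem tate_of_algebra (p : ℕ) [Fact p.Prime] (N : ℕ) [NeZero N] (S : Finset ℕ)
    (hpS : p ∈ S) (hNS : ∀ q : ℕ, q.Prime → q ∣ N → q ∈ S)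
    (𝒪' : Type) [CommRing 𝒪'] [IsDomain 𝒪'] [IsDiscreteValuationRing 𝒪']
    [CharZero 𝒪'] (hp𝒪' : (p : 𝒪') ∈ IsLocalRing.maximalIdeal 𝒪')
    [Algebra ℤ_[p] 𝒪'] [Module.Flat ℤ_[p] 𝒪']
    (χ : heckeAlgebra N 2 (↑S : Set ℕ) →+* 𝒪')
    (hlam : LambdaStmt N) (hfin : FinTorsion N p)
    (hcore : Fermat.Agent.S37.Core.CoreAll N p) : Tate p N S 𝒪' χ := by
  obtain ⟨lam, hl1, hl2, hl3, hl4⟩ := hlam
  have hp : p.Prime := Fact.out
  have hNS' : ∀ q : ℕ, q.Prime → q ∣ N → q ∈ (↑S : Set ℕ) :=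
    fun q hq hqN => Finset.mem_coe.mpr (hNS q hq hqN)
  obtain ⟨s, b, -, -⟩ := Fermat.Agent.P5.Per.exists_lat_basis N
  obtain ⟨v, hv, hveig⟩ := Fermat.Agent.P5.EigVec.eigVecStmt N (↑S) hNS' 𝒪' χ
  obtain ⟨W, iW1, iW2, iW3, iW4, ρ, hW, hcont, htriv, hquad⟩ :=
    tate_abstract p 𝒪' hp𝒪' (heckeEnd N S)
      (fun i : Good N S => χ (heckeAlgebra.T i.2.1 i.2.2.1 i.2.2.2)) (galEnd N)
      (fun σ i _ x _ => galEnd_heckeEnd N S σ i x) hfin (galEnd_open N) b
      (fun k => lam (p ^ k)) (fun k ψ => hl1 (p ^ k) ψ)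
      (fun k ψ => by
        have := hl3 (p ^ k) p ψ (pow_pos hp.pos k) hp.pos
        rwa [← pow_succ] at this)
      (fun k ψ h => hl2 (p ^ k) ψ (pow_pos hp.pos k) h)
      (latEnd N S hNS')
      (fun i k ψ => by
        rw [latEnd_apply, hl4 (p ^ k) i.1 i.2.1 i.2.2.1 ψ]
        rfl)
      v hv (fun i => hveig _)
  refine ⟨W, iW1, iW2, iW3, iW4, ρ, hW, hcont, ?_, ?_⟩
  · -- inertia
    intro q hq hqN hqp P hP σ hσ
    have hqNp : ¬ q ∣ N * p := not_dvd_mul_of_ne hq hp hqN hqp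
    exact htriv σ fun k x hx => (hcore q hq hqNp P hP).1 σ hσ x ⟨k, hx⟩
  · -- Frobenius
    intro ℓ hℓ hℓN hℓS A hA σ hσ
    have hℓp : ℓ ≠ p := fun h => hℓS (h ▸ Finset.mem_coe.mpr hpS)
    have hℓNp : ¬ ℓ ∣ N * p := not_dvd_mul_of_ne hℓ hp hℓN hℓp
    exact hquad (⟨ℓ, hℓ, hℓN, hℓS⟩ : Good N S) σ ℓ
      fun k x hx => (hcore ℓ hℓ hℓNp A hA).2 σ hσ x ⟨k, hx⟩

/-- **[EIG] block contract `Plan.TateBlock`.** -/
theorem tateBlock : TateBlock := by
  intro p _ N _ S hpS hNS 𝒪' _ _ _ _ _ _ hp𝒪' χ hlam hfin hcore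
  letI : Algebra ℤ_[p] 𝒪' :=
    (Fermat.Agent.P5.CycloDelta.padicHom p (IsLocalRing.maximalIdeal 𝒪') hp𝒪').toAlgebra
  haveI : Module.Flat ℤ_[p] 𝒪' :=
    Fermat.Agent.P5.CycloDelta.flat_padicHom p (IsLocalRing.maximalIdeal 𝒪') hp𝒪'
  exact tate_of_algebra p N S hpS hNS 𝒪' hp𝒪' χ hlam hfin hcore

end Fermat.Agent.P5.Eig
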