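/-
P5 — block [HECKE-κ]: **proof of the block contract `HeckeKappa.HeckeKappaStmt N`** (helper97,
accelerator for helper69's block; assembled from his `Lib/TransferChar` (H1) and
`P5/HeckeKappa/{Ambient, Plan}`, helper72's `P5/Kappa/AmbientBridge`, and the leaves
`Lib/NormOnHReps` (H2') and `Lib/HeckeKummerDiv` (H4)).

If `(D, f, G, ψ)` is a Kummer datum of exponent `n` for `x = [D]`, then
`(α_* β^* D, Norm_α (β f), ∏_y G ∘ heckeRep ℓ y, T^coh_ℓ ψ)` is one for `T^alg_ℓ x`.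
-/
import Mathlib
import Fermat.Agent.P5.HeckeKappa.Plan
import Fermat.Agent.P5.Kappa.AmbientBridge
import Fermat.Agent.Lib.NormOnHReps
import Fermat.Agent.Lib.HeckeKummerDiv

set_option autoImplicit false

noncomputable section

namespace Fermat.Agent.P5.HeckeKappaProof

open CongruenceSubgroup ModularCurve AlgebraicCurve
open Fermat.Agent.Lib Fermat.Agent.Lib.HeckeHom Fermat.Agent.Lib.HeckeHomGL Fermat.Agent.S24
open Fermat.Agent.P5.HeckeKappa Fermat.Agent.P5 Fermat.Agent.Lib.NormOnHReps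
open P2MW.S_ModularForm_heckeT_slash_eq_self_of_mem_Gamma0.ModularForm.HeckeSlashInvariance
open scoped MatrixGroups

/-- The image of `Γ₀(N)` in `GL₂(ℝ)` lies in `GL₂(ℝ)⁺`. -/
theorem eG_mem_glp (N : ℕ) (γ : ↥(Gamma0 N)) : eG N γ ∈ GLp := (slp (γ : SL(2, ℤ))).2

/-- **The contract of block [HECKE-κ]**: `κ_n (T^alg_ℓ x) = T^coh_ℓ (κ_n x)` for `ℓ ∤ N`. -/
theorem heckeKappaStmt (N : ℕ) [NeZero N] : HeckeKappaStmt N := by
  intro ℓ hℓ hℓN n x ψ h
  haveI : Fact ℓ.Prime := ⟨hℓ⟩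
  haveI : NeZero ℓ := ⟨hℓ.ne_zero⟩
  obtain ⟨D, f, G, rfl, hk⟩ := h
  obtain ⟨D', hD', hne, hdiv'⟩ :=
    HeckeKummerDiv.exists_hecke_datum N ℓ hℓ (n : ℤ) D f hk.ne_zero hk.div_eq
  letI := algebraAlong (heckeAlphaBar Kbar N ℓ)
  refine ⟨D', Algebra.norm (FN N) (heckeBetaBar Kbar N ℓ f),
    ∏ y : OnePoint (ZMod ℓ), pre (heckeRepP ℓ y) G, hD'.symm, ?_⟩
  apply Kappa.isKummerDatum_realQ_of_pre N hne hdiv'
  · rw [← Finset.prod_pow, NormOnHReps.norm_beta_heckeRep N ℓ hℓN f]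
    refine Finset.prod_congr rfl fun y _ => ?_
    rw [← map_pow, hk.root_E]
  · intro γ
    have key := TransferChar.prod_pre (isCosetFamily_heckeRep N ℓ hℓN) GLp (eG_mem_glp N)
      (heckeRep_mem_glp ℓ) (fun s => ((pre s : MerH ≃+* MerH) : MerH →* MerH))
      (fun a b m => pre_mul a b m) G (fun γ => cstM ((ψ γ : ℂˣ) : ℂ))
      (fun s γ => pre_cstM s _) (fun γ => hk.pre_char γ) γ
    have hc : cstM (((tcohChar N hℓ hℓN ψ) γ : ℂˣ) : ℂ) =
        ∏ i : OnePoint (ZMod ℓ),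
          cstM ((ψ ((isCosetFamily_heckeRep N ℓ hℓN).cof γ i) : ℂˣ) : ℂ) := by
      rw [tcohChar_apply, Units.coe_prod, map_prod]
    rw [hc]
    exact key

end Fermat.Agent.P5.HeckeKappaProof
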