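/-
P5 — junction block [LAMBDA] (helper29): the maps `λ_n : L → J₀(N)[n]` on the parabolic lattice
`L = Per.Lat N`, from the typed outputs of the blocks [KAPPA] (Kummer relation), [HECKE-κ]
(Hecke equivariance of the Kummer relation) and [EIS]+[DIV]+[DESC] (surjectivity onto the
`L`-characters `e(φ / n)`).

* `Surj N n`, `HeckeKappa N n` : the two input contracts (typed `Prop`s);
* `exists_lam` : `λ_n` exists, is additive, `n`-torsion valued, has kernel `n L`, is
  Hecke-equivariant, and has the Kummer character `e(φ / n)`;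
* `lam_compat` : compatibility of the levels `n` and `n * m`.
-/
import Fermat.Prelude.Def_ModularCurve_HeckeModule
import Fermat.Agent.P5.Kappa.Inj
import Fermat.Agent.P5.Per.Action
import Fermat.Agent.Lib.EisChar
import Fermat.Agent.S37.HeckeInputs

set_option autoImplicit false
set_option linter.unusedSectionVars false
set_option linter.style.haveILetI false

noncomputable section

namespace Fermat.Agent.P5.Lambda

open UpperHalfPlane AlgebraicCurve ModularCurve ModularCurve.Period CongruenceSubgroup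
open Fermat.Agent.S24 Fermat.Agent.P5.Kappa Fermat.Agent.P5.Per Fermat.Agent.Lib.EisChar
open scoped MatrixGroups

/-! ### The characters `e(φ / n)` -/

section expChar

variable {Γ : Subgroup SL(2, ℤ)}

theorem expChar_add (φ φ' : Additive Γ →+ ℤ) (n : ℕ) :
    expChar Γ (φ + φ') n = expChar Γ φ n * expChar Γ φ' n := by
  refine MonoidHom.ext fun γ => Units.ext ?_
  rw [MonoidHom.mul_apply, Units.val_mul, expChar_apply, expChar_apply, expChar_apply,
    ← Complex.exp_add]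
  congr 1
  rw [AddMonoidHom.add_apply]
  push_cast
  ring

theorem expChar_zero (n : ℕ) : expChar Γ (0 : Additive Γ →+ ℤ) n = 1 :=
  MonoidHom.ext fun _ => expChar_eq_one_of_eq_zero 0 n rfl

/-- `e(φ / (n m)) ^ m = e(φ / n)`. -/
theorem expChar_mul_pow (φ : Additive Γ →+ ℤ) (n m : ℕ) (hm : m ≠ 0) :
    expChar Γ φ (n * m) ^ m = expChar Γ φ n := by
  refine MonoidHom.ext fun γ => Units.ext ?_
  rw [MonoidHom.pow_apply, Units.val_pow_eq_pow_val, expChar_apply, expChar_apply,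
    ← Complex.exp_nat_mul]
  congr 1
  have hm' : (m : ℂ) ≠ 0 := by exact_mod_cast hm
  by_cases hn : n = 0
  · subst hn
    simp
  have hn' : (n : ℂ) ≠ 0 := by exact_mod_cast hn
  push_cast
  field_simp

/-- `e(φ / n) = 1` iff `n` divides all values of `φ`. -/
theorem dvd_of_expChar_eq_one (φ : Additive Γ →+ ℤ) (n : ℕ) (hn : n ≠ 0)
    (h : expChar Γ φ n = 1) (γ : Γ) : (n : ℤ) ∣ φ (Additive.ofMul γ) := by
  have h1 : ((expChar Γ φ n γ : ℂˣ) : ℂ) = 1 := by rw [h]; rfl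
  rw [expChar_apply, Complex.exp_eq_one_iff] at h1
  obtain ⟨k, hk⟩ := h1
  have hn' : (n : ℂ) ≠ 0 := by exact_mod_cast hn
  have hpi : (Real.pi : ℂ) ≠ 0 := by exact_mod_cast Real.pi_ne_zero
  have h2 : ((φ (Additive.ofMul γ) : ℤ) : ℂ) = ((n : ℤ) : ℂ) * (k : ℂ) := by
    have h3 : (((2 * Real.pi * (φ (Additive.ofMul γ) : ℝ) / (n : ℝ) : ℝ) : ℂ) * Complex.I) =
        (2 * Real.pi * Complex.I) * ((φ (Additive.ofMul γ) : ℂ) / (n : ℂ)) := by
      push_cast
      ring
    rw [h3] at hk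
    have h4 : ((φ (Additive.ofMul γ) : ℂ) / (n : ℂ)) = (k : ℂ) := by
      have h5 : (2 * (Real.pi : ℂ) * Complex.I) ≠ 0 :=
        mul_ne_zero (mul_ne_zero two_ne_zero hpi) Complex.I_ne_zero
      have h6 : (2 * (Real.pi : ℂ) * Complex.I) * ((φ (Additive.ofMul γ) : ℂ) / (n : ℂ)) =
          (2 * (Real.pi : ℂ) * Complex.I) * (k : ℂ) := by
        rw [hk]; ring
      exact mul_left_cancel₀ h5 h6
    rw [div_eq_iff hn'] at h4
    rw [h4]
    push_cast
    ring
  refine ⟨k, ?_⟩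
  exact_mod_cast h2

end expChar

/-! ### The input contracts -/

variable (N : ℕ) [NeZero N]

/-- The `L`-character `e(φ / n)` of `Γ₀(N)`. -/
abbrev chi (φ : Lat N) (n : ℕ) : ↥(Gamma0 N) →* ℂˣ :=
  expChar (Gamma0 N) (φ : Additive ↥(Gamma0 N) →+ ℤ) n

/-- **Surjectivity onto the `L`-characters** (output of [EIS] + [DIV] + [DESC]): every
`e(φ / n)`, `φ ∈ L`, is the Kummer character of a class of `J₀(N)`. -/
def Surj (n : ℕ) : Prop :=
  ∀ φ : Lat N, ∃ x : JZero N, KummerRel (realQ N) n x (chi N φ n)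

/-- **Hecke equivariance of the Kummer relation on the `L`-characters** (output of [HECKE-κ]):
if `x` has Kummer character `e(φ / n)`, then `T_ℓ x` has Kummer character `e(T_ℓ φ / n)`. -/
def HeckeKappa (n : ℕ) : Prop :=
  ∀ (ℓ : ℕ) (hℓ : ℓ.Prime) (hℓN : ¬ ℓ ∣ N) (φ : Lat N) (x : JZero N),
    KummerRel (realQ N) n x (chi N φ n) →
      KummerRel (realQ N) n (heckeOperatorBar N ⟨ℓ, hℓ⟩ x) (chi N (tcohL N hℓ hℓN φ) n)

variable {N}

theorem chi_add (φ φ' : Lat N) (n : ℕ) : chi N (φ + φ') n = chi N φ n * chi N φ' n :=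
  expChar_add _ _ n

theorem chi_mul_pow (φ : Lat N) (n m : ℕ) (hm : m ≠ 0) : chi N φ (n * m) ^ m = chi N φ n :=
  expChar_mul_pow _ n m hm

/-- A homomorphism to `ℤ` all of whose values are divisible by `n` is `n` times a
homomorphism; parabolicity is inherited. -/
theorem exists_eq_nsmul_of_dvd (φ : Lat N) (n : ℕ) (hn : n ≠ 0)
    (h : ∀ γ : ↥(Gamma0 N), (n : ℤ) ∣ (φ : Additive ↥(Gamma0 N) →+ ℤ) (Additive.ofMul γ)) :
    ∃ φ' : Lat N, φ = n • φ' := by
  have hn' : (n : ℤ) ≠ 0 := by exact_mod_cast hn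
  have hd : ∀ x : Additive ↥(Gamma0 N), (n : ℤ) ∣ (φ : Additive ↥(Gamma0 N) →+ ℤ) x :=
    fun x => h (Additive.toMul x)
  let ψ : Additive ↥(Gamma0 N) →+ ℤ :=
    { toFun := fun x => (φ : Additive ↥(Gamma0 N) →+ ℤ) x / (n : ℤ)
      map_zero' := by simp
      map_add' := fun x y => by
        rw [map_add, Int.add_ediv_of_dvd_left (hd x)] }
  have hψ : ψ ∈ Lat N := by
    intro γ hγ
    show (φ : Additive ↥(Gamma0 N) →+ ℤ) (Additive.ofMul γ) / (n : ℤ) = 0
    rw [φ.2 γ hγ, Int.zero_ediv]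
  refine ⟨⟨ψ, hψ⟩, Subtype.ext (AddMonoidHom.ext fun x => ?_)⟩
  show (φ : Additive ↥(Gamma0 N) →+ ℤ) x = (n • ψ) x
  rw [AddMonoidHom.smul_apply]
  show _ = n • ((φ : Additive ↥(Gamma0 N) →+ ℤ) x / (n : ℤ))
  rw [nsmul_eq_mul, Int.mul_ediv_cancel' (hd x)]

/-! ### The maps `λ_n` -/

/-- **The maps `λ_n`.** From surjectivity onto the `L`-characters, the Hecke equivariance of the
Kummer relation and [MODFUN]: there is an additive map `λ_n : L → J₀(N)` with values of Kummer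
character `e(φ / n)`, killed by `n`, with kernel `n L`, and Hecke equivariant. -/
theorem exists_lam (hM : ModFunStmt (realQ N)) {n : ℕ} (hn : 0 < n) (hS : Surj N n)
    (hH : HeckeKappa N n) :
    ∃ lam : Lat N →+ JZero N,
      (∀ φ, KummerRel (realQ N) n (lam φ) (chi N φ n)) ∧
      (∀ φ, n • lam φ = 0) ∧
      (∀ φ, lam φ = 0 → ∃ φ' : Lat N, φ = n • φ') ∧
      ∀ (ℓ : ℕ) (hℓ : ℓ.Prime) (hℓN : ¬ ℓ ∣ N) (φ : Lat N),
        heckeOperatorBar N ⟨ℓ, hℓ⟩ (lam φ) = lam (tcohL N hℓ hℓN φ) := by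
  haveI : IsFF1 Kbar (FN N) := Fermat.Agent.S37.HeckeInputs.isFF1_FN N
  choose f hf using hS
  have hadd : ∀ φ φ' : Lat N, f (φ + φ') = f φ + f φ' := by
    intro φ φ'
    have h1 := (hf φ).add (hf φ')
    rw [← chi_add] at h1
    exact KummerRel.eq_of_char_eq hM hn (hf (φ + φ')) h1
  let lam : Lat N →+ JZero N := AddMonoidHom.mk' f hadd
  have hlam : ∀ φ, lam φ = f φ := fun φ => rfl
  refine ⟨lam, fun φ => hf φ, fun φ => (hf φ).nsmul_eq_zero, fun φ hφ => ?_,
    fun ℓ hℓ hℓN φ => ?_⟩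
  · have h1 : KummerRel (realQ N) n (0 : JZero N) (chi N φ n) := by
      have := hf φ
      rwa [← hlam, hφ] at this
    have h2 : chi N φ n = 1 := KummerRel.unique hn h1 (KummerRel.zero (realQ N) n)
    exact exists_eq_nsmul_of_dvd φ n hn.ne' (dvd_of_expChar_eq_one _ n hn.ne' h2)
  · exact KummerRel.eq_of_char_eq hM hn (hH ℓ hℓ hℓN φ (f φ) (hf φ)) (hf (tcohL N hℓ hℓN φ))

/-- **Compatibility of the levels**: a map with the Kummer characters `e(φ / n)` is `m` times
any map with the Kummer characters `e(φ / (n m))`. -/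
theorem lam_compat (hM : ModFunStmt (realQ N)) {n m : ℕ} (hn : 0 < n) (hm : 0 < m)
    {lam lam' : Lat N →+ JZero N}
    (h : ∀ φ, KummerRel (realQ N) n (lam φ) (chi N φ n))
    (h' : ∀ φ, KummerRel (realQ N) (n * m) (lam' φ) (chi N φ (n * m))) (φ : Lat N) :
    lam φ = m • lam' φ := by
  have h1 := (h' φ).of_mul
  rw [chi_mul_pow φ n m hm.ne'] at h1
  exact KummerRel.eq_of_char_eq hM hn (h φ) h1

/-- Uniqueness of `λ_n`. -/
theorem lam_unique (hM : ModFunStmt (realQ N)) {n : ℕ} (hn : 0 < n)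
    {lam lam' : Lat N →+ JZero N}
    (h : ∀ φ, KummerRel (realQ N) n (lam φ) (chi N φ n))
    (h' : ∀ φ, KummerRel (realQ N) n (lam' φ) (chi N φ n)) : lam = lam' :=
  AddMonoidHom.ext fun φ => KummerRel.eq_of_char_eq hM hn (h φ) (h' φ)

end Fermat.Agent.P5.Lambda
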