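import Mathlib
import Fermat.Agent.P5.Kappa.Plan
import Fermat.Agent.S37.HeckeInputs

/-!
# P5 [SURJ] — the junction `[DIV] + [DESC] ⇒ surjectivity of the Kummer map` (helper82)

* `exists_degZero_of_dvd_ord`: a nonzero function all of whose orders are divisible by `n` has
  divisor `n • D` with `D` of degree zero (generic, `HasPrincipalDivisors`);
* `kummerRel_of_desc`: **the descent packaging.**  Let `F ∈ Mer(ℍ)` have character `ψ` under
  `Γ₀(N)` with `F ^ n = emb u`, `u ∈ K_C` (the function field over `ℂ`), all orders of `u`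
  divisible by `n`.  If `u = c · ι(f₀) · h ^ n` with `f₀ ∈ F_N` of divisor divisible by `n`
  (`[DESC]`), then `F / (c^{1/n} · emb h)` is an `n`-th root of `f₀` with the same character, so
  the class of `div(f₀) / n` in `J₀(N)` has Kummer character `ψ`.

Everything is stated for an arbitrary realisation `RC` of a field `KC / ℂ` and an arbitrary ring
hom `bm : F_N → KC` compatible with the realisations; the instantiation (`KC = K_C N`,
`RC = realC N`, `bm = Desc.baseMap`) is in `P5/SurjMain.lean`.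
-/

set_option autoImplicit false

noncomputable section

namespace Fermat.Agent.P5.Surj

open UpperHalfPlane AlgebraicCurve ModularCurve CongruenceSubgroup
open Fermat.Agent.S24 Fermat.Agent.Lib.HolVal Fermat.Agent.P5.Kappa
open scoped MatrixGroups

/-- A nonzero function all of whose orders are divisible by `n` has divisor `n • D` with `D` of
degree zero. -/
theorem exists_degZero_of_dvd_ord {K F : Type*} [Field K] [Field F] [Algebra K F]
    [HasPrincipalDivisors K F] (n : ℕ) (hn : 0 < n) (f : F) (hf : f ≠ 0)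
    (hdiv : ∀ v : Place K F, (n : ℤ) ∣ v.ord f) :
    ∃ D : Divisor.degZero (K := K) (F := F),
      ∀ v : Place K F, (n : ℤ) * (D : Divisor K F) v = v.ord f := by
  obtain ⟨D₀, hD₀, hdeg⟩ := HasPrincipalDivisors.exists_divisor (K := K) f hf
  have hn' : (n : ℤ) ≠ 0 := by exact_mod_cast hn.ne'
  let D : Divisor K F := D₀.mapRange (fun k => k / (n : ℤ)) (by simp)
  have hD : ∀ v, (n : ℤ) * D v = v.ord f := by
    intro v
    show (n : ℤ) * (D₀.mapRange (fun k => k / (n : ℤ)) (by simp) v) = _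
    rw [Finsupp.mapRange_apply, hD₀ v]
    exact Int.mul_ediv_cancel' (hdiv v)
  have hnD : (n : ℤ) • D = D₀ := by
    ext v
    rw [Finsupp.smul_apply, smul_eq_mul, hD v, hD₀ v]
  have hdegD : Divisor.degree D = 0 := by
    have h := congrArg Divisor.degree hnD
    rw [map_zsmul, hdeg, smul_eq_mul] at h
    exact (mul_eq_zero.mp h).resolve_left hn'
  exact ⟨⟨D, hdegD⟩, hD⟩

/-- **The descent packaging** (`[DIV] + [DESC] ⇒ KummerRel`). -/
theorem kummerRel_of_desc (N : ℕ) [NeZero N] {KC : Type*} [Field KC] [Algebra ℂ KC]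
    (RC : Realisation ℂ KC (Gamma0 N)) (hι : ∀ c : ℂ, RC.iota c = c)
    (bm : FN N →+* KC) (hbm : ∀ y : FN N, RC.emb (bm y) = embMer N y)
    (n : ℕ) (hn : 0 < n)
    (hDESC : ∀ f : KC, f ≠ 0 → (∀ P : Place ℂ KC, (n : ℤ) ∣ P.ord f) →
      ∃ (c : ℂ) (f₀ : FN N) (h : KC), c ≠ 0 ∧ f₀ ≠ 0 ∧ h ≠ 0 ∧
        f = algebraMap ℂ KC c * bm f₀ * h ^ n ∧ ∀ p : Place Kbar (FN N), (n : ℤ) ∣ p.ord f₀)
    (ψ : ↥(Gamma0 N) →* ℂˣ) (F : Mer)
    (hF : ∀ γ : ↥(Gamma0 N), compMer (γ : SL(2, ℤ)) F = constMer ((ψ γ : ℂˣ) : ℂ) * F)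
    (u : KC) (hu : u ≠ 0) (hFu : F ^ n = RC.emb u)
    (hdiv : ∀ P : Place ℂ KC, (n : ℤ) ∣ P.ord u) :
    ∃ x : JZero N, KummerRel (realQ N) n x ψ := by
  obtain ⟨c, f₀, h, hc, hf₀, hh, hu_eq, hdiv₀⟩ := hDESC u hu hdiv
  have hPD : HasPrincipalDivisors Kbar (FN N) :=
    Fermat.Agent.S37.HeckeInputs.hasPrincipalDivisors_FN N
  obtain ⟨D, hD⟩ := exists_degZero_of_dvd_ord (K := Kbar) n hn f₀ hf₀ hdiv₀
  obtain ⟨c₁, hc₁⟩ := IsAlgClosed.exists_pow_nat_eq c hn
  have hc₁0 : c₁ ≠ 0 := by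
    rintro rfl
    rw [zero_pow hn.ne'] at hc₁
    exact hc hc₁.symm
  have hemb_h : RC.emb h ≠ 0 := (map_ne_zero RC.emb).mpr hh
  have hconst : constMer c₁ ≠ 0 := (map_ne_zero constMer).mpr hc₁0
  refine ⟨Pic0.mk D, D, f₀, F / (constMer c₁ * RC.emb h), rfl, hf₀, hD, ?_, ?_⟩
  · show (F / (constMer c₁ * RC.emb h)) ^ n = embMer N f₀
    have h1 : RC.emb u = constMer c * embMer N f₀ * RC.emb h ^ n := by
      rw [hu_eq, map_mul, map_mul, map_pow, RC.emb_algebraMap, hι, hbm]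
    have hcm : constMer c₁ ^ n = constMer c := by rw [← map_pow, hc₁]
    have hcc : constMer c ≠ 0 := (map_ne_zero constMer).mpr hc
    rw [div_pow, hFu, h1, mul_pow, hcm]
    field_simp
  · intro γ
    rw [map_div₀, map_mul, compMer_constMer, RC.comp_emb (γ : SL(2, ℤ)) γ.2, hF γ, mul_div_assoc]

end Fermat.Agent.P5.Surj
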