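import Mathlib
import Fermat.Agent.P5.Surj
import Fermat.Agent.P5.Lambda
import Fermat.Agent.P5.ModFun.RealCInf
import Fermat.Agent.P5.Desc.Modular
import Fermat.Agent.P5.Kappa.Root
import Fermat.Agent.Lib.EisCharCusp
import Fermat.Agent.Lib.ModMer

/-!
# P5 [SURJ] — the junction, instantiated (helper82)

* `descStmt N n` : `[DESC]` for `X₀(N)`, unconditional (helper36's `descModular` + helper72's
  `finite_torsion_gamma0` + helper50's `modFunStmt_realC`);
* `exists_eis_root` : **the Eisenstein input of `[DIV]`** — for `φ ∈ Lat N` and `n, c > 0` there is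
  `θ ∈ MerN N = Frac (modRing N)` (the quotient `E_ψ' / E_1`, `ψ' = e(φ / (n c))`) and `u ∈ K_C`
  with `θ ^ (n c) = emb u` and `θ ^ c` of character `e(φ / n)`;
* `DivStmt N n` : the `[DIV]` contract (helper47's `div_stmt`);
* `surj_of_div : DivStmt N n → Lambda.Surj N n`;
* `divStmt_of_anpl` : `[DIV]` from the `6N`-form of `[ANPL]` ("every root in `MerN N` of an
  element of `K_C` has exponent dividing `6N · ord_P`").
-/

set_option autoImplicit false

noncomputable section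

namespace Fermat.Agent.P5.Surj

open UpperHalfPlane AlgebraicCurve ModularCurve CongruenceSubgroup
open Fermat.Agent.S24 Fermat.Agent.Lib.HolVal Fermat.Agent.P5.Kappa Fermat.Agent.P5.ModFun
open Fermat.Agent.Lib.EisChar Fermat.Agent.Lib.CuspLaurent Fermat.Agent.P5.Per
open scoped MatrixGroups WithZero

/-- The function field of `X₀(N)` over `ℂ`. -/
abbrev KC (N : ℕ) [NeZero N] : Type := ↥(laurentBaseChange ℂ (modularFunctionFieldFull N))

theorem neg_one_mem_Gamma0 (N : ℕ) : (-1 : SL(2, ℤ)) ∈ Gamma0 N := by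
  rw [Gamma0_mem]
  simp

theorem Gamma_le_Gamma0 (N : ℕ) : Gamma N ≤ Gamma0 N := by
  intro A hA
  rw [Gamma_mem] at hA
  rw [Gamma0_mem]
  exact hA.2.2.1

/-- **[DESC] for `X₀(N)`**, unconditional. -/
theorem descStmt (N : ℕ) [NeZero N] (n : ℕ) (hn : 0 < n) :
    Desc.DescStmt Basic.iota (modularFunctionFieldFull N) n :=
  Desc.descModular N Basic.iota n hn.ne'
    (Kappa.finite_torsion_gamma0 (RealC.modFunStmt_realC N) hn)

/-- **The `[DIV]` contract**: `e(φ / n)` is the character of an `n`-th root `F ∈ Mer(ℍ)` of an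
element `u ∈ K_C` all of whose orders are divisible by `n`. -/
def DivStmt (N : ℕ) [NeZero N] (n : ℕ) : Prop :=
  ∀ φ : Lat N, ∃ (u : KC N) (F : Mer), u ≠ 0 ∧ F ^ n = (realC N).emb u ∧
    (∀ γ : ↥(Gamma0 N), compMer (γ : SL(2, ℤ)) F =
      constMer ((Lambda.chi N φ n γ : ℂˣ) : ℂ) * F) ∧
    ∀ P : Place ℂ (KC N), (n : ℤ) ∣ P.ord u

/-- **[SURJ]** from `[DIV]` (everything else is discharged). -/
theorem surj_of_div (N : ℕ) [NeZero N] (n : ℕ) (hn : 0 < n) (h : DivStmt N n) :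
    Lambda.Surj N n := by
  intro φ
  obtain ⟨u, F, hu, hFu, hF, hdiv⟩ := h φ
  exact kummerRel_of_desc N (realC N) (fun _ => rfl)
    (Desc.baseMap Basic.iota (modularFunctionFieldFull N)) (realC_emb_baseMap N) n hn
    (descStmt N n hn) (Lambda.chi N φ n) F hF u hu hFu hdiv

theorem algebraMap_constH (x : ℂ) : algebraMap Hol Mer (constH x) = constMer x := rfl

/-- **The Eisenstein input of `[DIV]`.** -/
theorem exists_eis_root (N : ℕ) [NeZero N] (φ : Lat N) (n c : ℕ) (hn : 0 < n) (hc : 0 < c) :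
    ∃ (θ : Fermat.Agent.Lib.ModMer.MerN N) (u : KC N), θ ≠ 0 ∧ u ≠ 0 ∧
      Fermat.Agent.Lib.ModMer.toMer N θ ^ (n * c) = (realC N).emb u ∧
      ∀ γ : ↥(Gamma0 N), compMer (γ : SL(2, ℤ)) (Fermat.Agent.Lib.ModMer.toMer N θ ^ c) =
        constMer ((Lambda.chi N φ n γ : ℂˣ) : ℂ) * Fermat.Agent.Lib.ModMer.toMer N θ ^ c := by
  have hnc : n * c ≠ 0 := Nat.mul_ne_zero hn.ne' hc.ne'
  set φ' : Additive ↥(Gamma0 N) →+ ℤ := (φ : Additive ↥(Gamma0 N) →+ ℤ) with hφ'
  have hφ : ∀ γ : ↥(Gamma0 N), ((γ : SL(2, ℤ)) : Matrix (Fin 2) (Fin 2) ℤ).trace ^ 2 = 4 →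
      φ' (Additive.ofMul γ) = 0 := φ.2
  have hpar := isPar_expChar φ' (n * c) hφ
  have hunit := norm_expChar φ' (n * c)
  have hneg := neg_one_mem_Gamma0 N
  have hN := Gamma_le_Gamma0 N
  set θM : Mer := eisMer (Gamma0 N) (expChar (Gamma0 N) φ' (n * c)) hunit with hθM
  have hθM0 : θM ≠ 0 := eisMer_ne_zero hpar hunit hneg N hN
  -- `θM` lies in `MerN N`
  let a : Fermat.Agent.Lib.ModMer.modRing N :=
    ⟨eisNum (Gamma0 N) (expChar (Gamma0 N) φ' (n * c)),
      fun γ₁ => isMerCusp_eisNum_comp hpar hunit N hN γ₁⟩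
  let b : Fermat.Agent.Lib.ModMer.modRing N :=
    ⟨eisNum (Gamma0 N) (1 : ↥(Gamma0 N) →* ℂˣ),
      fun γ₁ => isMerCusp_eisNum_comp (isPar_one _) (norm_one_apply _) N hN γ₁⟩
  have hb : b ≠ 0 := fun h => eisNum_one_ne_zero hneg N hN (congrArg Subtype.val h)
  have h1 := eisHol_ne_zero (isPar_one (Gamma0 N)) (norm_one_apply (Gamma0 N)) hneg N hN
  have key : θM * algebraMap Hol Mer (Places.toHol (Fermat.Agent.Lib.ModMer.modRing N) b) =
      algebraMap Hol Mer (Places.toHol (Fermat.Agent.Lib.ModMer.modRing N) a) := by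
    have hk : eisHol (Gamma0 N) (expChar (Gamma0 N) φ' (n * c)) hunit *
        Places.toHol (Fermat.Agent.Lib.ModMer.modRing N) b =
        Places.toHol (Fermat.Agent.Lib.ModMer.modRing N) a *
          eisHol (Gamma0 N) 1 (norm_one_apply (Gamma0 N)) := by
      apply Subtype.ext
      funext τ
      show eisChar (Gamma0 N) (expChar (Gamma0 N) φ' (n * c)) τ * eisNum (Gamma0 N) 1 τ =
        eisNum (Gamma0 N) (expChar (Gamma0 N) φ' (n * c)) τ * eisChar (Gamma0 N) 1 τ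
      rw [← eisChar_mul_eisNum]
      ring
    have hk' := congrArg (algebraMap Hol Mer) hk
    rw [map_mul, map_mul] at hk'
    rw [hθM]
    unfold eisMer
    rw [div_mul_eq_mul_div, div_eq_iff (algebraMap_hol_ne_zero h1)]
    exact hk'
  obtain ⟨θ, hθ⟩ := Fermat.Agent.Lib.ModMer.exists_toMer_eq (N := N) hb key
  have hθ0 : θ ≠ 0 := by
    rintro rfl
    rw [map_zero] at hθ
    exact hθM0 hθ.symm
  -- invariance of `θM ^ (n c)`
  have hinv : ∀ γ ∈ Gamma0 N, compMer γ (θM ^ (n * c)) = θM ^ (n * c) := by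
    intro γ hγ
    exact map_eisMer_pow hpar hunit hneg N hN (n * c)
      (fun δ => expChar_pow φ' (n * c) hnc δ) ⟨γ, hγ⟩ (compMer γ) (compMer_algebraMap γ)
  -- growth of the translates
  have hgr : ∀ γ₁ : SL(2, ℤ), IsMerInf (compMer γ₁ (θM ^ (n * c))) := by
    intro γ₁
    have h2 := map_eisMer (ψ := expChar (Gamma0 N) φ' (n * c)) hunit hneg N hN γ₁ (compMer γ₁)
      (compMer_algebraMap γ₁)
    rw [map_pow, h2, div_pow, ← map_pow, ← map_pow]
    have hA := (isHolCusp_slash hpar hunit N hN γ₁).pow (n * c)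
    have hB := (isHolCusp_slash (isPar_one (Gamma0 N)) (norm_one_apply (Gamma0 N)) N hN γ₁).pow
      (n * c)
    have hB0 : slashHol (Gamma0 N) 1 (norm_one_apply (Gamma0 N)) γ₁ ^ (n * c) ≠ 0 :=
      pow_ne_zero _ (slashHol_ne_zero (isPar_one (Gamma0 N)) (norm_one_apply (Gamma0 N)) hneg N
        hN γ₁)
    refine IsMerInf.of_div hB0 (MerAtInfty.of_mem_merCusp (h := N) hA.isMerCusp hB.isMerCusp ?_)
    intro h0
    exact hB0 (Subtype.ext h0)
  obtain ⟨u, hu⟩ := RealC.exists_emb_eq_of_invariant N (θM ^ (n * c)) hinv hgr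
  have hu0 : u ≠ 0 := by
    rintro rfl
    rw [map_zero] at hu
    exact pow_ne_zero _ hθM0 hu
  refine ⟨θ, u, hθ0, hu0, ?_, ?_⟩
  · rw [hθ, hu]
  · intro γ
    rw [hθ, map_pow, map_eisMer_of_mem hpar hunit hneg N hN γ (compMer (γ : SL(2, ℤ)))
      (compMer_algebraMap _), mul_pow, algebraMap_constH, ← map_pow]
    congr 2
    rw [← Units.val_pow_eq_pow_val, Fermat.Agent.Lib.EisChar.expChar_mul_pow φ' n c hc.ne' γ]

/-- **`[DIV]` from the `6N`-form of `[ANPL]`**: if every place `P` of `K_C` is a multiple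
`e · ord_P`, `e ∣ 6N`, of a valuation of `MerN N` (through a ring hom `ρ : K_C → MerN N` lifting
the realisation), then `e(φ / n)` is the character of an `n`-th root of an element of `K_C` all
of whose orders are divisible by `n`. -/
theorem divStmt_of_anpl (N : ℕ) [NeZero N] (n : ℕ) (hn : 0 < n)
    (ρ : KC N →+* Fermat.Agent.Lib.ModMer.MerN N)
    (hρ : ∀ x : KC N, Fermat.Agent.Lib.ModMer.toMer N (ρ x) = (realC N).emb x)
    (hANPL : ∀ P : Place ℂ (KC N), ∃ (v : Valuation (Fermat.Agent.Lib.ModMer.MerN N) ℤᵐ⁰)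
      (e : ℕ), 0 < e ∧ e ∣ 6 * N ∧
        ∀ f : KC N, f ≠ 0 → -(WithZero.log (v (ρ f))) = (e : ℤ) * P.ord f) :
    DivStmt N n := by
  intro φ
  have hc : 0 < 6 * N := Nat.mul_pos (by norm_num) (NeZero.pos N)
  obtain ⟨θ, u, hθ0, hu0, hpow, hchar⟩ := exists_eis_root N φ n (6 * N) hn hc
  refine ⟨u, Fermat.Agent.Lib.ModMer.toMer N θ ^ (6 * N), hu0, ?_, hchar, ?_⟩
  · rw [← pow_mul, mul_comm (6 * N) n, hpow]
  · intro P
    obtain ⟨v, e, he, hdvd, hv⟩ := hANPL P
    obtain ⟨c', hc'⟩ := hdvd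
    have h1 : θ ^ (n * (6 * N)) = ρ u := by
      apply Fermat.Agent.Lib.ModMer.toMer_injective N
      rw [map_pow, hpow, hρ]
    have h2 := hv u hu0
    rw [← h1, map_pow, WithZero.log_pow] at h2
    have hvθ : v θ ≠ 0 := (Valuation.ne_zero_iff v).mpr hθ0
    have he' : (e : ℤ) ≠ 0 := by exact_mod_cast he.ne'
    refine ⟨(c' : ℤ) * -(WithZero.log (v θ)), ?_⟩
    have h3 : (e : ℤ) * P.ord u = (e : ℤ) * ((n : ℤ) * ((c' : ℤ) * -(WithZero.log (v θ)))) := by
      rw [← h2, hc']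
      ring
    exact mul_left_cancel₀ he' h3

end Fermat.Agent.P5.Surj
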