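import Mathlib
import Fermat.Agent.Lib.ModMerCusp
import Fermat.Agent.Lib.PlaceLiouville

/-!
# P5 `[ANPL]` / `[DIV]`, generic cores (helper47)

`F` is a field over `ℂ` realised inside `MerN N = Frac (modRing N)` (helper99's `Lib/ModMer`) by
a ring hom `ρ` whose image consists of `Γ`-invariant functions (`Γ` of finite index in
`SL(2, ℤ)`), with an element `x : F` going to `j`, transcendental, `F / ℂ(x)` finite.

* `exists_anVal` (**[ANPL]**): every place `P` of `F / ℂ` is cut out by an analytic valuation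
  `v` of `MerN N` (a point of `ℍ` or a cusp): `-log (v (ρ f)) = e * P.ord f` with `e ∣ 6 * N`.
* `dvd_ord_of_pow_eq` (**[DIV]** core): if `θ ^ m = ρ u` with `θ ∈ MerN N` then
  `m ∣ 6 * N * P.ord u` for every place `P`.
* `dvd_ord_of_pow_eq'`: if `θ ^ (6 * N * n) = ρ u` then `n ∣ P.ord u` for every place `P`.
-/

set_option autoImplicit false

noncomputable section

namespace Fermat.Agent.P5.Unr

open UpperHalfPlane AlgebraicCurve IntermediateField
open Fermat.Agent.S24 Fermat.Agent.Lib.HolVal Fermat.Agent.Lib.ModMer Fermat.Agent.Lib.JStab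
open scoped MatrixGroups Manifold WithZero

variable (N : ℕ) [NeZero N] {F : Type*} [Field F] [Algebra ℂ F]

/-- **[ANPL]** Every place of `F / ℂ` is analytic, with ramification index dividing `6 * N`. -/
theorem exists_anVal {x : F} [FiniteDimensional ℂ⟮x⟯ F] (hxt : Transcendental ℂ x)
    (ρ : F →+* MerN N)
    (hρc : ∀ c : ℂ, ρ (algebraMap ℂ F c) = algebraMap (modRing N) (MerN N) (constM N c))
    (hρx : ρ x = algebraMap (modRing N) (MerN N) (jM N))
    (Γ : Subgroup SL(2, ℤ)) [Γ.FiniteIndex]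
    (hinv : ∀ γ ∈ Γ, ∀ f : F, Kappa.compMer γ (toMer N (ρ f)) = toMer N (ρ f))
    (P : Place ℂ F) :
    ∃ (v : Valuation (MerN N) ℤᵐ⁰) (e : ℕ), 0 < e ∧ e ∣ 6 * N ∧
      ∀ f : F, f ≠ 0 → -(WithZero.log (v (ρ f))) = e * P.ord f := by
  have : CharZero F := charZero_of_injective_algebraMap (algebraMap ℂ F).injective
  have : Algebra.IsSeparable ℂ⟮x⟯ F := inferInstance
  let V : Set (Valuation F ℤᵐ⁰) := {v | (∃ τ : ℍ, v = (ptVal N τ).comap ρ) ∨
      ∃ γ : SL(2, ℤ),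
        v = ((cuVal N).comap (rhoHol (modRing N) γ : MerN N →+* MerN N)).comap ρ}
  have hK : ∀ v ∈ V, ∀ a : ℂ, a ≠ 0 → v (algebraMap ℂ F a) = 1 := by
    rintro v (⟨τ, rfl⟩ | ⟨γ, rfl⟩) a ha
    · rw [Valuation.comap_apply, hρc]
      exact ptVal_const N τ ha
    · rw [Valuation.comap_apply, Valuation.comap_apply, hρc]
      show cuVal N (rhoHol (modRing N) γ _) = 1
      rw [rhoHol_constM]
      exact cuVal_const N ha
  have hptx : ∀ τ : ℍ, ∃ d : ℕ, (d = 1 ∨ d = 2 ∨ d = 3) ∧ x - algebraMap ℂ F (jInv τ) ≠ 0 ∧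
      ptVal N τ (ρ (x - algebraMap ℂ F (jInv τ))) = WithZero.exp (-(d : ℤ)) := by
    intro τ
    obtain ⟨d, hd, h⟩ := exists_ptVal_jM_sub N τ
    have h' : ptVal N τ (ρ (x - algebraMap ℂ F (jInv τ))) = WithZero.exp (-(d : ℤ)) := by
      rw [map_sub, hρx, hρc, ← map_sub]
      exact h
    refine ⟨d, hd, ?_, h'⟩
    intro h0
    rw [h0, map_zero, map_zero] at h'
    exact WithZero.exp_ne_zero h'.symm
  have hcux : ∀ γ : SL(2, ℤ),
      x ≠ 0 ∧ cuVal N (rhoHol (modRing N) γ (ρ x)) = WithZero.exp (N : ℤ) := by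
    intro γ
    have h' : cuVal N (rhoHol (modRing N) γ (ρ x)) = WithZero.exp (N : ℤ) := by
      rw [hρx, rhoHol_jM]
      exact cuVal_jM N
    refine ⟨?_, h'⟩
    intro h0
    rw [h0, map_zero, map_zero, map_zero] at h'
    exact WithZero.exp_ne_zero h'.symm
  have hnt : ∀ v ∈ V, ∃ m : F, m ≠ 0 ∧ v m ≠ 1 := by
    rintro v (⟨τ, rfl⟩ | ⟨γ, rfl⟩)
    · obtain ⟨d, hd, h0, h⟩ := hptx τ
      refine ⟨_, h0, ?_⟩
      rw [Valuation.comap_apply, h, ← WithZero.exp_zero]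
      intro h1
      have h2 := WithZero.exp_injective h1
      omega
    · obtain ⟨h0, h⟩ := hcux γ
      refine ⟨x, h0, ?_⟩
      rw [Valuation.comap_apply, Valuation.comap_apply]
      show cuVal N (rhoHol (modRing N) γ (ρ x)) ≠ 1
      rw [h, ← WithZero.exp_zero]
      intro h1
      have h2 := WithZero.exp_injective h1
      have h3 := NeZero.pos N
      omega
  have hconst : ∀ f : F, (∀ v ∈ V, v f ≤ 1) → f ∈ Set.range (algebraMap ℂ F) := by
    intro f hf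
    exact mem_range_algebraMap_of_le_one N ρ hρc Γ hinv f
      (fun τ => hf _ (Or.inl ⟨τ, rfl⟩)) (fun γ => hf _ (Or.inr ⟨γ, rfl⟩))
  obtain ⟨v, hv, -, e, he, hord⟩ :=
    Fermat.Agent.Lib.PlaceLiouville.exists_valuation_of_place hxt V hK hnt hconst P
  rcases hv with ⟨τ, rfl⟩ | ⟨γ, rfl⟩
  · obtain ⟨d, hd, h0, h⟩ := hptx τ
    refine ⟨ptVal N τ, e, he, ?_, fun f hf => hord f hf⟩
    have h1 := hord _ h0
    rw [Valuation.comap_apply, h, WithZero.log_exp, neg_neg] at h1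
    have h2 : (e : ℤ) ∣ (d : ℤ) := ⟨_, h1⟩
    have h3 : e ∣ d := Int.natCast_dvd_natCast.mp h2
    have h4 : d ∣ 6 := by
      rcases hd with rfl | rfl | rfl <;> decide
    exact (h3.trans h4).mul_right N
  · obtain ⟨h0, h⟩ := hcux γ
    refine ⟨(cuVal N).comap (rhoHol (modRing N) γ : MerN N →+* MerN N), e, he, ?_,
      fun f hf => hord f hf⟩
    have h1 := hord _ h0
    rw [Valuation.comap_apply, Valuation.comap_apply] at h1
    change -(WithZero.log (cuVal N (rhoHol (modRing N) γ (ρ x)))) = _ at h1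
    rw [h, WithZero.log_exp] at h1
    have h2 : (e : ℤ) ∣ (N : ℤ) := ⟨-(P.ord x), by linarith⟩
    have h3 : e ∣ N := Int.natCast_dvd_natCast.mp h2
    exact h3.mul_left 6

/-- **[DIV] core.**  If `θ ^ m = ρ u` with `θ` in the ambient field `MerN N`, then
`m ∣ 6 * N * P.ord u` at every place `P` of `F`. -/
theorem dvd_ord_of_pow_eq {x : F} [FiniteDimensional ℂ⟮x⟯ F] (hxt : Transcendental ℂ x)
    (ρ : F →+* MerN N)
    (hρc : ∀ c : ℂ, ρ (algebraMap ℂ F c) = algebraMap (modRing N) (MerN N) (constM N c))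
    (hρx : ρ x = algebraMap (modRing N) (MerN N) (jM N))
    (Γ : Subgroup SL(2, ℤ)) [Γ.FiniteIndex]
    (hinv : ∀ γ ∈ Γ, ∀ f : F, Kappa.compMer γ (toMer N (ρ f)) = toMer N (ρ f))
    (θ : MerN N) (m : ℕ) (u : F) (hu : u ≠ 0) (h : θ ^ m = ρ u) (P : Place ℂ F) :
    (m : ℤ) ∣ 6 * N * P.ord u := by
  obtain ⟨v, e, -, heN, hord⟩ := exists_anVal N hxt ρ hρc hρx Γ hinv P
  have h1 := hord u hu
  rw [← h, map_pow, WithZero.log_pow, nsmul_eq_mul] at h1
  obtain ⟨k, hk⟩ := heN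
  have h2 : (6 * N : ℤ) * P.ord u = (m : ℤ) * (-(WithZero.log (v θ)) * k) := by
    have h3 : ((6 * N : ℕ) : ℤ) = (e : ℤ) * (k : ℤ) := by exact_mod_cast hk
    push_cast at h3
    rw [h3]
    linear_combination (-(k : ℤ)) * h1
  exact ⟨_, h2⟩

/-- **[DIV] core, `6N` form.**  If `θ ^ (6 * N * n) = ρ u` with `θ ∈ MerN N`, then `n ∣ P.ord u`
at every place `P` of `F`. -/
theorem dvd_ord_of_pow_eq' {x : F} [FiniteDimensional ℂ⟮x⟯ F] (hxt : Transcendental ℂ x)
    (ρ : F →+* MerN N)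
    (hρc : ∀ c : ℂ, ρ (algebraMap ℂ F c) = algebraMap (modRing N) (MerN N) (constM N c))
    (hρx : ρ x = algebraMap (modRing N) (MerN N) (jM N))
    (Γ : Subgroup SL(2, ℤ)) [Γ.FiniteIndex]
    (hinv : ∀ γ ∈ Γ, ∀ f : F, Kappa.compMer γ (toMer N (ρ f)) = toMer N (ρ f))
    (θ : MerN N) (n : ℕ) (u : F) (hu : u ≠ 0) (h : θ ^ (6 * N * n) = ρ u) (P : Place ℂ F) :
    (n : ℤ) ∣ P.ord u := by
  have h1 := dvd_ord_of_pow_eq N hxt ρ hρc hρx Γ hinv θ (6 * N * n) u hu h P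
  have h6 : ((6 * N : ℕ) : ℤ) ≠ 0 := by
    have := NeZero.pos N
    exact_mod_cast (by omega : 6 * N ≠ 0)
  push_cast at h1 h6
  exact (mul_dvd_mul_iff_left h6).mp h1

end Fermat.Agent.P5.Unr
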