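import Mathlib
import Fermat.Agent.P5.UnrCore
import Fermat.Agent.P5.ModFun.RealCInf
import Fermat.Agent.P5.Desc.Modular
import Fermat.Agent.Lib.EisCharCusp

/-!
# P5 `[UNR]` = `[ANPL]` + `[DIV]` for `K_C = ℂ(X₀(N))` (helper47)

`K_C N = laurentBaseChange ℂ (modularFunctionFieldFull N)` with helper50's realisation
`realC N : Realisation ℂ (K_C N) (Gamma0 N)`.  Given the factorisation `ρ` of `(realC N).emb`
through `MerN N = Frac (modRing N)` (helper99's `rhoC`):

* `exists_anVal_KC`: every place of `K_C / ℂ` is analytic with index dividing `6 * N`;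
* `dvd_ord_of_toMer_pow_eq`: `toMer θ ^ m = emb u` implies `m ∣ 6 * N * P.ord u`;
* `dvd_ord_of_eisMer_pow_eq` (**[DIV]**): if `(E_ψ / E_1) ^ (6 * N * n) = emb u` then
  `n ∣ P.ord u` at every place `P` of `K_C`.
-/

set_option autoImplicit false

noncomputable section

namespace Fermat.Agent.P5.Unr

open UpperHalfPlane AlgebraicCurve IntermediateField ModularCurve CongruenceSubgroup
open Fermat.Agent.S24 Fermat.Agent.S18 Fermat.Agent.Lib.HolVal Fermat.Agent.Lib.ModMer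
open Fermat.Agent.Lib.JStab Fermat.Agent.P5.Kappa Fermat.Agent.P5.ModFun
open Fermat.Agent.Lib.EisChar hiding modRing modRing_le_merCusp modRing_le_Hol const_mem_modRing
  instIsHolStableModRing
open scoped MatrixGroups Manifold WithZero

variable (N : ℕ) [NeZero N]

/-- `j` in `K_C`. -/
def jC : ↥(laurentBaseChange ℂ (modularFunctionFieldFull N)) :=
  Desc.baseMap Basic.iota (modularFunctionFieldFull N) (jBar N)

theorem transcendental_jC : Transcendental ℂ (jC N) :=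
  Desc.transcendental_baseMap Basic.iota (modularFunctionFieldFull N) (jBar N)
    (FibreCount.transcendental_jBar N)

instance finiteDimensional_jC :
    FiniteDimensional ℂ⟮jC N⟯ ↥(laurentBaseChange ℂ (modularFunctionFieldFull N)) :=
  (Desc.finrank_KC N Basic.iota).1

omit [NeZero N] in
theorem Gamma_le_Gamma0' : Gamma N ≤ Gamma0 N := by
  intro A hA
  rw [Gamma_mem] at hA
  rw [Gamma0_mem]
  exact hA.2.2.1

omit [NeZero N] in
theorem neg_one_mem_Gamma0' : (-1 : SL(2, ℤ)) ∈ Gamma0 N := by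
  rw [Gamma0_mem]
  simp

section rho

variable (ρ : ↥(laurentBaseChange ℂ (modularFunctionFieldFull N)) →+* MerN N)
  (hρ : ∀ x, toMer N (ρ x) = (realC N).emb x)

include hρ

theorem rho_algebraMap (c : ℂ) :
    ρ (algebraMap ℂ _ c) = algebraMap (modRing N) (MerN N) (constM N c) := by
  apply toMer_injective N
  rw [hρ, realC_emb_algebraMap, toMer_constM]

theorem rho_jC : ρ (jC N) = algebraMap (modRing N) (MerN N) (jM N) := by
  apply toMer_injective N
  rw [hρ, jC, realC_emb_baseMap, embMer_apply, embFN_jBar, mnToMer_algebraMap, toMer_algebraMap]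
  rfl

theorem compMer_toMer_rho {γ : SL(2, ℤ)} (hγ : γ ∈ Gamma0 N)
    (f : ↥(laurentBaseChange ℂ (modularFunctionFieldFull N))) :
    compMer γ (toMer N (ρ f)) = toMer N (ρ f) := by
  rw [hρ]
  exact realC_comp_emb N hγ f

/-- **[ANPL] for `K_C`.** -/
theorem exists_anVal_KC (P : Place ℂ ↥(laurentBaseChange ℂ (modularFunctionFieldFull N))) :
    ∃ (v : Valuation (MerN N) ℤᵐ⁰) (e : ℕ), 0 < e ∧ e ∣ 6 * N ∧
      ∀ f : ↥(laurentBaseChange ℂ (modularFunctionFieldFull N)), f ≠ 0 →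
        -(WithZero.log (v (ρ f))) = e * P.ord f :=
  exists_anVal N (transcendental_jC N) ρ (rho_algebraMap N ρ hρ) (rho_jC N ρ hρ) (Gamma0 N)
    (fun _ hγ f => compMer_toMer_rho N ρ hρ hγ f) P

/-- **[DIV] core for `K_C`.** -/
theorem dvd_ord_of_toMer_pow_eq (θ : MerN N) (m : ℕ)
    (u : ↥(laurentBaseChange ℂ (modularFunctionFieldFull N))) (hu : u ≠ 0)
    (h : toMer N θ ^ m = (realC N).emb u)
    (P : Place ℂ ↥(laurentBaseChange ℂ (modularFunctionFieldFull N))) :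
    (m : ℤ) ∣ 6 * N * P.ord u := by
  refine dvd_ord_of_pow_eq N (transcendental_jC N) ρ (rho_algebraMap N ρ hρ) (rho_jC N ρ hρ)
    (Gamma0 N) (fun _ hγ f => compMer_toMer_rho N ρ hρ hγ f) θ m u hu ?_ P
  apply toMer_injective N
  rw [map_pow, h, hρ]

end rho

/-- `E_ψ / E_1` lies in `MerN N`. -/
theorem exists_toMer_eq_eisMer (ψ : ↥(Gamma0 N) →* ℂˣ) (hpar : IsPar (Gamma0 N) ψ)
    (hunit : ∀ γ : ↥(Gamma0 N), ‖((ψ γ : ℂˣ) : ℂ)‖ = 1) :
    ∃ θ : MerN N, toMer N θ = eisMer (Gamma0 N) ψ hunit := by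
  have hN := Gamma_le_Gamma0' N
  have hneg := neg_one_mem_Gamma0' N
  have ha : eisNum (Gamma0 N) ψ ∈ modRing N :=
    fun γ₁ => isMerCusp_eisNum_comp hpar hunit N hN γ₁
  have hb : eisNum (Gamma0 N) (1 : ↥(Gamma0 N) →* ℂˣ) ∈ modRing N :=
    fun γ₁ => isMerCusp_eisNum_comp (isPar_one (Gamma0 N)) (norm_one_apply (Gamma0 N)) N hN γ₁
  have hb0 : (⟨_, hb⟩ : modRing N) ≠ 0 := fun h =>
    eisNum_one_ne_zero hneg N hN (congrArg Subtype.val h)
  have h1 := eisHol_ne_zero (isPar_one (Gamma0 N)) (norm_one_apply (Gamma0 N)) hneg N hN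
  refine exists_toMer_eq N (a := ⟨_, ha⟩) hb0 ?_
  have key : eisHol (Gamma0 N) ψ hunit * Places.toHol (modRing N) ⟨_, hb⟩ =
      Places.toHol (modRing N) ⟨_, ha⟩ * eisHol (Gamma0 N) 1 (norm_one_apply (Gamma0 N)) := by
    apply Subtype.ext
    funext τ
    show eisChar (Gamma0 N) ψ τ * eisNum (Gamma0 N) 1 τ =
      eisNum (Gamma0 N) ψ τ * eisChar (Gamma0 N) 1 τ
    rw [← eisChar_mul_eisNum, mul_comm]
  have key' := congrArg (algebraMap Hol (FractionRing Hol)) key
  rw [map_mul, map_mul] at key'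
  unfold eisMer
  rw [div_mul_eq_mul_div, div_eq_iff (algebraMap_hol_ne_zero h1)]
  exact key'

/-! ### The factorisation of the realisation through `MerN N` -/

theorem emb_mem_fieldRange_toMer (x : ↥(laurentBaseChange ℂ (modularFunctionFieldFull N))) :
    (realC N).emb x ∈ (toMer N).fieldRange := by
  obtain ⟨a, b, hb, h⟩ := RealC.exists_cuspRing_div N x
  obtain ⟨m, hm⟩ := exists_toMer_eq N (a := ⟨a, a.2.2⟩) (b := ⟨b, b.2.2⟩)
    (fun h0 => hb (congrArg Subtype.val h0)) h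
  exact ⟨m, hm⟩

/-- The realisation `(realC N).emb : K_C → Mer` factors through `MerN N`. -/
theorem exists_rho : ∃ ρ : ↥(laurentBaseChange ℂ (modularFunctionFieldFull N)) →+* MerN N,
    ∀ x, toMer N (ρ x) = (realC N).emb x := by
  refine ⟨((toMer N).rangeRestrictFieldEquiv.symm : (toMer N).fieldRange →+* MerN N).comp
      ((realC N).emb.codRestrict (toMer N).fieldRange (emb_mem_fieldRange_toMer N)),
    fun x => ?_⟩
  rw [RingHom.comp_apply, RingHom.coe_coe, RingHom.rangeRestrictFieldEquiv_apply_symm_apply]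
  rfl

/-- **[ANPL] for `K_C`, unconditional**, in the shape consumed by `Surj.divStmt_of_anpl`. -/
theorem anpl : ∃ ρ : ↥(laurentBaseChange ℂ (modularFunctionFieldFull N)) →+* MerN N,
    (∀ x, toMer N (ρ x) = (realC N).emb x) ∧
    ∀ P : Place ℂ ↥(laurentBaseChange ℂ (modularFunctionFieldFull N)),
      ∃ (v : Valuation (MerN N) ℤᵐ⁰) (e : ℕ), 0 < e ∧ e ∣ 6 * N ∧
        ∀ f : ↥(laurentBaseChange ℂ (modularFunctionFieldFull N)), f ≠ 0 →
          -(WithZero.log (v (ρ f))) = (e : ℤ) * P.ord f := by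
  obtain ⟨ρ, hρ⟩ := exists_rho N
  exact ⟨ρ, hρ, fun P => exists_anVal_KC N ρ hρ P⟩

/-- **[DIV] core for `K_C`, unconditional**: a root in `MerN N` of an element of `K_C` has
exponent dividing `6 * N * ord_P`. -/
theorem dvd_ord_of_toMer_pow_eq' (θ : MerN N) (m : ℕ)
    (u : ↥(laurentBaseChange ℂ (modularFunctionFieldFull N))) (hu : u ≠ 0)
    (h : toMer N θ ^ m = (realC N).emb u)
    (P : Place ℂ ↥(laurentBaseChange ℂ (modularFunctionFieldFull N))) :
    (m : ℤ) ∣ 6 * N * P.ord u := by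
  obtain ⟨ρ, hρ⟩ := exists_rho N
  exact dvd_ord_of_toMer_pow_eq N ρ hρ θ m u hu h P

/-- **[DIV]**: if `(E_ψ / E_1) ^ (6 * N * n) = emb u`, then `n ∣ ord_P u` at every place `P` of
`K_C` (for every unitary character `ψ` of `Γ₀(N)` trivial on the parabolic elements). -/
theorem dvd_ord_of_eisMer_pow_eq (ψ : ↥(Gamma0 N) →* ℂˣ) (hpar : IsPar (Gamma0 N) ψ)
    (hunit : ∀ γ : ↥(Gamma0 N), ‖((ψ γ : ℂˣ) : ℂ)‖ = 1) (n : ℕ)
    (u : ↥(laurentBaseChange ℂ (modularFunctionFieldFull N)))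
    (h : eisMer (Gamma0 N) ψ hunit ^ (6 * N * n) = (realC N).emb u)
    (P : Place ℂ ↥(laurentBaseChange ℂ (modularFunctionFieldFull N))) :
    (n : ℤ) ∣ P.ord u := by
  obtain ⟨θ, hθ⟩ := exists_toMer_eq_eisMer N ψ hpar hunit
  have hθ0 : eisMer (Gamma0 N) ψ hunit ≠ 0 :=
    eisMer_ne_zero hpar hunit (neg_one_mem_Gamma0' N) N (Gamma_le_Gamma0' N)
  have hu : u ≠ 0 := by
    rintro rfl
    rw [map_zero] at h
    exact pow_ne_zero _ hθ0 h
  have h1 := dvd_ord_of_toMer_pow_eq' N θ (6 * N * n) u hu (by rw [hθ, h]) P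
  have h6 : ((6 * N : ℕ) : ℤ) ≠ 0 := by
    have := NeZero.pos N
    exact_mod_cast (by omega : 6 * N ≠ 0)
  push_cast at h1 h6
  exact (mul_dvd_mul_iff_left h6).mp h1

end Fermat.Agent.P5.Unr
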