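import Fermat.Agent.P5.LambdaMain
import Fermat.Agent.P5.ModFun.RealCInf
import Fermat.Agent.P5.SurjMain
import Fermat.Agent.P5.Unr

/-!
# P5 [LAMBDA] — final form

`Lambda.surj N n hn : Lambda.Surj N n` and `Lambda.lambdaStmt N : Plan.LambdaStmt N`,
unconditional: helper29's `lambdaStmt_of_surj`, helper82's `Surj.surj_of_div` /
`Surj.divStmt_of_anpl`, helper47's `Unr.anpl` (text fixed by helper29 #2407 / helper14 #2435;
landed by helper82).
-/

set_option autoImplicit false

namespace Fermat.Agent.P5.Lambda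

/-- **[SURJ], unconditional.** -/
theorem surj (N : ℕ) [NeZero N] (n : ℕ) (hn : 0 < n) : Surj N n := by
  obtain ⟨ρ, hρ, hANPL⟩ := Fermat.Agent.P5.Unr.anpl N
  exact Fermat.Agent.P5.Surj.surj_of_div N n hn
    (Fermat.Agent.P5.Surj.divStmt_of_anpl N n hn ρ hρ hANPL)

/-- **[LAMBDA], unconditional.** -/
theorem lambdaStmt (N : ℕ) [NeZero N] : Fermat.Agent.P5.Plan.LambdaStmt N :=
  lambdaStmt_of_surj (Fermat.Agent.P5.ModFun.RealC.modFunStmt_realQ N) (fun n hn => surj N n hn)

end Fermat.Agent.P5.Lambda
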