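/-
P5 — junction block [LAMBDA] (helper29), part 2: the S31 contract `S31.Plan.HeckeShift N S p`
("transfer with a shift") from the `λ_{p^k}` of `P5/Lambda.lean`, the Hecke action on the
parabolic lattice (`Per.heckeAct`, a faithful ring action) and the bounded-denominator lemma
`S31.Alg.exists_pow_smul_mem`.
-/
import Fermat.Agent.P5.Lambda
import Fermat.Agent.S31.Plan
import Fermat.Agent.S31.Alg

set_option autoImplicit false
set_option linter.unusedSectionVars false
set_option linter.style.haveILetI false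

noncomputable section

namespace Fermat.Agent.P5.Lambda

open UpperHalfPlane AlgebraicCurve ModularCurve ModularCurve.Period CongruenceSubgroup CuspForm
open Fermat.Agent.S24 Fermat.Agent.P5.Kappa Fermat.Agent.P5.Per Fermat.Agent.Lib.EisChar
open scoped MatrixGroups
open Polynomial

variable {N : ℕ} [NeZero N]

/-- An additive map intertwining two endomorphisms intertwines their polynomials. -/
theorem aeval_intertwine {A B : Type*} [AddCommGroup A] [AddCommGroup B] (lam : A →+ B)
    (T : Module.End ℤ B) (Tc : Module.End ℤ A) (h : ∀ a, T (lam a) = lam (Tc a))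
    (Q : ℤ[X]) (a : A) : aeval T Q (lam a) = lam (aeval Tc Q a) := by
  have hpow : ∀ (n : ℕ) (a : A), (T ^ n) (lam a) = lam ((Tc ^ n) a) := by
    intro n
    induction n with
    | zero => intro a; simp
    | succ n ih =>
      intro a
      rw [pow_succ, pow_succ, Module.End.mul_apply, Module.End.mul_apply, h, ih]
  induction Q using Polynomial.induction_on' generalizing a with
  | add P Q hP hQ =>
    rw [map_add, map_add, LinearMap.add_apply, LinearMap.add_apply, map_add, hP, hQ]
  | monomial n c =>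
    rw [aeval_monomial, aeval_monomial, Module.End.mul_apply, Module.End.mul_apply,
      Module.algebraMap_end_apply, Module.algebraMap_end_apply, hpow, map_zsmul]

/-- The Hecke action of `T_ℓ` on the lattice is `tcohL`. -/
theorem heckeAct_T_eq (S : Set ℕ) (hNS : ∀ q : ℕ, q.Prime → q ∣ N → q ∈ S) {ℓ : ℕ}
    (hℓ : ℓ.Prime) (hℓN : ¬ ℓ ∣ N) (hℓS : ℓ ∉ S) :
    heckeAct N S hNS (heckeAlgebra.T hℓ hℓN hℓS) = tcohL N hℓ hℓN := by
  refine LinearMap.ext fun ψ => Subtype.ext ?_
  rw [heckeAct_T, coe_tcohL]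

set_option maxHeartbeats 1600000 in
/-- The Hecke action commutes with `aeval`. -/
theorem heckeAct_aeval (S : Set ℕ) (hNS : ∀ q : ℕ, q.Prime → q ∣ N → q ∈ S)
    (x : heckeAlgebra N 2 S) (Q : ℤ[X]) :
    heckeAct N S hNS (aeval x Q) = aeval (heckeAct N S hNS x) Q := by
  induction Q using Polynomial.induction_on' with
  | add P Q hP hQ => rw [map_add, map_add, map_add, hP, hQ]
  | monomial n c =>
    rw [aeval_monomial, aeval_monomial, map_mul, map_pow, eq_intCast, eq_intCast, map_intCast]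

/-- Bounded denominators for the Hecke ring inside `End L`: the core of `heckeShift`. -/
theorem exists_shift (S : Set ℕ) (hNS : ∀ q : ℕ, q.Prime → q ∣ N → q ∈ S) {p : ℕ}
    (hp : p.Prime) :
    ∃ c : ℕ, ∀ (k : ℕ) (t : heckeAlgebra N 2 S) (Y : Module.End ℤ (Lat N)),
      heckeAct N S hNS t = ((p : ℤ) ^ k) • Y →
        ∃ R : heckeAlgebra N 2 S, t = ((p : ℤ) ^ (k - c)) • R := by
  haveI : Module.Finite ℤ (Lat N) := lat_finite N
  haveI : Module.Free ℤ (Lat N) := lat_free N
  haveI : Module.Finite ℤ (Module.End ℤ (Lat N)) :=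
    Module.Finite.linearMap ℤ ℤ (Lat N) (Lat N)
  obtain ⟨c, hc⟩ := Fermat.Agent.S31.Alg.exists_pow_smul_mem
    ((heckeAct N S hNS).toAddMonoidHom.range) p hp
  refine ⟨c, fun k t Y htY => ?_⟩
  by_cases hck : c ≤ k
  · have h1 : ((p : ℤ) ^ k) • Y ∈ (heckeAct N S hNS).toAddMonoidHom.range := ⟨t, htY⟩
    obtain ⟨R, hR⟩ := hc k Y hck (by exact_mod_cast h1)
    refine ⟨R, heckeAct_injective N S hNS ?_⟩
    have hR' : heckeAct N S hNS R = ((p : ℤ) ^ c) • Y := by
      rw [← hR]; rfl
    rw [htY, map_zsmul, hR', smul_smul, ← pow_add, Nat.sub_add_cancel hck]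
  · refine ⟨t, ?_⟩
    have h0 : k - c = 0 := by omega
    rw [h0, pow_zero, one_smul]

set_option maxHeartbeats 800000 in
/-- **The S31 contract `HeckeShift`** from the maps `λ_{p^k}`: if the contracts `Surj` and
`HeckeKappa` hold at all levels `p ^ k` (and [MODFUN] holds), then polynomials in single Hecke
operators which agree on the finite sets `λ_{p^k}(basis of L)` of `p^k`-torsion points differ, in
the Hecke algebra of cusp forms, by an element of `p ^ (k - c) • 𝕋`. -/
theorem heckeShift (S : Set ℕ) (hNS : ∀ q : ℕ, q.Prime → q ∣ N → q ∈ S) {p : ℕ}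
    (hp : p.Prime) (hM : ModFunStmt (realQ N)) (hS : ∀ k : ℕ, Surj N (p ^ k))
    (hH : ∀ k : ℕ, HeckeKappa N (p ^ k)) : Fermat.Agent.S31.Plan.HeckeShift N S p := by
  classical
  obtain ⟨s, b, -, -⟩ := exists_lat_basis N
  obtain ⟨c, hc⟩ := exists_shift S hNS hp
  refine ⟨c, fun k => ?_⟩
  obtain ⟨lam, -, hk2, hk3, hk4⟩ := exists_lam hM (pow_pos hp.pos k) (hS k) (hH k)
  refine ⟨Set.range fun i => lam (b i), Set.finite_range _, ?_, ?_⟩
  · rintro x ⟨i, rfl⟩
    exact hk2 (b i)
  intro ℓ ℓ' hℓ hℓ' hℓN hℓ'N hℓS hℓ'S Q Q' hQ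
  -- `D` maps the basis into `p ^ k • L`
  have hDb : ∀ i, ∃ φ' : Lat N,
      (aeval (tcohL N hℓ hℓN) Q - aeval (tcohL N hℓ' hℓ'N) Q') (b i) = p ^ k • φ' := by
    intro i
    apply hk3
    have h1 := hQ (lam (b i)) ⟨i, rfl⟩
    rw [aeval_intertwine lam _ (tcohL N hℓ hℓN) (fun a => hk4 ℓ hℓ hℓN a),
      aeval_intertwine lam _ (tcohL N hℓ' hℓ'N) (fun a => hk4 ℓ' hℓ' hℓ'N a)] at h1
    rw [LinearMap.sub_apply, map_sub, h1, sub_self]
  choose φ' hφ' using hDb
  refine hc k _ (b.constr ℤ φ') ?_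
  rw [map_sub, heckeAct_aeval, heckeAct_aeval, heckeAct_T_eq, heckeAct_T_eq]
  refine b.ext fun i => ?_
  rw [LinearMap.smul_apply, Module.Basis.constr_basis, hφ']
  norm_cast

end Fermat.Agent.P5.Lambda
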