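/-
P5 — junction block [LAMBDA] (helper29), part 3: the top-level contract `Plan.LambdaStmt N`.

* `tcohChar_chi` : `T^coh_ℓ e(φ / n) = e(T^coh_ℓ φ / n)`;
* `heckeKappa`   : the contract `Lambda.HeckeKappa N n`, from [HECKE-κ] (`heckeKappaStmt`);
* `lambdaStmt_of_surj` : `Plan.LambdaStmt N` from [MODFUN] (`ModFunStmt (realQ N)`) and the
  surjectivity contract `Lambda.Surj N n` (all `n > 0`);
* `heckeShift_of_lambdaStmt` : the S31 contract `S31.Plan.HeckeShift N S p` from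
  `Plan.LambdaStmt N`.
-/
import Fermat.Agent.P5.LambdaShift
import Fermat.Agent.P5.HeckeKappa.Main
import Fermat.Agent.P5.Plan

set_option autoImplicit false
set_option linter.unusedSectionVars false
set_option linter.style.haveILetI false

noncomputable section

namespace Fermat.Agent.P5.Lambda

open UpperHalfPlane AlgebraicCurve ModularCurve ModularCurve.Period CongruenceSubgroup CuspForm
open Fermat.Agent.S24 Fermat.Agent.P5.Kappa Fermat.Agent.P5.Per Fermat.Agent.Lib.EisChar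
open Fermat.Agent.Lib.HeckeHomGL
open scoped MatrixGroups
open Polynomial

variable {N : ℕ} [NeZero N]

/-- `T^coh_ℓ e(φ / n) = e(T^coh_ℓ φ / n)`: the multiplicative transfer of the character
`e(φ / n)` is the character of the additive transfer of `φ`. -/
theorem tcohChar_chi {ℓ : ℕ} (hℓ : ℓ.Prime) (hℓN : ¬ ℓ ∣ N) (φ : Lat N) (n : ℕ) :
    Fermat.Agent.P5.HeckeKappa.tcohChar N hℓ hℓN (chi N φ n) = chi N (tcohL N hℓ hℓN φ) n := by
  haveI : Fact ℓ.Prime := ⟨hℓ⟩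
  refine MonoidHom.ext fun γ => Units.ext ?_
  rw [Fermat.Agent.P5.HeckeKappa.tcohChar_apply, Units.coe_prod, expChar_apply, coe_tcohL,
    tcoh_apply]
  simp_rw [expChar_apply]
  rw [← Complex.exp_sum]
  congr 1
  push_cast
  rw [Finset.mul_sum, Finset.sum_div, Finset.sum_mul]

/-- **The contract `HeckeKappa N n`** holds, by block [HECKE-κ]. -/
theorem heckeKappa (N : ℕ) [NeZero N] (n : ℕ) : HeckeKappa N n := by
  intro ℓ hℓ hℓN φ x h
  have h1 := Fermat.Agent.P5.HeckeKappa.heckeKappaStmt N ℓ hℓ hℓN n x _ h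
  rwa [tcohChar_chi] at h1

/-- **`Plan.LambdaStmt N`** from [MODFUN] and the surjectivity onto the `L`-characters. -/
theorem lambdaStmt_of_surj (hM : ModFunStmt (realQ N)) (hS : ∀ n : ℕ, 0 < n → Surj N n) :
    Fermat.Agent.P5.Plan.LambdaStmt N := by
  classical
  have hex : ∀ n : ℕ, ∃ lam : Lat N →+ JZero N, 0 < n →
      (∀ φ, KummerRel (realQ N) n (lam φ) (chi N φ n)) ∧
      (∀ φ, n • lam φ = 0) ∧
      (∀ φ, lam φ = 0 → ∃ φ' : Lat N, φ = n • φ') ∧
      ∀ (ℓ : ℕ) (hℓ : ℓ.Prime) (hℓN : ¬ ℓ ∣ N) (φ : Lat N),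
        heckeOperatorBar N ⟨ℓ, hℓ⟩ (lam φ) = lam (tcohL N hℓ hℓN φ) := by
    intro n
    by_cases hn : 0 < n
    · obtain ⟨lam, h⟩ := exists_lam hM hn (hS n hn) (heckeKappa N n)
      exact ⟨lam, fun _ => h⟩
    · exact ⟨0, fun h => absurd h hn⟩
  choose lam0 hlam0 using hex
  let lam : ℕ → (Lat N →+ JZero N) := fun n => if 0 < n then lam0 n else 0
  have hpos : ∀ n, 0 < n → lam n = lam0 n := fun n hn => if_pos hn
  have hzero : lam 0 = 0 := if_neg (lt_irrefl 0)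
  refine ⟨lam, ?_, ?_, ?_, ?_⟩
  · intro n ψ
    rcases Nat.eq_zero_or_pos n with rfl | hn
    · exact zero_nsmul _
    · rw [hpos n hn]
      exact (hlam0 n hn).2.1 ψ
  · intro n ψ hn h
    rw [hpos n hn] at h
    exact (hlam0 n hn).2.2.1 ψ h
  · intro n m ψ hn hm
    have hnm : 0 < n * m := Nat.mul_pos hn hm
    rw [hpos n hn, hpos (n * m) hnm]
    exact (lam_compat hM hn hm (hlam0 n hn).1 (hlam0 (n * m) hnm).1 ψ).symm
  · intro n ℓ hℓ hℓN ψ
    rcases Nat.eq_zero_or_pos n with rfl | hn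
    · rw [hzero, AddMonoidHom.zero_apply, AddMonoidHom.zero_apply, map_zero]
    · rw [hpos n hn]
      exact ((hlam0 n hn).2.2.2 ℓ hℓ hℓN ψ).symm

set_option maxHeartbeats 800000 in
/-- **The S31 contract `HeckeShift`** from `Plan.LambdaStmt N`. -/
theorem heckeShift_of_lambdaStmt (S : Set ℕ) (hNS : ∀ q : ℕ, q.Prime → q ∣ N → q ∈ S) {p : ℕ}
    (hp : p.Prime) (hlam : Fermat.Agent.P5.Plan.LambdaStmt N) :
    Fermat.Agent.S31.Plan.HeckeShift N S p := by
  classical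
  obtain ⟨lam, hk2, hk3, -, hk4⟩ := hlam
  obtain ⟨s, b, -, -⟩ := exists_lat_basis N
  obtain ⟨c, hc⟩ := exists_shift S hNS hp
  refine ⟨c, fun k => ?_⟩
  refine ⟨Set.range fun i => lam (p ^ k) (b i), Set.finite_range _, ?_, ?_⟩
  · rintro x ⟨i, rfl⟩
    exact hk2 (p ^ k) (b i)
  intro ℓ ℓ' hℓ hℓ' hℓN hℓ'N hℓS hℓ'S Q Q' hQ
  have hDb : ∀ i, ∃ φ' : Lat N,
      (aeval (tcohL N hℓ hℓN) Q - aeval (tcohL N hℓ' hℓ'N) Q') (b i) = p ^ k • φ' := by
    intro i
    apply hk3 (p ^ k) _ (pow_pos hp.pos k)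
    have h1 := hQ (lam (p ^ k) (b i)) ⟨i, rfl⟩
    rw [aeval_intertwine (lam (p ^ k)) _ (tcohL N hℓ hℓN)
        (fun a => (hk4 (p ^ k) ℓ hℓ hℓN a).symm),
      aeval_intertwine (lam (p ^ k)) _ (tcohL N hℓ' hℓ'N)
        (fun a => (hk4 (p ^ k) ℓ' hℓ' hℓ'N a).symm)] at h1
    rw [LinearMap.sub_apply, map_sub, h1, sub_self]
  choose φ' hφ' using hDb
  refine hc k _ (b.constr ℤ φ') ?_
  rw [map_sub, heckeAct_aeval, heckeAct_aeval, heckeAct_T_eq, heckeAct_T_eq]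
  refine b.ext fun i => ?_
  rw [LinearMap.smul_apply, Module.Basis.constr_basis, hφ']
  norm_cast

end Fermat.Agent.P5.Lambda
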