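/-
P5 block [OPEN] (helper20), consumer kit: representations with open stabilisers.

`HasOpenStab ρ` says that every vector of the representation `ρ` of `Gal(L/ℚ)` is fixed by
`Gal(L/M)` for some finite `M/ℚ`.  For such a representation:

* the orbit of every vector is finite, the span `orbitSpan ρ x` of the orbit is a stable,
  finitely generated submodule, and the action on it factors through a finite normal level
  (`exists_normal_fixing_orbitSpan`, `factorsThroughFiniteLevel_sub_orbitSpan`);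
* `HasOpenStab` passes to base change (`HasOpenStab.baseChange`);
* a finitely generated module with open stabilisers factors through a finite level
  (`exists_normal_fixing_of_finite`, `factorsThroughFiniteLevel_of_finite`), and the adic variant
  `adicContinuous_of_pointwise`;
* the torsion of the modular Jacobian `J₀(N)` has open stabilisers, unconditionally for `N ≠ 0`
  (`hasOpenStab_torsionGaloisRep`, `exists_fixing_jzero'`, `exists_normal_fixing_jzero_finite'`).
-/
import Mathlib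
import Fermat.Prelude.Def_GaloisRep_Adic
import Fermat.Prelude.Def_GaloisRep_Residual
import Fermat.Agent.P5.OpenStab
import Fermat.Agent.S37.HeckeInputs

set_option autoImplicit false

open ModularCurve AlgebraicCurve IntermediateField
open scoped TensorProduct

noncomputable section

namespace Fermat.Agent.P5.OpenStabRep

open Fermat.Agent.P5.OpenStab

/-! ### Abstract actions of a Galois group -/

section Abstract

variable {K L : Type*} [Field K] [Field L] [Algebra K L]
variable {Y : Type*} (a : (L ≃ₐ[K] L) → Y → Y)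

/-- If `y` is fixed by `Gal(L/M)` and `σ`, `τ` agree on `M`, then `σ y = τ y`. -/
theorem act_eq_of_agree (ha : ∀ σ τ y, a (σ * τ) y = a σ (a τ y)) {y : Y}
    {M : IntermediateField K L}
    (h : ∀ σ : L ≃ₐ[K] L, (∀ z ∈ M, σ z = z) → a σ y = y) {σ τ : L ≃ₐ[K] L}
    (hστ : ∀ z ∈ M, σ z = τ z) : a σ y = a τ y := by
  have h1 : a (τ⁻¹ * σ) y = y := h _ fun z hz => by
    rw [AlgEquiv.mul_apply, hστ z hz]
    exact τ.symm_apply_apply z
  have h2 : a σ y = a (τ * (τ⁻¹ * σ)) y := by rw [mul_inv_cancel_left]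
  rw [h2, ha, h1]

/-- If `y` is fixed by `Gal(L/M)` with `M` stable under `Gal(L/K)`, then `Gal(L/M)` fixes the
whole orbit of `y`. -/
theorem act_act_eq_of_stable (ha : ∀ σ τ y, a (σ * τ) y = a σ (a τ y)) {y : Y}
    {M : IntermediateField K L}
    (h : ∀ σ : L ≃ₐ[K] L, (∀ z ∈ M, σ z = z) → a σ y = y)
    (hM : ∀ τ : L ≃ₐ[K] L, ∀ z ∈ M, τ z ∈ M) {σ : L ≃ₐ[K] L} (hσ : ∀ z ∈ M, σ z = z)
    (τ : L ≃ₐ[K] L) : a σ (a τ y) = a τ y := by
  rw [← ha]
  exact act_eq_of_agree a ha h fun z hz => by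
    rw [AlgEquiv.mul_apply]
    exact hσ _ (hM τ z hz)

/-- If `y` is fixed by `Gal(L/M)` with `M/K` finite, then the orbit of `y` is finite. -/
theorem finite_orbit (ha : ∀ σ τ y, a (σ * τ) y = a σ (a τ y)) {y : Y}
    {M : IntermediateField K L} [FiniteDimensional K M]
    (h : ∀ σ : L ≃ₐ[K] L, (∀ z ∈ M, σ z = z) → a σ y = y) :
    (Set.range fun σ : L ≃ₐ[K] L => a σ y).Finite := by
  classical
  let r : (L ≃ₐ[K] L) → (M →ₐ[K] L) := fun σ => (σ : L →ₐ[K] L).comp M.val
  refine Set.Finite.subset (Set.finite_range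
    (fun e : M →ₐ[K] L => if he : ∃ σ, r σ = e then a he.choose y else y)) ?_
  rintro _ ⟨σ, rfl⟩
  refine ⟨r σ, ?_⟩
  have hex : ∃ τ, r τ = r σ := ⟨σ, rfl⟩
  simp only [dif_pos hex]
  refine act_eq_of_agree a ha h fun z hz => ?_
  exact congrArg (fun e : M →ₐ[K] L => e ⟨z, hz⟩) hex.choose_spec

end Abstract

/-! ### Normal subfields are stable -/

section Normal

variable {L : Type*} [Field L] [Algebra ℚ L]

/-- A normal intermediate field is mapped into itself by every automorphism. -/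
theorem map_mem_of_normal [Normal ℚ L] (M : IntermediateField ℚ L) (hM : Normal ℚ M)
    (τ : L ≃ₐ[ℚ] L) {z : L} (hz : z ∈ M) : τ z ∈ M := by
  have e : (DivisionRing.toRatAlgebra : Algebra ℚ M) = IntermediateField.algebra' M :=
    Subsingleton.elim _ _
  have hM' : @Normal ℚ M _ _ (IntermediateField.algebra' M) := by
    rw [← e]
    exact hM
  have h1 := (IntermediateField.normal_iff_forall_map_le'.mp hM') τ
  exact h1 ⟨z, hz, rfl⟩

end Normal

/-! ### Representations with open stabilisers -/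

section Rep

variable {L : Type*} [Field L] [Algebra ℚ L]
variable {R : Type*} [CommRing R] {V : Type*} [AddCommGroup V] [Module R V]

/-- Every vector is fixed by `Gal(L/M)` for some finite `M/ℚ`. -/
def HasOpenStab (ρ : (L ≃ₐ[ℚ] L) →* Module.End R V) : Prop :=
  ∀ v : V, ∃ M : IntermediateField ℚ L, FiniteDimensional ℚ M ∧
    ∀ σ : L ≃ₐ[ℚ] L, (∀ y ∈ M, σ y = y) → ρ σ v = v

variable (ρ : (L ≃ₐ[ℚ] L) →* Module.End R V)

theorem rep_mul_apply (σ τ : L ≃ₐ[ℚ] L) (v : V) : ρ (σ * τ) v = ρ σ (ρ τ v) := by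
  rw [map_mul]
  rfl

/-- The span of the orbit of `x`. -/
def orbitSpan (x : V) : Submodule R V :=
  Submodule.span R (Set.range fun σ : L ≃ₐ[ℚ] L => ρ σ x)

theorem mem_orbitSpan_self (x : V) : x ∈ orbitSpan ρ x :=
  Submodule.subset_span ⟨1, by show ρ 1 x = x; rw [map_one]; rfl⟩

theorem apply_mem_orbitSpan (x : V) (σ : L ≃ₐ[ℚ] L) : ρ σ x ∈ orbitSpan ρ x :=
  Submodule.subset_span ⟨σ, rfl⟩

/-- The orbit span is stable. -/
theorem orbitSpan_stable (x : V) (τ : L ≃ₐ[ℚ] L) :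
    ∀ w ∈ orbitSpan ρ x, ρ τ w ∈ orbitSpan ρ x := by
  intro w hw
  refine Submodule.span_induction (p := fun w _ => ρ τ w ∈ orbitSpan ρ x) ?_ ?_ ?_ ?_ hw
  · rintro _ ⟨σ, rfl⟩
    show ρ τ (ρ σ x) ∈ orbitSpan ρ x
    rw [← rep_mul_apply]
    exact apply_mem_orbitSpan ρ x _
  · rw [map_zero]
    exact zero_mem _
  · intro u v _ _ hu hv
    rw [map_add]
    exact add_mem hu hv
  · intro c u _ hu
    rw [map_smul]
    exact Submodule.smul_mem _ c hu

/-- The orbit span is the smallest stable submodule containing `x`. -/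
theorem orbitSpan_le (x : V) (W : Submodule R V) (hx : x ∈ W)
    (hW : ∀ σ : L ≃ₐ[ℚ] L, ∀ w ∈ W, ρ σ w ∈ W) : orbitSpan ρ x ≤ W :=
  Submodule.span_le.mpr (by rintro _ ⟨σ, rfl⟩; exact hW σ x hx)

/-- The orbit of a vector with open stabiliser is finite. -/
theorem finite_orbit_of_fixing {x : V} {M : IntermediateField ℚ L} (hM : FiniteDimensional ℚ M)
    (h : ∀ σ : L ≃ₐ[ℚ] L, (∀ y ∈ M, σ y = y) → ρ σ x = x) :
    (Set.range fun σ : L ≃ₐ[ℚ] L => ρ σ x).Finite :=
  finite_orbit (fun σ v => ρ σ v) (fun σ τ v => rep_mul_apply ρ σ τ v) h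

/-- The orbit span of a vector with open stabiliser is finitely generated. -/
theorem orbitSpan_fg {x : V} {M : IntermediateField ℚ L} (hM : FiniteDimensional ℚ M)
    (h : ∀ σ : L ≃ₐ[ℚ] L, (∀ y ∈ M, σ y = y) → ρ σ x = x) : (orbitSpan ρ x).FG :=
  Submodule.fg_span (finite_orbit_of_fixing ρ hM h)

theorem orbitSpan_finite {x : V} {M : IntermediateField ℚ L} (hM : FiniteDimensional ℚ M)
    (h : ∀ σ : L ≃ₐ[ℚ] L, (∀ y ∈ M, σ y = y) → ρ σ x = x) :
    Module.Finite R (orbitSpan ρ x) :=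
  Module.Finite.iff_fg.mpr (orbitSpan_fg ρ hM h)

theorem HasOpenStab.orbitSpan_finite {ρ : (L ≃ₐ[ℚ] L) →* Module.End R V} (hρ : HasOpenStab ρ)
    (x : V) : Module.Finite R (orbitSpan ρ x) := by
  obtain ⟨M, hM, h⟩ := hρ x
  exact Fermat.Agent.P5.OpenStabRep.orbitSpan_finite ρ hM h

/-- If `x` is fixed by `Gal(L/M₀)`, `M₀/ℚ` finite, then the whole orbit span of `x` is fixed
pointwise by `Gal(L/M)` for a finite normal `M/ℚ`. -/
theorem exists_normal_fixing_orbitSpan [Normal ℚ L] {x : V} {M₀ : IntermediateField ℚ L}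
    (hM₀ : FiniteDimensional ℚ M₀) (h : ∀ σ : L ≃ₐ[ℚ] L, (∀ y ∈ M₀, σ y = y) → ρ σ x = x) :
    ∃ M : IntermediateField ℚ L, FiniteDimensional ℚ M ∧ Normal ℚ M ∧ M₀ ≤ M ∧
      ∀ σ : L ≃ₐ[ℚ] L, (∀ y ∈ M, σ y = y) → ∀ w ∈ orbitSpan ρ x, ρ σ w = w := by
  obtain ⟨M, hle, hfin, hnorm⟩ := exists_normal_ge M₀ hM₀
  refine ⟨M, hfin, hnorm, hle, fun σ hσ w hw => ?_⟩
  have hM : ∀ σ : L ≃ₐ[ℚ] L, (∀ y ∈ M, σ y = y) → ρ σ x = x :=
    fun σ hσ => h σ fun y hy => hσ y (hle hy)
  refine Submodule.span_induction (p := fun w _ => ρ σ w = w) ?_ ?_ ?_ ?_ hw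
  · rintro _ ⟨τ, rfl⟩
    exact act_act_eq_of_stable (fun σ v => ρ σ v) (fun σ τ v => rep_mul_apply ρ σ τ v) hM
      (fun τ z hz => map_mem_of_normal M hnorm τ hz) hσ τ
  · rw [map_zero]
  · intro u v _ _ hu hv
    rw [map_add, hu, hv]
  · intro c u _ hu
    rw [map_smul, hu]

/-- The restriction of a representation to a stable submodule. -/
def sub (W : Submodule R V) (hW : ∀ σ : L ≃ₐ[ℚ] L, ∀ w ∈ W, ρ σ w ∈ W) :
    (L ≃ₐ[ℚ] L) →* Module.End R W where
  toFun σ := (ρ σ).restrict (hW σ)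
  map_one' := by
    refine LinearMap.ext fun w => Subtype.ext ?_
    rw [LinearMap.coe_restrict_apply, map_one]
    rfl
  map_mul' σ τ := by
    refine LinearMap.ext fun w => Subtype.ext ?_
    rw [LinearMap.coe_restrict_apply, rep_mul_apply]
    rfl

@[simp]
theorem coe_sub_apply (W : Submodule R V) (hW : ∀ σ : L ≃ₐ[ℚ] L, ∀ w ∈ W, ρ σ w ∈ W)
    (σ : L ≃ₐ[ℚ] L) (w : W) : ((sub ρ W hW σ w : W) : V) = ρ σ (w : V) :=
  rfl

/-- The representation on the orbit span of `x`. -/
def orbitRep (x : V) : (L ≃ₐ[ℚ] L) →* Module.End R (orbitSpan ρ x) :=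
  sub ρ (orbitSpan ρ x) (orbitSpan_stable ρ x)

/-- The representation on the orbit span of a vector with open stabiliser factors through a
finite normal level. -/
theorem exists_normal_fixing_orbitRep [Normal ℚ L] {x : V} {M₀ : IntermediateField ℚ L}
    (hM₀ : FiniteDimensional ℚ M₀) (h : ∀ σ : L ≃ₐ[ℚ] L, (∀ y ∈ M₀, σ y = y) → ρ σ x = x) :
    ∃ M : IntermediateField ℚ L, FiniteDimensional ℚ M ∧ Normal ℚ M ∧ M₀ ≤ M ∧
      ∀ σ : L ≃ₐ[ℚ] L, (∀ y ∈ M, σ y = y) → orbitRep ρ x σ = 1 := by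
  obtain ⟨M, hfin, hnorm, hle, hM⟩ := exists_normal_fixing_orbitSpan ρ hM₀ h
  refine ⟨M, hfin, hnorm, hle, fun σ hσ => LinearMap.ext fun w => Subtype.ext ?_⟩
  exact hM σ hσ w w.2

/-- A finitely generated module with open stabilisers is fixed pointwise by `Gal(L/M)` for one
finite `M/ℚ`. -/
theorem HasOpenStab.exists_fixing_of_finite {ρ : (L ≃ₐ[ℚ] L) →* Module.End R V}
    (hρ : HasOpenStab ρ) [Module.Finite R V] :
    ∃ M : IntermediateField ℚ L, FiniteDimensional ℚ M ∧
      ∀ σ : L ≃ₐ[ℚ] L, (∀ y ∈ M, σ y = y) → ρ σ = 1 := by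
  obtain ⟨s, hs⟩ := (Module.finite_def (R := R) (M := V)).mp inferInstance
  obtain ⟨M, hM, h⟩ := exists_fixing_finite (s := (s : Set V)) s.finite_toSet
    (p := fun v σ => ρ σ v = v) fun v _ => hρ v
  refine ⟨M, hM, fun σ hσ => LinearMap.ext fun v => ?_⟩
  have hv : v ∈ Submodule.span R (s : Set V) := hs ▸ Submodule.mem_top
  refine Submodule.span_induction (p := fun v _ => ρ σ v = (1 : Module.End R V) v) ?_ ?_ ?_ ?_ hv
  · intro u hu
    exact h σ hσ u hu
  · rw [map_zero, map_zero]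
  · intro u v _ _ hu hv
    rw [map_add, map_add, hu, hv]
  · intro c u _ hu
    rw [map_smul, map_smul, hu]

/-- The same with a normal `M`. -/
theorem HasOpenStab.exists_normal_fixing_of_finite [Normal ℚ L]
    {ρ : (L ≃ₐ[ℚ] L) →* Module.End R V} (hρ : HasOpenStab ρ) [Module.Finite R V] :
    ∃ M : IntermediateField ℚ L, FiniteDimensional ℚ M ∧ Normal ℚ M ∧
      ∀ σ : L ≃ₐ[ℚ] L, (∀ y ∈ M, σ y = y) → ρ σ = 1 := by
  obtain ⟨M, hM, h⟩ := hρ.exists_fixing_of_finite
  obtain ⟨M', hle, hfin, hnorm⟩ := exists_normal_ge M hM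
  exact ⟨M', hfin, hnorm, fun σ hσ => h σ fun y hy => hσ y (hle hy)⟩

/-- Open stabilisers pass to stable submodules. -/
theorem HasOpenStab.sub {ρ : (L ≃ₐ[ℚ] L) →* Module.End R V} (hρ : HasOpenStab ρ)
    (W : Submodule R V) (hW : ∀ σ : L ≃ₐ[ℚ] L, ∀ w ∈ W, ρ σ w ∈ W) :
    HasOpenStab (sub ρ W hW) := by
  intro w
  obtain ⟨M, hM, h⟩ := hρ (w : V)
  exact ⟨M, hM, fun σ hσ => Subtype.ext (h σ hσ)⟩

/-- The base change of a representation. -/
def baseChangeRep (A : Type*) [CommRing A] [Algebra R A] :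
    (L ≃ₐ[ℚ] L) →* Module.End A (A ⊗[R] V) where
  toFun σ := (ρ σ).baseChange A
  map_one' := by rw [map_one, LinearMap.baseChange_one]
  map_mul' σ τ := by rw [map_mul, LinearMap.baseChange_mul]

@[simp]
theorem baseChangeRep_apply (A : Type*) [CommRing A] [Algebra R A] (σ : L ≃ₐ[ℚ] L) :
    baseChangeRep ρ A σ = (ρ σ).baseChange A :=
  rfl

/-- Open stabilisers pass to base change. -/
theorem HasOpenStab.baseChange {ρ : (L ≃ₐ[ℚ] L) →* Module.End R V} (hρ : HasOpenStab ρ)
    (A : Type*) [CommRing A] [Algebra R A] : HasOpenStab (baseChangeRep ρ A) := by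
  intro w
  induction w using TensorProduct.induction_on with
  | zero => exact exists_fixing_true fun σ => map_zero _
  | tmul c v =>
    obtain ⟨M, hM, h⟩ := hρ v
    refine ⟨M, hM, fun σ hσ => ?_⟩
    rw [baseChangeRep_apply, LinearMap.baseChange_tmul, h σ hσ]
  | add x y hx hy =>
    obtain ⟨M, hM, h⟩ := exists_fixing_and hx hy
    exact ⟨M, hM, fun σ hσ => by rw [map_add, (h σ hσ).1, (h σ hσ).2]⟩

/-- Adic variant: if every vector of a finitely generated module is fixed modulo `I ^ n • ⊤` by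
some `Gal(L/M)`, then one `M` works for all vectors. -/
theorem exists_fixing_mod_of_finite [Module.Finite R V] (I : Ideal R)
    (h : ∀ v : V, ∃ M : IntermediateField ℚ L, FiniteDimensional ℚ M ∧
      ∀ σ : L ≃ₐ[ℚ] L, (∀ y ∈ M, σ y = y) → ρ σ v - v ∈ I • (⊤ : Submodule R V)) :
    ∃ M : IntermediateField ℚ L, FiniteDimensional ℚ M ∧
      ∀ σ : L ≃ₐ[ℚ] L, (∀ y ∈ M, σ y = y) → ∀ v : V, ρ σ v - v ∈ I • (⊤ : Submodule R V) := by
  obtain ⟨s, hs⟩ := (Module.finite_def (R := R) (M := V)).mp inferInstance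
  obtain ⟨M, hM, hM'⟩ := exists_fixing_finite (s := (s : Set V)) s.finite_toSet
    (p := fun v σ => ρ σ v - v ∈ I • (⊤ : Submodule R V)) fun v _ => h v
  refine ⟨M, hM, fun σ hσ v => ?_⟩
  have hv : v ∈ Submodule.span R (s : Set V) := hs ▸ Submodule.mem_top
  refine Submodule.span_induction (p := fun v _ => ρ σ v - v ∈ I • (⊤ : Submodule R V))
    ?_ ?_ ?_ ?_ hv
  · intro u hu
    exact hM' σ hσ u hu
  · rw [map_zero, sub_zero]
    exact zero_mem _
  · intro u v _ _ hu hv
    rw [map_add, add_sub_add_comm]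
    exact add_mem hu hv
  · intro c u _ hu
    rw [map_smul, ← smul_sub]
    exact Submodule.smul_mem _ c hu

end Rep

/-! ### The absolute Galois group of `ℚ` -/

section Qbar

local instance isAlgebraicQbar_osr : Algebra.IsAlgebraic ℚ (AlgebraicClosure ℚ) :=
  AlgebraicClosure.isAlgebraic ℚ
local instance isAlgClosureQbar_osr : IsAlgClosure ℚ (AlgebraicClosure ℚ) :=
  ⟨inferInstance, inferInstance⟩
local instance normalQbar_osr : Normal ℚ (AlgebraicClosure ℚ) :=
  IsAlgClosure.normal ℚ (AlgebraicClosure ℚ)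

variable {R : Type} [CommRing R] {V : Type} [AddCommGroup V] [Module R V]
variable (ρ : (AlgebraicClosure ℚ ≃ₐ[ℚ] AlgebraicClosure ℚ) →* Module.End R V)

/-- A finitely generated representation with open stabilisers factors through a finite level
(the Prelude predicate). -/
theorem HasOpenStab.factorsThroughFiniteLevel
    {ρ : (AlgebraicClosure ℚ ≃ₐ[ℚ] AlgebraicClosure ℚ) →* Module.End R V}
    (hρ : HasOpenStab ρ) [Module.Finite R V] : GaloisFactorsThroughFiniteLevel ρ :=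
  hρ.exists_fixing_of_finite

/-- The representation on the orbit span of a vector with open stabiliser factors through a
finite level (the Prelude predicate). -/
theorem factorsThroughFiniteLevel_orbitRep {x : V}
    {M₀ : IntermediateField ℚ (AlgebraicClosure ℚ)} (hM₀ : FiniteDimensional ℚ M₀)
    (h : ∀ σ : AlgebraicClosure ℚ ≃ₐ[ℚ] AlgebraicClosure ℚ, (∀ y ∈ M₀, σ y = y) → ρ σ x = x) :
    GaloisFactorsThroughFiniteLevel (orbitRep ρ x) := by
  obtain ⟨M, hfin, _, _, hM⟩ := exists_normal_fixing_orbitRep ρ hM₀ h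
  exact ⟨M, hfin, hM⟩

theorem HasOpenStab.factorsThroughFiniteLevel_orbitRep
    {ρ : (AlgebraicClosure ℚ ≃ₐ[ℚ] AlgebraicClosure ℚ) →* Module.End R V}
    (hρ : HasOpenStab ρ) (x : V) : GaloisFactorsThroughFiniteLevel (orbitRep ρ x) := by
  obtain ⟨M, hM, h⟩ := hρ x
  exact Fermat.Agent.P5.OpenStabRep.factorsThroughFiniteLevel_orbitRep ρ hM h

/-- Adic continuity from pointwise open stabilisers modulo every power of the maximal ideal. -/
theorem adicContinuous_of_pointwise {A : Type} [CommRing A] [IsLocalRing A]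
    {V : Type} [AddCommGroup V] [Module A V] [Module.Finite A V]
    (ρ : (AlgebraicClosure ℚ ≃ₐ[ℚ] AlgebraicClosure ℚ) →* Module.End A V)
    (h : ∀ (n : ℕ) (v : V), ∃ M : IntermediateField ℚ (AlgebraicClosure ℚ),
      FiniteDimensional ℚ M ∧ ∀ σ : AlgebraicClosure ℚ ≃ₐ[ℚ] AlgebraicClosure ℚ,
        (∀ y ∈ M, σ y = y) →
          ρ σ v - v ∈ (IsLocalRing.maximalIdeal A ^ n) • (⊤ : Submodule A V)) :
    GaloisActionIsAdicContinuous A ρ :=
  fun n => exists_fixing_mod_of_finite ρ (IsLocalRing.maximalIdeal A ^ n) (h n)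

/-- A representation with open stabilisers on a finitely generated module over a local ring is
adically continuous. -/
theorem HasOpenStab.adicContinuous {A : Type} [CommRing A] [IsLocalRing A]
    {V : Type} [AddCommGroup V] [Module A V] [Module.Finite A V]
    {ρ : (AlgebraicClosure ℚ ≃ₐ[ℚ] AlgebraicClosure ℚ) →* Module.End A V}
    (hρ : HasOpenStab ρ) : GaloisActionIsAdicContinuous A ρ := by
  obtain ⟨M, hM, h⟩ := hρ.exists_fixing_of_finite
  refine fun n => ⟨M, hM, fun σ hσ v => ?_⟩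
  rw [h σ hσ, Module.End.one_apply, sub_self]
  exact zero_mem _

end Qbar

/-! ### The modular Jacobian -/

section JZero

variable (N : ℕ) [NeZero N]

/-- Every point of `J₀(N)(ℚ̄)` has an open stabiliser (`N ≠ 0`; no instance argument). -/
theorem exists_fixing_jzero' (x : JZero N) :
    ∃ M : IntermediateField ℚ (AlgebraicClosure ℚ), FiniteDimensional ℚ M ∧
      ∀ σ : AlgebraicClosure ℚ ≃ₐ[ℚ] AlgebraicClosure ℚ, (∀ y ∈ M, σ y = y) → σ • x = x :=
  haveI := Fermat.Agent.S37.HeckeInputs.hasPrincipalDivisors_FN N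
  exists_fixing_jzero N x

/-- A finite set of points of `J₀(N)(ℚ̄)` is fixed pointwise by `Gal(ℚ̄/M)` for a finite normal
`M/ℚ` (`N ≠ 0`; no instance argument). -/
theorem exists_normal_fixing_jzero_finite' {X : Set (JZero N)} (hX : X.Finite) :
    ∃ M : IntermediateField ℚ (AlgebraicClosure ℚ), FiniteDimensional ℚ M ∧ Normal ℚ M ∧
      ∀ σ : AlgebraicClosure ℚ ≃ₐ[ℚ] AlgebraicClosure ℚ, (∀ y ∈ M, σ y = y) →
        ∀ x ∈ X, σ • x = x :=
  haveI := Fermat.Agent.S37.HeckeInputs.hasPrincipalDivisors_FN N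
  exists_normal_fixing_jzero_finite N hX

/-- The Prelude Galois representation on `J₀(N)[n]` has open stabilisers. -/
theorem hasOpenStab_torsionGaloisRep (n : ℕ) : HasOpenStab (JZero.torsionGaloisRep N n) := by
  intro x
  obtain ⟨M, hM, h⟩ := exists_fixing_jzero' N (x : JZero N)
  exact ⟨M, hM, fun σ hσ => Subtype.ext (h σ hσ)⟩

/-- The orbit of a point of `J₀(N)(ℚ̄)` is finite. -/
theorem finite_orbit_jzero (x : JZero N) :
    (Set.range fun σ : AlgebraicClosure ℚ ≃ₐ[ℚ] AlgebraicClosure ℚ => σ • x).Finite := by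
  obtain ⟨M, hM, h⟩ := exists_fixing_jzero' N x
  exact finite_orbit (fun σ (y : JZero N) => σ • y) (fun σ τ y => mul_smul σ τ y) h

end JZero

end Fermat.Agent.P5.OpenStabRep
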