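import Mathlib
import Fermat.Prelude.Def_ModularCurve_HeckeModule
import Fermat.Agent.Lib.ResidualEigen
import Fermat.Agent.P5.Per.Action
import Fermat.Agent.P5.G9.EigenHom
import Fermat.Agent.S22

/-!
# P5, residual route: the eigenvector block [RES-EIG]

For a normalised eigenform `g` of level `N`, a prime `p` and a ring homomorphism
`φ : ℤ̄ → k` to a field of characteristic `p`, the eigensystem `ℓ ↦ φ (a_ℓ g)` occurs in
`k ⊗ J₀(N)[p]`:  there is `x ≠ 0` in `k ⊗[𝔽_p] J₀(N)(ℚ̄)[p]` with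
`(T_ℓ ⊗ k) x = φ (a_ℓ) • x` for every prime `ℓ ∤ N p`.

The only input which is not on main is the typed contract `LambdaStmt N p`:
an additive map `lam` from the parabolic lattice `Per.Lat N = Hom_par(Γ₀(N), ℤ)` to `J₀(N)`
with values in the `p`-torsion, kernel `p • Lat N`, intertwining `T^coh_ℓ` and `T^alg_ℓ`
(`ℓ ∤ N p`).  (`lam ψ` = the class `y` with Kummer character `e(ψ/p)`.)

* `Jtors N p`, `torsT N p ℓ` : the `p`-torsion of `J₀(N)` and the Hecke operator on it.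
* `LambdaStmt N p` : the contract.
* `resEig` : the eigenvector.
-/

set_option autoImplicit false
set_option linter.style.haveILetI false

namespace Fermat.Agent.P5.ResEig

open ModularCurve AlgebraicCurve CongruenceSubgroup TensorProduct
open Fermat.Agent.P5

/-- The `p`-torsion of `J₀(N)(ℚ̄)` (an `𝔽_p`-vector space). -/
abbrev Jtors (N p : ℕ) : Type :=
  ↥(Pic0.torsion (AlgebraicClosure ℚ) (modularFunctionFieldBar N) p)

theorem mem_torsion_of_nsmul {N p : ℕ} {x : JZero N} (h : p • x = 0) :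
    x ∈ Pic0.torsion (AlgebraicClosure ℚ) (modularFunctionFieldBar N) p := by
  rw [Pic0.mem_torsion, natCast_zsmul]
  exact h

theorem nsmul_eq_zero_of_mem_torsion {N p : ℕ} {x : JZero N}
    (h : x ∈ Pic0.torsion (AlgebraicClosure ℚ) (modularFunctionFieldBar N) p) : p • x = 0 := by
  rw [Pic0.mem_torsion, natCast_zsmul] at h
  exact h

/-- The Hecke operator `T_ℓ` on the `p`-torsion of `J₀(N)`. -/
noncomputable def torsT (N : ℕ) [NeZero N] (p : ℕ) (ℓ : Nat.Primes) :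
    Module.End (ZMod p) (Jtors N p) :=
  AddMonoidHom.toZModLinearMap p
    (AddMonoidHom.codRestrict
      ((heckeOperatorBar N ℓ).toAddMonoidHom.comp
        (Pic0.torsion (AlgebraicClosure ℚ) (modularFunctionFieldBar N) p).subtype)
      (Pic0.torsion (AlgebraicClosure ℚ) (modularFunctionFieldBar N) p)
      (fun x => by
        apply mem_torsion_of_nsmul
        show p • heckeOperatorBar N ℓ (x : JZero N) = 0
        rw [← map_nsmul, nsmul_eq_zero_of_mem_torsion x.2, map_zero]))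

@[simp] theorem coe_torsT (N : ℕ) [NeZero N] (p : ℕ) (ℓ : Nat.Primes) (x : Jtors N p) :
    ((torsT N p ℓ x : Jtors N p) : JZero N) = heckeOperatorBar N ℓ (x : JZero N) := rfl

/-- **The λ-contract** of the residual route: an additive map from the parabolic lattice to
`J₀(N)`, with values in the `p`-torsion, kernel `p • Lat N`, which intertwines `T^coh_ℓ` with
`T^alg_ℓ` for the primes `ℓ ∤ N p`. -/
def LambdaStmt (N : ℕ) [NeZero N] (p : ℕ) : Prop :=
  ∃ lam : ↥(Per.Lat N) →+ JZero N,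
    (∀ ψ, p • lam ψ = 0) ∧
    (∀ ψ, lam ψ = 0 → ∃ ψ' : ↥(Per.Lat N), ψ = p • ψ') ∧
    ∀ (ℓ : ℕ) (hℓ : ℓ.Prime) (hℓN : ¬ ℓ ∣ N), ℓ ≠ p → ∀ ψ : ↥(Per.Lat N),
      heckeOperatorBar N ⟨ℓ, hℓ⟩ (lam ψ) = lam (Per.tcohL N hℓ hℓN ψ)

/-- The eigencharacter of a normalised eigenform has values in the algebraic integers. -/
theorem isIntegral_eigenChar {N : ℕ} [NeZero N] {g : CuspForm (Gamma0 N) 2}
    (hg : g.IsNormalizedEigenform) (S : Set ℕ) (t : CuspForm.heckeAlgebra N 2 S) :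
    IsIntegral ℤ (G9.EigenHom.eigenChar hg S t) := by
  haveI : Module.Finite ℤ (CuspForm.heckeAlgebra N 2 S) := Fermat.Agent.S22.result N 2 S
  have ht : IsIntegral ℤ t := Algebra.IsIntegral.isIntegral t
  exact ht.map (G9.EigenHom.eigenChar hg S).toIntAlgHom

/-- The eigencharacter, with values in `integralClosure ℤ ℂ`. -/
noncomputable def eigenCharInt {N : ℕ} [NeZero N] {g : CuspForm (Gamma0 N) 2}
    (hg : g.IsNormalizedEigenform) (S : Set ℕ) :
    CuspForm.heckeAlgebra N 2 S →+* integralClosure ℤ ℂ :=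
  ((G9.EigenHom.eigenChar hg S).toIntAlgHom.codRestrict (integralClosure ℤ ℂ)
    (fun t => isIntegral_eigenChar hg S t) : CuspForm.heckeAlgebra N 2 S →+* integralClosure ℤ ℂ)

theorem coe_eigenCharInt {N : ℕ} [NeZero N] {g : CuspForm (Gamma0 N) 2}
    (hg : g.IsNormalizedEigenform) (S : Set ℕ) (t : CuspForm.heckeAlgebra N 2 S) :
    ((eigenCharInt hg S t : integralClosure ℤ ℂ) : ℂ) = G9.EigenHom.eigenChar hg S t := rfl

/-- **[RES-EIG]** The eigensystem of a normalised eigenform, reduced along `φ : ℤ̄ → k`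
(`char k = p`), occurs in `k ⊗ J₀(N)[p]`. -/
theorem resEig (N : ℕ) [NeZero N] (p : ℕ) [Fact p.Prime] (hlam : LambdaStmt N p)
    {g : CuspForm (Gamma0 N) 2} (hg : g.IsNormalizedEigenform)
    {k : Type*} [Field k] [Algebra (ZMod p) k] (φ : integralClosure ℤ ℂ →+* k) :
    ∃ x : k ⊗[ZMod p] Jtors N p, x ≠ 0 ∧
      ∀ (ℓ : ℕ) (hℓ : ℓ.Prime), ¬ ℓ ∣ N → ℓ ≠ p →
        ∀ a : integralClosure ℤ ℂ, (a : ℂ) = ModularFormClass.qCoeff g ℓ →
          (torsT N p ⟨ℓ, hℓ⟩).baseChange k x = φ a • x := by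
  classical
  obtain ⟨lam, hlam_p, hlam_ker, hlam_T⟩ := hlam
  let S : Set ℕ := {q | q.Prime ∧ q ∣ N} ∪ {p}
  have hNS : ∀ q : ℕ, q.Prime → q ∣ N → q ∈ S := fun q hq hqN => Or.inl ⟨hq, hqN⟩
  haveI : Module.Finite ℤ (CuspForm.heckeAlgebra N 2 S) := Fermat.Agent.S22.result N 2 S
  haveI : Module.Finite ℤ ↥(Per.Lat N) := Per.lat_finite N
  let lamV : ↥(Per.Lat N) →+ Jtors N p :=
    AddMonoidHom.codRestrict lam
      (Pic0.torsion (AlgebraicClosure ℚ) (modularFunctionFieldBar N) p)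
      (fun ψ => mem_torsion_of_nsmul (hlam_p ψ))
  have hlamV : ∀ ψ, ((lamV ψ : Jtors N p) : JZero N) = lam ψ := fun _ => rfl
  have hker : ∀ ψ, lamV ψ = 0 → ∃ ψ' : ↥(Per.Lat N), ψ = p • ψ' := by
    intro ψ hψ
    apply hlam_ker
    rw [← hlamV, hψ]
    rfl
  obtain ⟨x, hx, hev⟩ := Fermat.Agent.Lib.ResidualEigen.exists_eigenvector_tensor
    (Per.heckeAct N S hNS) (Per.heckeAct_injective N S hNS) p
    (φ.comp (eigenCharInt hg S)) lamV hker
  refine ⟨x, hx, ?_⟩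
  intro ℓ hℓ hℓN hℓp a ha
  have hℓS : ℓ ∉ S := by
    rintro (⟨-, h⟩ | h)
    · exact hℓN h
    · exact hℓp h
  have h1 := hev (CuspForm.heckeAlgebra.T hℓ hℓN hℓS) (torsT N p ⟨ℓ, hℓ⟩) (by
    intro ψ
    have h2 : (Per.heckeAct N S hNS (CuspForm.heckeAlgebra.T hℓ hℓN hℓS)) ψ =
        Per.tcohL N hℓ hℓN ψ := by
      apply Subtype.ext
      rw [Per.heckeAct_T, Per.coe_tcohL]
    rw [h2]
    apply Subtype.ext
    exact hlam_T ℓ hℓ hℓN hℓp ψ)
  rw [h1]
  congr 1
  show φ (eigenCharInt hg S (CuspForm.heckeAlgebra.T hℓ hℓN hℓS)) = φ a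
  congr 1
  apply Subtype.ext
  rw [coe_eigenCharInt, G9.EigenHom.eigenChar_T, ha]

end Fermat.Agent.P5.ResEig
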