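import Mathlib
import Fermat.Agent.P5.ResEig
import Fermat.Agent.P5.Plan

/-!
# P5, residual route: [RES-EIG] against the top-level contract `Plan.LambdaStmt`

* `lambdaStmt_of_plan` : `Plan.LambdaStmt N → ResEig.LambdaStmt N p` (the instance `n = p`).
* `resEig_of_plan` : the residual eigenvector in the operator-free form consumed by
  `P5/ResidualBlock`: there is `x ≠ 0` in `k ⊗[𝔽_p] J₀(N)[p]` such that for EVERY prime `ℓ ∤ N`
  (including `ℓ = p`) and EVERY endomorphism `τ` of `J₀(N)[p]` restricting `T^alg_ℓ`,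
  `(τ ⊗ k) x = φ (a_ℓ) • x`.
-/

set_option autoImplicit false
set_option linter.style.haveILetI false

namespace Fermat.Agent.P5.ResEig

open ModularCurve AlgebraicCurve CongruenceSubgroup TensorProduct
open Fermat.Agent.P5

/-- The top-level λ-contract gives the λ-contract of `P5/ResEig` at every `p > 0`. -/
theorem lambdaStmt_of_plan (N : ℕ) [NeZero N] (p : ℕ) (hp : 0 < p) (h : Plan.LambdaStmt N) :
    LambdaStmt N p := by
  obtain ⟨lam, h1, h2, -, h4⟩ := h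
  exact ⟨lam p, fun ψ => h1 p ψ, fun ψ hψ => h2 p ψ hp hψ,
    fun ℓ hℓ hℓN _ ψ => (h4 p ℓ hℓ hℓN ψ).symm⟩

/-- **[RES-EIG], operator-free form.** From `Plan.LambdaStmt N`: the eigensystem of a normalised
eigenform, reduced along `φ : ℤ̄ → k` (`char k = p`), occurs in `k ⊗ J₀(N)[p]`, for all primes
`ℓ ∤ N` and every endomorphism `τ` of `J₀(N)[p]` restricting `T^alg_ℓ`. -/
theorem resEig_of_plan (N : ℕ) [NeZero N] (p : ℕ) [Fact p.Prime] (hlam : Plan.LambdaStmt N)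
    {g : CuspForm (Gamma0 N) 2} (hg : g.IsNormalizedEigenform)
    {k : Type*} [Field k] [Algebra (ZMod p) k] (φ : integralClosure ℤ ℂ →+* k) :
    ∃ x : k ⊗[ZMod p] Jtors N p, x ≠ 0 ∧
      ∀ (ℓ : ℕ) (hℓ : ℓ.Prime) (_hℓN : ¬ ℓ ∣ N) (a : integralClosure ℤ ℂ),
        (a : ℂ) = ModularFormClass.qCoeff g ℓ →
        ∀ τ : Module.End (ZMod p) (Jtors N p),
          (∀ y : Jtors N p, ((τ y : Jtors N p) : JZero N) =
            heckeOperatorBar N ⟨ℓ, hℓ⟩ (y : JZero N)) →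
          τ.baseChange k x = φ a • x := by
  classical
  obtain ⟨lam, h1, h2, -, h4⟩ := hlam
  have hp : 0 < p := (Fact.out : p.Prime).pos
  let S : Set ℕ := {q | q.Prime ∧ q ∣ N}
  have hNS : ∀ q : ℕ, q.Prime → q ∣ N → q ∈ S := fun q hq hqN => ⟨hq, hqN⟩
  haveI : Module.Finite ℤ (CuspForm.heckeAlgebra N 2 S) := Fermat.Agent.S22.result N 2 S
  haveI : Module.Finite ℤ ↥(Per.Lat N) := Per.lat_finite N
  let lamV : ↥(Per.Lat N) →+ Jtors N p :=
    AddMonoidHom.codRestrict (lam p)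
      (Pic0.torsion (AlgebraicClosure ℚ) (modularFunctionFieldBar N) p)
      (fun ψ => mem_torsion_of_nsmul (h1 p ψ))
  have hlamV : ∀ ψ, ((lamV ψ : Jtors N p) : JZero N) = lam p ψ := fun _ => rfl
  have hker : ∀ ψ, lamV ψ = 0 → ∃ ψ' : ↥(Per.Lat N), ψ = p • ψ' := by
    intro ψ hψ
    apply h2 p ψ hp
    rw [← hlamV, hψ]
    rfl
  obtain ⟨x, hx, hev⟩ := Fermat.Agent.Lib.ResidualEigen.exists_eigenvector_tensor
    (Per.heckeAct N S hNS) (Per.heckeAct_injective N S hNS) p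
    (φ.comp (eigenCharInt hg S)) lamV hker
  refine ⟨x, hx, ?_⟩
  intro ℓ hℓ hℓN a ha τ hτ
  have hℓS : ℓ ∉ S := fun h => hℓN h.2
  have h5 := hev (CuspForm.heckeAlgebra.T hℓ hℓN hℓS) τ (by
    intro ψ
    have h6 : (Per.heckeAct N S hNS (CuspForm.heckeAlgebra.T hℓ hℓN hℓS)) ψ =
        Per.tcohL N hℓ hℓN ψ := by
      apply Subtype.ext
      rw [Per.heckeAct_T, Per.coe_tcohL]
    rw [h6]
    apply Subtype.ext
    rw [hτ, hlamV, hlamV, h4 p ℓ hℓ hℓN ψ])
  rw [h5]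
  congr 1
  show φ (eigenCharInt hg S (CuspForm.heckeAlgebra.T hℓ hℓN hℓS)) = φ a
  congr 1
  apply Subtype.ext
  rw [coe_eigenCharInt, G9.EigenHom.eigenChar_T, ha]

end Fermat.Agent.P5.ResEig
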