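/-
P5, residual route (helper11): THEOREM B.

A nonzero finite-dimensional `k[G_ℚ]`-module `W` (`k` algebraically closed of characteristic `p`)
with finite image, unramified outside `S ∋ p`, on which every Frobenius lift `σ` at every
`ℓ ∉ S` satisfies `σ² - a_ℓ σ + ℓ = 0`, yields a two-dimensional `ResidualGaloisRep k`, unramified
outside `S`, with `charpoly (ρ σ) = X² - a_ℓ X + ℓ` for every Frobenius lift at every `ℓ ∉ S`.

Inputs: weak Chebotarev (`WeakChebLift.WeakChebStmt`, as a hypothesis), the cyclotomic character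
(`CycloDelta`), and the pure algebra of `Lib/FrobB/Quad`.
-/
import Mathlib
import Fermat.Prelude.Def_GaloisRep_Residual
import Fermat.Agent.Lib.FrobB.Quad
import Fermat.Agent.P5.CycloDelta
import Fermat.Agent.P5.WeakChebLift

set_option autoImplicit false

namespace Fermat.Agent.P5.Residual

open Polynomial
open Fermat.Agent.Lib.FrobB
open Fermat.Agent.P5.CycloDelta (GQ)
open Fermat.Agent.P5.WeakChebLift (WeakChebStmt)

section

variable (k : Type) [Field k] (p : ℕ) [Fact p.Prime] [CharP k p]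

/-- The ring homomorphism `ℤ_p → k` for a field `k` of characteristic `p`. -/
noncomputable def charHom : ℤ_[p] →+* k :=
  (ZMod.castHom (dvd_refl p) k).comp PadicInt.toZMod

/-- The mod `p` cyclotomic character with values in `k`. -/
noncomputable def delta : GQ →* kˣ := CycloDelta.deltaOf (charHom k p)

theorem delta_frob {ℓ : ℕ} (hℓ : ℓ.Prime) (hℓp : ℓ ≠ p)
    (A : ValuationSubring (AlgebraicClosure ℚ)) (hA : A.LiesOverPrime ℓ) (σ : GQ)
    (hσ : A.IsFrobeniusAt σ ℓ) : ((delta k p σ : kˣ) : k) = (ℓ : k) :=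
  CycloDelta.deltaOf_frob (charHom k p) hℓ hℓp A hA σ hσ

theorem delta_inertia {q : ℕ} (hq : q.Prime) (hqp : q ≠ p)
    (A : ValuationSubring (AlgebraicClosure ℚ)) (hA : A.LiesOverPrime q) (σ : GQ)
    (hσ : σ ∈ A.inertiaSubgroupIn ℚ) : delta k p σ = 1 :=
  CycloDelta.deltaOf_inertia (charHom k p) hq hqp A hA σ hσ

theorem delta_eq_one_of_fix (g : GQ) (hg : ∀ x ∈ CycloDelta.level p 1, g x = x) :
    delta k p g = 1 := by
  have hp : (p : k) ∈ (⊥ : Ideal k) := by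
    rw [Ideal.mem_bot]; exact CharP.cast_eq_zero k p
  have := CycloDelta.deltaOf_sub_one_mem (charHom k p) (⊥ : Ideal k) hp 1 g hg
  rw [pow_one, Ideal.mem_bot, sub_eq_zero] at this
  exact Units.ext this

end

/-- **Theorem B.** -/
theorem exists_residual (hG4 : WeakChebStmt) {k : Type} [Field k] [IsAlgClosed k] (p : ℕ)
    [Fact p.Prime] [CharP k p] (S : Finset ℕ) (hpS : p ∈ S)
    (W : Type) [AddCommGroup W] [Module k W] [FiniteDimensional k W] [Nontrivial W]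
    (ρW : GQ →* Module.End k W) (hfin : GaloisFactorsThroughFiniteLevel ρW) (a : ℕ → k)
    (hunr : ∀ ℓ : ℕ, ℓ.Prime → ℓ ∉ S → ∀ A : ValuationSubring (AlgebraicClosure ℚ),
      A.LiesOverPrime ℓ → ∀ σ ∈ A.inertiaSubgroupIn ℚ, ρW σ = 1)
    (hES : ∀ ℓ : ℕ, ℓ.Prime → ℓ ∉ S → ∀ A : ValuationSubring (AlgebraicClosure ℚ),
      A.LiesOverPrime ℓ → ∀ σ : GQ, A.IsFrobeniusAt σ ℓ →
        ρW σ * ρW σ - a ℓ • ρW σ + (ℓ : k) • (1 : Module.End k W) = 0) :
    ∃ ρ : ResidualGaloisRep k,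
      (∀ ℓ : ℕ, ℓ.Prime → ℓ ∉ S → ∀ A : ValuationSubring (AlgebraicClosure ℚ),
        A.LiesOverPrime ℓ → ∀ σ : GQ, A.IsFrobeniusAt σ ℓ →
          LinearMap.charpoly (ρ.ρ σ) = X ^ 2 - C (a ℓ) * X + C ((ℓ : k))) ∧
      ∀ ℓ : ℕ, ℓ.Prime → ℓ ∉ S → ρ.IsUnramifiedAt ℓ := by
  classical
  obtain ⟨L1, hL1fin, hL1⟩ := hfin
  set δ : GQ →* kˣ := delta k p with hδ
  -- the finite level
  let L2 : IntermediateField ℚ (AlgebraicClosure ℚ) := L1 ⊔ CycloDelta.level p 1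
  have hL2fin : FiniteDimensional ℚ L2 := IntermediateField.finiteDimensional_sup L1 _
  let M : IntermediateField ℚ (AlgebraicClosure ℚ) :=
    IntermediateField.normalClosure ℚ L2 (AlgebraicClosure ℚ)
  have hMfin : FiniteDimensional ℚ M := normalClosure.is_finiteDimensional ℚ L2 _
  have hMnormal : Normal ℚ M := normalClosure.normal ℚ L2 _
  have hMgal : IsGalois ℚ M := ⟨⟩
  have hL2M : L2 ≤ M := IntermediateField.le_normalClosure L2
  have hL1M : L1 ≤ M := le_sup_left.trans hL2M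
  have hlevM : CycloDelta.level p 1 ≤ M := le_sup_right.trans hL2M
  -- triviality on the stabiliser of `L2`
  have htrivL2 : ∀ τ : GQ, (∀ x ∈ L2, τ x = x) → ρW τ = 1 ∧ δ τ = 1 := by
    intro τ hτ
    exact ⟨hL1 τ fun x hx => hτ x ((le_sup_left : L1 ≤ L2) hx),
      delta_eq_one_of_fix k p τ fun x hx => hτ x ((le_sup_right : _ ≤ L2) hx)⟩
  have hagree : ∀ g h : GQ, (∀ x ∈ M, g x = h x) → ρW g = ρW h ∧ δ g = δ h := by
    intro g h hgh
    have hτ : ∀ x ∈ L2, (h⁻¹ * g) x = x := by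
      intro x hx
      rw [AlgEquiv.mul_apply, hgh x (hL2M hx)]
      exact h.symm_apply_apply x
    obtain ⟨h1, h2⟩ := htrivL2 _ hτ
    have e : g = h * (h⁻¹ * g) := by group
    constructor
    · rw [e, map_mul, h1, mul_one]
    · rw [e, map_mul, h2, mul_one]
  -- the Frobenius relation
  have hfrob : ∀ ℓ : ℕ, ℓ.Prime → ℓ ∉ S → ∀ A : ValuationSubring (AlgebraicClosure ℚ),
      A.LiesOverPrime ℓ → ∀ σ : GQ, A.IsFrobeniusAt σ ℓ →
        ρW σ + ((δ σ : kˣ) : k) • ρW σ⁻¹ = a ℓ • (1 : Module.End k W) := by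
    intro ℓ hℓ hℓS A hA σ hσ
    have hℓp : ℓ ≠ p := fun h => hℓS (h ▸ hpS)
    rw [hδ, delta_frob k p hℓ hℓp A hA σ hσ]
    have h1 := congrArg (fun x => x * ρW σ⁻¹) (hES ℓ hℓ hℓS A hA σ hσ)
    simp only [add_mul, sub_mul, mul_assoc, Quad.mul_inv_eq_one, mul_one, smul_mul_assoc,
      one_mul, zero_mul] at h1
    rw [← sub_eq_zero, ← h1]
    abel
  -- every element satisfies the relation
  have hall : ∀ g : GQ, ∃ t : k, ρW g + ((δ g : kˣ) : k) • ρW g⁻¹ = t • (1 : Module.End k W) := by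
    intro g
    obtain ⟨ℓ, hℓ, hℓS, A, hA, σ, hσ, j, hj⟩ := hG4 M g S
    obtain ⟨h1, h2⟩ := hagree g (σ ^ j) (fun x hx => (hj x hx).symm)
    obtain ⟨b, hb⟩ := Quad.exists_pow_add_pow (ρW σ) (ρW σ⁻¹) (Quad.mul_inv_eq_one ρW σ)
      (Quad.inv_mul_eq_one ρW σ) ((δ σ : kˣ) : k) (a ℓ) (hfrob ℓ hℓ hℓS A hA σ hσ) j
    refine ⟨b, ?_⟩
    have h3 : ρW g⁻¹ = ρW σ⁻¹ ^ j := by
      refine left_inv_eq_right_inv (Quad.inv_mul_eq_one ρW g) ?_
      have hc : Commute (ρW σ) (ρW σ⁻¹) := by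
        rw [Commute, SemiconjBy, Quad.mul_inv_eq_one, Quad.inv_mul_eq_one]
      rw [h1, map_pow, ← hc.mul_pow, Quad.mul_inv_eq_one, one_pow]
    rw [h3, h1, h2, map_pow, map_pow, Units.val_pow_eq_pow_val]
    exact hb
  choose t ht using hall
  have hrel : Quad.Rel ρW δ t := ht
  obtain ⟨Mat, hMat1, hMatc⟩ := Quad.exists_matrix_rep ρW δ t hrel
  -- the value of `t` at a Frobenius
  have hinj : ∀ x y : k, x • (1 : Module.End k W) = y • 1 → x = y := by
    intro x y hxy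
    obtain ⟨w, hw⟩ := exists_ne (0 : W)
    have := congrArg (fun f : Module.End k W => f w) hxy
    simp only [LinearMap.smul_apply, Module.End.one_apply] at this
    exact smul_left_injective k hw this
  let e : Matrix (Fin 2) (Fin 2) k ≃ₐ[k] Module.End k (Fin 2 → k) := Matrix.toLinAlgEquiv'
  let ρ : ResidualGaloisRep k :=
    { V := Fin 2 → k
      finrank_eq := by simp
      ρ := (e.toAlgHom : Matrix (Fin 2) (Fin 2) k →* Module.End k (Fin 2 → k)).comp Mat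
      factorsThroughFiniteLevel := by
        refine ⟨L2, hL2fin, fun σ hσ => ?_⟩
        obtain ⟨h1, h2⟩ := htrivL2 σ hσ
        show e (Mat σ) = 1
        rw [hMat1 σ h1 h2, map_one] }
  have hρ : ∀ σ : GQ, ρ.ρ σ = Matrix.toLin' (Mat σ) := fun σ => rfl
  refine ⟨ρ, ?_, ?_⟩
  · intro ℓ hℓ hℓS A hA σ hσ
    have hℓp : ℓ ≠ p := fun h => hℓS (h ▸ hpS)
    rw [hρ, Matrix.charpoly_toLin', hMatc σ]
    have h1 : t σ = a ℓ := hinj _ _ ((ht σ).symm.trans (hfrob ℓ hℓ hℓS A hA σ hσ))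
    rw [h1, hδ, delta_frob k p hℓ hℓp A hA σ hσ]
  · intro ℓ hℓ hℓS A hA σ hσ
    have hℓp : ℓ ≠ p := fun h => hℓS (h ▸ hpS)
    show e (Mat σ) = 1
    rw [hMat1 σ (hunr ℓ hℓ hℓS A hA σ hσ) (delta_inertia k p hℓ hℓp A hA σ hσ), map_one]

end Fermat.Agent.P5.Residual
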