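/-
P5, residual route (helper11): THEOREM B, eigenvector form.

`V` is any `k[G_ℚ]`-module with open stabilisers (e.g. `k ⊗ J₀(N)[p]`), `T ℓ` are commuting
"Hecke" endomorphisms commuting with Galois, inertia outside `S` acts trivially, Frobenius lifts
at `ℓ ∉ S` satisfy `σ² - T_ℓ σ + ℓ = 0` on `V`, and `x ≠ 0` is an eigenvector `T ℓ x = a ℓ • x`.
Then there is a `ResidualGaloisRep k`, unramified outside `S`, with
`charpoly (ρ σ) = X² - a_ℓ X + ℓ` at all Frobenius lifts at `ℓ ∉ S`.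
The module `W` of `Residual.exists_residual` is the span of the Galois orbit of `x`.
-/
import Mathlib
import Fermat.Agent.P5.Residual

set_option autoImplicit false

namespace Fermat.Agent.P5.Residual

open Polynomial
open Fermat.Agent.Lib.FrobB
open Fermat.Agent.P5.CycloDelta (GQ)
open Fermat.Agent.P5.WeakChebLift (WeakChebStmt)

/-- A vector with open stabiliser has a finite Galois orbit. -/
theorem finite_orbit {k : Type*} [Field k] {V : Type*} [AddCommGroup V] [Module k V]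
    (ρV : GQ →* Module.End k V) (x : V) (M : IntermediateField ℚ (AlgebraicClosure ℚ))
    [FiniteDimensional ℚ M] (hM : ∀ σ : GQ, (∀ y ∈ M, σ y = y) → ρV σ x = x) :
    (Set.range fun σ : GQ => ρV σ x).Finite := by
  classical
  let res : GQ → (M →ₐ[ℚ] AlgebraicClosure ℚ) := fun σ => (σ : AlgebraicClosure ℚ →ₐ[ℚ] _).comp M.val
  have hres : ∀ σ τ : GQ, res σ = res τ → ρV σ x = ρV τ x := by
    intro σ τ h
    have h1 : ∀ y ∈ M, (τ⁻¹ * σ) y = y := by
      intro y hy
      have h3 : σ y = τ y := congrArg (fun f : M →ₐ[ℚ] AlgebraicClosure ℚ => f ⟨y, hy⟩) h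
      rw [AlgEquiv.mul_apply, h3]
      exact τ.symm_apply_apply y
    have h2 := hM _ h1
    have e : σ = τ * (τ⁻¹ * σ) := by group
    rw [e, map_mul, Module.End.mul_apply, h2]
  let F : (M →ₐ[ℚ] AlgebraicClosure ℚ) → V := fun r =>
    if h : ∃ σ, res σ = r then ρV h.choose x else 0
  refine (Set.finite_range F).subset ?_
  rintro _ ⟨σ, rfl⟩
  refine ⟨res σ, ?_⟩
  have h : ∃ τ, res τ = res σ := ⟨σ, rfl⟩
  simp only [F, dif_pos h]
  exact hres _ _ h.choose_spec

/-- **Theorem B, eigenvector form.** -/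
theorem exists_residual_of_eigen (hG4 : WeakChebStmt) {k : Type} [Field k] [IsAlgClosed k]
    (p : ℕ) [Fact p.Prime] [CharP k p] (S : Finset ℕ) (hpS : p ∈ S)
    (V : Type) [AddCommGroup V] [Module k V] (ρV : GQ →* Module.End k V)
    (hopen : ∀ v : V, ∃ M : IntermediateField ℚ (AlgebraicClosure ℚ), FiniteDimensional ℚ M ∧
      ∀ σ : GQ, (∀ y ∈ M, σ y = y) → ρV σ v = v)
    (T : ℕ → Module.End k V)
    (hTρ : ∀ ℓ : ℕ, ℓ.Prime → ℓ ∉ S → ∀ σ : GQ, T ℓ * ρV σ = ρV σ * T ℓ)
    (hunr : ∀ ℓ : ℕ, ℓ.Prime → ℓ ∉ S → ∀ A : ValuationSubring (AlgebraicClosure ℚ),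
      A.LiesOverPrime ℓ → ∀ σ ∈ A.inertiaSubgroupIn ℚ, ρV σ = 1)
    (hES : ∀ ℓ : ℕ, ℓ.Prime → ℓ ∉ S → ∀ A : ValuationSubring (AlgebraicClosure ℚ),
      A.LiesOverPrime ℓ → ∀ σ : GQ, A.IsFrobeniusAt σ ℓ →
        ρV σ * ρV σ - T ℓ * ρV σ + (ℓ : k) • (1 : Module.End k V) = 0)
    (a : ℕ → k) (x : V) (hx : x ≠ 0) (hTx : ∀ ℓ : ℕ, ℓ.Prime → ℓ ∉ S → T ℓ x = a ℓ • x) :
    ∃ ρ : ResidualGaloisRep k,
      (∀ ℓ : ℕ, ℓ.Prime → ℓ ∉ S → ∀ A : ValuationSubring (AlgebraicClosure ℚ),
        A.LiesOverPrime ℓ → ∀ σ : GQ, A.IsFrobeniusAt σ ℓ →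
          LinearMap.charpoly (ρ.ρ σ) = X ^ 2 - C (a ℓ) * X + C ((ℓ : k))) ∧
      ∀ ℓ : ℕ, ℓ.Prime → ℓ ∉ S → ρ.IsUnramifiedAt ℓ := by
  classical
  obtain ⟨M0, hM0fin, hM0⟩ := hopen x
  let W : Submodule k V := Submodule.span k (Set.range fun σ : GQ => ρV σ x)
  have hxW : x ∈ W := Submodule.subset_span ⟨1, by simp⟩
  have hinv : ∀ g : GQ, ∀ w ∈ W, ρV g w ∈ W := by
    intro g w hw
    induction hw using Submodule.span_induction with
    | mem w hw =>
      obtain ⟨g', rfl⟩ := hw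
      refine Submodule.subset_span ⟨g * g', ?_⟩
      simp [map_mul]
    | zero => simp
    | add w w' _ _ hw hw' => rw [map_add]; exact add_mem hw hw'
    | smul c w _ hw => rw [map_smul]; exact Submodule.smul_mem _ c hw
  have hWfin : FiniteDimensional k W :=
    FiniteDimensional.span_of_finite k (finite_orbit ρV x M0 hM0)
  have hWnt : Nontrivial W := ⟨⟨⟨x, hxW⟩, 0, fun h => hx (congrArg Subtype.val h)⟩⟩
  -- eigen-equation on all of `W`
  have hTW : ∀ ℓ : ℕ, ℓ.Prime → ℓ ∉ S → ∀ w ∈ W, T ℓ w = a ℓ • w := by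
    intro ℓ hℓ hℓS w hw
    induction hw using Submodule.span_induction with
    | mem w hw =>
      obtain ⟨g, rfl⟩ := hw
      have h1 := congrArg (fun f : Module.End k V => f x) (hTρ ℓ hℓ hℓS g)
      simp only [Module.End.mul_apply] at h1
      rw [h1, hTx ℓ hℓ hℓS, map_smul]
    | zero => simp
    | add w w' _ _ hw hw' => rw [map_add, hw, hw', smul_add]
    | smul c w _ hw => rw [map_smul, hw, smul_comm]
  let ρW : GQ →* Module.End k W := Quad.restr ρV W hinv
  -- finite level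
  have hfin : GaloisFactorsThroughFiniteLevel ρW := by
    let M1 : IntermediateField ℚ (AlgebraicClosure ℚ) :=
      IntermediateField.normalClosure ℚ M0 (AlgebraicClosure ℚ)
    have hM1fin : FiniteDimensional ℚ M1 := normalClosure.is_finiteDimensional ℚ M0 _
    have hM1normal : Normal ℚ M1 := normalClosure.normal ℚ M0 _
    have hM0M1 : M0 ≤ M1 := IntermediateField.le_normalClosure M0
    refine ⟨M1, hM1fin, fun τ hτ => ?_⟩
    have hstab : ∀ σ : GQ, ∀ y ∈ M1, σ y ∈ M1 := by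
      intro σ y hy
      have := hM1normal
      exact (IntermediateField.normal_iff_forall_map_le'.mp this σ) ⟨y, hy, rfl⟩
    have hfix : ∀ w ∈ W, ρV τ w = w := by
      intro w hw
      induction hw using Submodule.span_induction with
      | mem w hw =>
        obtain ⟨σ, rfl⟩ := hw
        have h1 : ∀ y ∈ M0, (σ⁻¹ * τ * σ) y = y := by
          intro y hy
          rw [AlgEquiv.mul_apply, AlgEquiv.mul_apply, hτ _ (hstab σ y (hM0M1 hy))]
          exact σ.symm_apply_apply y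
        have h2 := hM0 _ h1
        have e : τ * σ = σ * (σ⁻¹ * τ * σ) := by group
        rw [← Module.End.mul_apply, ← map_mul, e, map_mul, Module.End.mul_apply, h2]
      | zero => simp
      | add w w' _ _ hw hw' => rw [map_add, hw, hw']
      | smul c w _ hw => rw [map_smul, hw]
    ext w
    exact hfix w w.2
  refine exists_residual hG4 p S hpS W ρW hfin a ?_ ?_
  · intro ℓ hℓ hℓS A hA σ hσ
    ext w
    show ρV σ w = w
    rw [hunr ℓ hℓ hℓS A hA σ hσ]
    rfl
  · intro ℓ hℓ hℓS A hA σ hσ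
    ext w
    have h1 := congrArg (fun f : Module.End k V => f (w : V)) (hES ℓ hℓ hℓS A hA σ hσ)
    simp only [LinearMap.add_apply, LinearMap.sub_apply, Module.End.mul_apply,
      LinearMap.smul_apply, Module.End.one_apply, LinearMap.zero_apply] at h1
    rw [hTW ℓ hℓ hℓS _ (hinv σ w w.2)] at h1
    simpa [ρW, Quad.restr_apply] using h1

end Fermat.Agent.P5.Residual
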