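/-
P5, residual route (helper11): THEOREM B, base-change form.

`J` is a `ZMod p`-module with a `G_ℚ`-action with open stabilisers (think `J₀(N)[p]`), `TJ ℓ` are
`ZMod p`-linear "Hecke" endomorphisms commuting with Galois, inertia outside `S` acts trivially,
Frobenius lifts at `ℓ ∉ S` satisfy `σ² - T_ℓ σ + ℓ = 0` on `J`, and `x ≠ 0` in `k ⊗ J` is an
eigenvector of all `(TJ ℓ).baseChange k` with eigenvalues `a ℓ`.  Then there is a
`ResidualGaloisRep k`, unramified outside `S`, with `charpoly (ρ σ) = X² - a_ℓ X + ℓ` at all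
Frobenius lifts at `ℓ ∉ S`.
-/
import Mathlib
import Fermat.Agent.P5.ResidualOrbit

set_option autoImplicit false

namespace Fermat.Agent.P5.Residual

open Polynomial TensorProduct
open Fermat.Agent.P5.CycloDelta (GQ)
open Fermat.Agent.P5.WeakChebLift (WeakChebStmt)

/-- Base change of a representation (as a monoid homomorphism). -/
noncomputable def baseChangeRep {R : Type*} [CommRing R] (k : Type*) [Field k] [Algebra R k]
    {G : Type*} [Group G] {J : Type*} [AddCommGroup J] [Module R J]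
    (ρJ : G →* Module.End R J) : G →* Module.End k (k ⊗[R] J) where
  toFun σ := (ρJ σ).baseChange k
  map_one' := by rw [map_one, LinearMap.baseChange_one]
  map_mul' σ τ := by rw [map_mul, LinearMap.baseChange_mul]

theorem baseChangeRep_apply {R : Type*} [CommRing R] (k : Type*) [Field k] [Algebra R k]
    {G : Type*} [Group G] {J : Type*} [AddCommGroup J] [Module R J]
    (ρJ : G →* Module.End R J) (σ : G) : baseChangeRep k ρJ σ = (ρJ σ).baseChange k := rfl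

/-- **Theorem B, base-change form.** -/
theorem exists_residual_of_tensor (hG4 : WeakChebStmt) {k : Type} [Field k] [IsAlgClosed k]
    (p : ℕ) [Fact p.Prime] [CharP k p] [Algebra (ZMod p) k] (S : Finset ℕ) (hpS : p ∈ S)
    (J : Type) [AddCommGroup J] [Module (ZMod p) J] (ρJ : GQ →* Module.End (ZMod p) J)
    (hopen : ∀ y : J, ∃ M : IntermediateField ℚ (AlgebraicClosure ℚ), FiniteDimensional ℚ M ∧
      ∀ σ : GQ, (∀ z ∈ M, σ z = z) → ρJ σ y = y)
    (TJ : ℕ → Module.End (ZMod p) J)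
    (hTρ : ∀ ℓ : ℕ, ℓ.Prime → ℓ ∉ S → ∀ σ : GQ, TJ ℓ * ρJ σ = ρJ σ * TJ ℓ)
    (hunr : ∀ ℓ : ℕ, ℓ.Prime → ℓ ∉ S → ∀ A : ValuationSubring (AlgebraicClosure ℚ),
      A.LiesOverPrime ℓ → ∀ σ ∈ A.inertiaSubgroupIn ℚ, ρJ σ = 1)
    (hES : ∀ ℓ : ℕ, ℓ.Prime → ℓ ∉ S → ∀ A : ValuationSubring (AlgebraicClosure ℚ),
      A.LiesOverPrime ℓ → ∀ σ : GQ, A.IsFrobeniusAt σ ℓ →
        ρJ σ * ρJ σ - TJ ℓ * ρJ σ + (ℓ : ZMod p) • (1 : Module.End (ZMod p) J) = 0)
    (a : ℕ → k) (x : k ⊗[ZMod p] J) (hx : x ≠ 0)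
    (hTx : ∀ ℓ : ℕ, ℓ.Prime → ℓ ∉ S → (TJ ℓ).baseChange k x = a ℓ • x) :
    ∃ ρ : ResidualGaloisRep k,
      (∀ ℓ : ℕ, ℓ.Prime → ℓ ∉ S → ∀ A : ValuationSubring (AlgebraicClosure ℚ),
        A.LiesOverPrime ℓ → ∀ σ : GQ, A.IsFrobeniusAt σ ℓ →
          LinearMap.charpoly (ρ.ρ σ) = X ^ 2 - C (a ℓ) * X + C ((ℓ : k))) ∧
      ∀ ℓ : ℕ, ℓ.Prime → ℓ ∉ S → ρ.IsUnramifiedAt ℓ := by
  classical
  refine exists_residual_of_eigen hG4 p S hpS (k ⊗[ZMod p] J) (baseChangeRep k ρJ) ?_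
    (fun ℓ => (TJ ℓ).baseChange k) ?_ ?_ ?_ a x hx hTx
  · -- open stabilisers
    intro v
    induction v using TensorProduct.induction_on with
    | zero => exact ⟨⊥, inferInstance, fun σ _ => map_zero _⟩
    | tmul c y =>
      obtain ⟨M, hM, hMy⟩ := hopen y
      refine ⟨M, hM, fun σ hσ => ?_⟩
      rw [baseChangeRep_apply, LinearMap.baseChange_tmul, hMy σ hσ]
    | add v w hv hw =>
      obtain ⟨M1, hM1, h1⟩ := hv
      obtain ⟨M2, hM2, h2⟩ := hw
      refine ⟨M1 ⊔ M2, IntermediateField.finiteDimensional_sup M1 M2, fun σ hσ => ?_⟩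
      rw [map_add, h1 σ fun z hz => hσ z ((le_sup_left : M1 ≤ M1 ⊔ M2) hz),
        h2 σ fun z hz => hσ z ((le_sup_right : M2 ≤ M1 ⊔ M2) hz)]
  · intro ℓ hℓ hℓS σ
    rw [baseChangeRep_apply, ← LinearMap.baseChange_mul, ← LinearMap.baseChange_mul,
      hTρ ℓ hℓ hℓS σ]
  · intro ℓ hℓ hℓS A hA σ hσ
    rw [baseChangeRep_apply, hunr ℓ hℓ hℓS A hA σ hσ, LinearMap.baseChange_one]
  · intro ℓ hℓ hℓS A hA σ hσ
    have h1 := congrArg (fun f : Module.End (ZMod p) J => f.baseChange k)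
      (hES ℓ hℓ hℓS A hA σ hσ)
    simp only [LinearMap.baseChange_add, LinearMap.baseChange_sub, LinearMap.baseChange_mul,
      LinearMap.baseChange_zero] at h1
    have h2 : ((ℓ : ZMod p) • (1 : Module.End (ZMod p) J)).baseChange k =
        (ℓ : k) • (1 : Module.End k (k ⊗[ZMod p] J)) := by
      rw [Nat.cast_smul_eq_nsmul, Nat.cast_smul_eq_nsmul]
      apply TensorProduct.AlgebraTensorModule.ext
      intro c y
      rw [LinearMap.baseChange_tmul]
      simp only [LinearMap.smul_apply, Module.End.one_apply]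
      rw [TensorProduct.tmul_smul]
    rw [h2] at h1
    rw [baseChangeRep_apply]
    exact h1

end Fermat.Agent.P5.Residual
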