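/-
P5, residual route (helper11): the block contract `Plan.ResidualBlock`.

For `N > 0` and a prime `p`, from
* `Plan.LambdaStmt N`   (the Kummer/Eisenstein map `lam p : Lat N → J₀(N)[p]` with kernel `p Lat N`,
  Hecke-equivariant),
* `S37.Core.CoreAll N p` (inertia trivial + Eichler--Shimura on `J₀(N)[p^∞]` at `ℓ ∤ N p`),
* `WeakChebStmt`        (weak Chebotarev),
we get the frozen statement S29 at `(N, p)`: for every normalised eigenform `g` of level `N` and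
every `φ : ℤ̄ → k` with `char k = p`, a two-dimensional residual representation attached to
`(g, φ)`, unramified outside `N p`.

Proof: `k₀ := ℤ̄ ⧸ ker φ` is algebraically closed of characteristic `p`; the eigencharacter of `g`
reduced modulo `ker φ` occurs in `k₀ ⊗ J₀(N)[p]` (`ResEig.resEig_of_plan`, helper59, from
`Lib.ResidualEigen.exists_eigenvector_tensor`); Theorem B (`exists_residual_of_tensor`) produces the representation over `k₀`, which
is then base-changed to `k`.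
-/
import Mathlib
import Fermat.Agent.P5.Plan
import Fermat.Agent.P5.ResidualTensor
import Fermat.Agent.P5.OpenStabRep
import Fermat.Agent.P5.GalHecke
import Fermat.Agent.P5.G9.Top
import Fermat.Agent.P5.ResEigPlan

set_option autoImplicit false
set_option linter.style.haveILetI false

namespace Fermat.Agent.P5.Residual

open Polynomial TensorProduct ModularCurve CuspForm AlgebraicCurve
open Fermat.Agent.P5.CycloDelta (GQ)
open Fermat.Agent.P5.WeakChebLift (WeakChebStmt)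

section TorsionHecke

variable (N : ℕ) [NeZero N] (p : ℕ)

/-- `J₀(N)[p]`. -/
abbrev Jtors : Type := ↥(Pic0.torsion (AlgebraicClosure ℚ) (modularFunctionFieldBar N) p)

/-- The Hecke operator `T_ℓ` restricted to the `p`-torsion, as an additive map. -/
noncomputable def torsionHeckeAdd (ℓ : Nat.Primes) : Jtors N p →+ Jtors N p where
  toFun x := ⟨heckeOperatorBar N ℓ (x : JZero N), by
    rw [Pic0.mem_torsion, ← map_zsmul, Pic0.mem_torsion.mp x.2, map_zero]⟩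
  map_zero' := Subtype.ext (map_zero _)
  map_add' x y := Subtype.ext (map_add _ _ _)

/-- The Hecke operator `T_ℓ` restricted to the `p`-torsion (`0` if `ℓ` is not prime). -/
noncomputable def torsionHecke (ℓ : ℕ) : Module.End (ZMod p) (Jtors N p) :=
  if hℓ : ℓ.Prime then (torsionHeckeAdd N p ⟨ℓ, hℓ⟩).toZModLinearMap p else 0

theorem coe_torsionHecke {ℓ : ℕ} (hℓ : ℓ.Prime) (x : Jtors N p) :
    ((torsionHecke N p ℓ x : Jtors N p) : JZero N) = heckeOperatorBar N ⟨ℓ, hℓ⟩ (x : JZero N) := by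
  rw [torsionHecke, dif_pos hℓ]
  rfl

omit [NeZero N] in
theorem pow_one_nsmul_coe_eq_zero (x : Jtors N p) : p ^ 1 • (x : JZero N) = 0 := by
  rw [pow_one, ← natCast_zsmul]
  exact Pic0.mem_torsion.mp x.2

/-- The restricted Hecke operators commute with the Galois action ([G2]). -/
theorem torsionHecke_mul_galois {ℓ : ℕ} (hℓ : ℓ.Prime) (σ : GQ) :
    torsionHecke N p ℓ * JZero.torsionGaloisRep N p σ =
      JZero.torsionGaloisRep N p σ * torsionHecke N p ℓ := by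
  refine LinearMap.ext fun y => Subtype.ext ?_
  show ((torsionHecke N p ℓ (JZero.torsionGaloisRep N p σ y) : Jtors N p) : JZero N) =
    σ • ((torsionHecke N p ℓ y : Jtors N p) : JZero N)
  rw [coe_torsionHecke N p hℓ, coe_torsionHecke N p hℓ]
  exact (GalHecke.galois_smul_heckeOperatorBar N ⟨ℓ, hℓ⟩ σ _).symm

omit [NeZero N] in
/-- An element acting trivially on the `p`-power torsion acts trivially on `J₀(N)[p]`. -/
theorem torsionGaloisRep_eq_one {σ : GQ}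
    (h : ∀ x : JZero N, (∃ n : ℕ, p ^ n • x = 0) → σ • x = x) :
    JZero.torsionGaloisRep N p σ = 1 := by
  refine LinearMap.ext fun y => Subtype.ext ?_
  exact h _ ⟨1, pow_one_nsmul_coe_eq_zero N p y⟩

/-- The Eichler--Shimura relation on the `p`-power torsion, as an identity of endomorphisms of
`J₀(N)[p]`. -/
theorem torsion_eichlerShimura {ℓ : ℕ} (hℓ : ℓ.Prime) {σ : GQ}
    (h : ∀ x : JZero N, (∃ n : ℕ, p ^ n • x = 0) →
      σ • σ • x - heckeOperatorBar N ⟨ℓ, hℓ⟩ (σ • x) + ℓ • x = 0) :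
    JZero.torsionGaloisRep N p σ * JZero.torsionGaloisRep N p σ -
      torsionHecke N p ℓ * JZero.torsionGaloisRep N p σ +
        (ℓ : ZMod p) • (1 : Module.End (ZMod p) (Jtors N p)) = 0 := by
  rw [Nat.cast_smul_eq_nsmul (ZMod p) ℓ (1 : Module.End (ZMod p) (Jtors N p))]
  refine LinearMap.ext fun y => Subtype.ext ?_
  have h1 := h _ ⟨1, pow_one_nsmul_coe_eq_zero N p y⟩
  have e1 : ((torsionHecke N p ℓ (JZero.torsionGaloisRep N p σ y) : Jtors N p) : JZero N) =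
      heckeOperatorBar N ⟨ℓ, hℓ⟩ (σ • (y : JZero N)) := coe_torsionHecke N p hℓ _
  show σ • σ • (y : JZero N) -
    ((torsionHecke N p ℓ (JZero.torsionGaloisRep N p σ y) : Jtors N p) : JZero N) +
      ℓ • (y : JZero N) = 0
  exact (congrArg (fun t => σ • σ • (y : JZero N) - t + ℓ • (y : JZero N)) e1).trans h1

end TorsionHecke

/-- **The residual eigenvector.**  The eigencharacter of a normalised eigenform `g` of level `N`,
reduced along `φ : ℤ̄ → k` (`char k = p`), occurs in `k ⊗ J₀(N)[p]`. -/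
theorem exists_torsion_eigenvector (N : ℕ) [NeZero N] (p : ℕ) [Fact p.Prime]
    (hlam : Plan.LambdaStmt N)
    {g : CuspForm (CongruenceSubgroup.Gamma0 N) 2} (hg : g.IsNormalizedEigenform)
    {k : Type} [Field k] [Algebra (ZMod p) k] (φ : integralClosure ℤ ℂ →+* k) :
    ∃ x : k ⊗[ZMod p] Jtors N p, x ≠ 0 ∧
      ∀ ℓ : ℕ, ℓ.Prime → ¬ ℓ ∣ N →
        ∃ a : integralClosure ℤ ℂ, (a : ℂ) = ModularFormClass.qCoeff g ℓ ∧
          (torsionHecke N p ℓ).baseChange k x = φ a • x := by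
  obtain ⟨x, hx, hxe⟩ := ResEig.resEig_of_plan N p hlam hg φ
  refine ⟨x, hx, fun ℓ hℓ hℓN => ?_⟩
  have hℓS : ℓ ∉ (∅ : Set ℕ) := Set.notMem_empty ℓ
  have ha : ((ResEig.eigenCharInt hg ∅ (CuspForm.heckeAlgebra.T hℓ hℓN hℓS) :
      integralClosure ℤ ℂ) : ℂ) = ModularFormClass.qCoeff g ℓ := by
    rw [ResEig.coe_eigenCharInt, G9.EigenHom.eigenChar_T]
  exact ⟨_, ha, hxe ℓ hℓ hℓN _ ha (torsionHecke N p ℓ) fun y => coe_torsionHecke N p hℓ y⟩

/-- **S29 over an algebraically closed field.**  For `k₀` algebraically closed of characteristic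
`p` and `φ₀ : ℤ̄ → k₀`: a residual representation over `k₀` with the Frobenius characteristic
polynomials `X² - φ₀(a_ℓ) X + ℓ` at `ℓ ∤ N p`, unramified outside `N p`. -/
theorem exists_residual_algClosed (N : ℕ) [NeZero N] (p : ℕ) (hp : p.Prime)
    (hlam : Plan.LambdaStmt N) (hcore : Fermat.Agent.S37.Core.CoreAll N p) (hcheb : WeakChebStmt)
    {g : CuspForm (CongruenceSubgroup.Gamma0 N) 2} (hg : g.IsNormalizedEigenform)
    {k₀ : Type} [Field k₀] [IsAlgClosed k₀] [CharP k₀ p] (φ₀ : integralClosure ℤ ℂ →+* k₀) :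
    ∃ ρ₀ : ResidualGaloisRep k₀,
      (∀ ℓ : ℕ, ℓ.Prime → ¬ ℓ ∣ N → ℓ ≠ p →
        ∀ A : ValuationSubring (AlgebraicClosure ℚ), A.LiesOverPrime ℓ →
          ∀ σ : GQ, A.IsFrobeniusAt σ ℓ →
            ∃ a : integralClosure ℤ ℂ, (a : ℂ) = ModularFormClass.qCoeff g ℓ ∧
              LinearMap.charpoly (ρ₀.ρ σ) = X ^ 2 - C (φ₀ a) * X + C ((ℓ : k₀))) ∧
      ∀ ℓ : ℕ, ℓ.Prime → ¬ ℓ ∣ N → ℓ ≠ p → ρ₀.IsUnramifiedAt ℓ := by
  classical
  haveI : Fact p.Prime := ⟨hp⟩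
  letI : Algebra (ZMod p) k₀ := ZMod.algebra k₀ p
  obtain ⟨x, hx, hxe⟩ := exists_torsion_eigenvector N p hlam hg φ₀
  -- the set of bad primes
  set S : Finset ℕ := insert p N.primeFactors with hS
  have hpS : p ∈ S := Finset.mem_insert_self _ _
  have hS1 : ∀ ℓ : ℕ, ℓ.Prime → ℓ ∉ S → ¬ ℓ ∣ N := fun ℓ hℓ hℓS hℓN =>
    hℓS (Finset.mem_insert_of_mem (Nat.mem_primeFactors.mpr ⟨hℓ, hℓN, NeZero.ne N⟩))
  have hS2 : ∀ ℓ : ℕ, ℓ ∉ S → ℓ ≠ p := fun ℓ hℓS h => hℓS (h ▸ hpS)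
  have hS3 : ∀ ℓ : ℕ, ℓ.Prime → ℓ ∉ S → ¬ ℓ ∣ N * p := fun ℓ hℓ hℓS h => by
    rcases (Nat.Prime.dvd_mul hℓ).mp h with h | h
    · exact hS1 ℓ hℓ hℓS h
    · exact hS2 ℓ hℓS ((Nat.prime_dvd_prime_iff_eq hℓ hp).mp h)
  have hS4 : ∀ ℓ : ℕ, ¬ ℓ ∣ N → ℓ ≠ p → ℓ ∉ S := fun ℓ hℓN hℓp h => by
    rcases Finset.mem_insert.mp h with h | h
    · exact hℓp h
    · exact hℓN (Nat.dvd_of_mem_primeFactors h)
  -- the eigenvalues
  let a : ℕ → k₀ := fun ℓ =>
    if h : ℓ.Prime ∧ ¬ ℓ ∣ N then φ₀ (hxe ℓ h.1 h.2).choose else 0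
  have ha : ∀ (ℓ : ℕ) (hℓ : ℓ.Prime) (hℓN : ¬ ℓ ∣ N), a ℓ = φ₀ (hxe ℓ hℓ hℓN).choose :=
    fun ℓ hℓ hℓN => dif_pos ⟨hℓ, hℓN⟩
  -- the hypotheses of Theorem B
  have hTρ : ∀ ℓ : ℕ, ℓ.Prime → ℓ ∉ S → ∀ σ : GQ,
      torsionHecke N p ℓ * JZero.torsionGaloisRep N p σ =
        JZero.torsionGaloisRep N p σ * torsionHecke N p ℓ :=
    fun ℓ hℓ _ σ => torsionHecke_mul_galois N p hℓ σ
  have hunr : ∀ ℓ : ℕ, ℓ.Prime → ℓ ∉ S → ∀ A : ValuationSubring (AlgebraicClosure ℚ),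
      A.LiesOverPrime ℓ → ∀ σ ∈ A.inertiaSubgroupIn ℚ, JZero.torsionGaloisRep N p σ = 1 :=
    fun ℓ hℓ hℓS A hA σ hσ =>
      torsionGaloisRep_eq_one N p ((hcore ℓ hℓ (hS3 ℓ hℓ hℓS) A hA).1 σ hσ)
  have hES : ∀ ℓ : ℕ, ℓ.Prime → ℓ ∉ S → ∀ A : ValuationSubring (AlgebraicClosure ℚ),
      A.LiesOverPrime ℓ → ∀ σ : GQ, A.IsFrobeniusAt σ ℓ →
        JZero.torsionGaloisRep N p σ * JZero.torsionGaloisRep N p σ -
          torsionHecke N p ℓ * JZero.torsionGaloisRep N p σ +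
            (ℓ : ZMod p) • (1 : Module.End (ZMod p) (Jtors N p)) = 0 :=
    fun ℓ hℓ hℓS A hA σ hσ =>
      torsion_eichlerShimura N p hℓ ((hcore ℓ hℓ (hS3 ℓ hℓ hℓS) A hA).2 σ hσ)
  have hTx : ∀ ℓ : ℕ, ℓ.Prime → ℓ ∉ S → (torsionHecke N p ℓ).baseChange k₀ x = a ℓ • x := by
    intro ℓ hℓ hℓS
    rw [ha ℓ hℓ (hS1 ℓ hℓ hℓS)]
    exact (hxe ℓ hℓ (hS1 ℓ hℓ hℓS)).choose_spec.2
  obtain ⟨ρ₀, hρ₀char, hρ₀unr⟩ := exists_residual_of_tensor hcheb p S hpS (Jtors N p)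
    (JZero.torsionGaloisRep N p) (OpenStabRep.hasOpenStab_torsionGaloisRep N p)
    (torsionHecke N p) hTρ hunr hES a x hx hTx
  refine ⟨ρ₀, ?_, ?_⟩
  · intro ℓ hℓ hℓN hℓp A hA σ hσ
    refine ⟨(hxe ℓ hℓ hℓN).choose, (hxe ℓ hℓ hℓN).choose_spec.1, ?_⟩
    rw [hρ₀char ℓ hℓ (hS4 ℓ hℓN hℓp) A hA σ hσ, ha ℓ hℓ hℓN]
  · intro ℓ hℓ hℓN hℓp
    exact hρ₀unr ℓ hℓ (hS4 ℓ hℓN hℓp)

/-- **The residual block** (`Plan.ResidualBlock`, verbatim): S29 at level `N > 0` and the prime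
`p` from `LambdaStmt N`, `CoreAll N p` and weak Chebotarev. -/
theorem residualBlock : Plan.ResidualBlock := by
  intro N _ p hp hlam hcore hcheb g hg k _ _ φ
  -- the algebraically closed residue field `k₀ = ℤ̄ ⧸ ker φ`
  haveI hmax : (RingHom.ker φ).IsMaximal := G9.ker_isMaximal hp φ
  letI : Field (integralClosure ℤ ℂ ⧸ RingHom.ker φ) := Ideal.Quotient.field _
  haveI : IsAlgClosed (integralClosure ℤ ℂ ⧸ RingHom.ker φ) :=
    G9.isAlgClosed_quotient_integralClosure _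
  haveI : CharP (integralClosure ℤ ℂ ⧸ RingHom.ker φ) p :=
    RingHom.charP (RingHom.kerLift φ) (RingHom.kerLift_injective φ) p
  obtain ⟨ρ₀, hρ₀char, hρ₀unr⟩ := exists_residual_algClosed N p hp hlam hcore hcheb hg
    (Ideal.Quotient.mk (RingHom.ker φ))
  -- base change to `k`
  letI : Algebra (integralClosure ℤ ℂ ⧸ RingHom.ker φ) k := (RingHom.kerLift φ).toAlgebra
  refine ⟨ρ₀.baseChange k, ?_, ?_⟩
  · intro ℓ hℓ hℓN hℓk A hA σ hσ
    have hℓp : ℓ ≠ p := fun h => hℓk (by rw [h]; exact CharP.cast_eq_zero k p)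
    obtain ⟨a, ha, hchar⟩ := hρ₀char ℓ hℓ hℓN hℓp A hA σ hσ
    refine ⟨a, ha, ?_⟩
    rw [G9.charpoly_resBaseChange, hchar, Polynomial.map_add,
      Polynomial.map_sub, Polynomial.map_mul, Polynomial.map_pow, Polynomial.map_X,
      Polynomial.map_C, Polynomial.map_C, map_natCast]
    rfl
  · intro ℓ hℓ hℓNp A hA σ hσ
    have hℓN : ¬ ℓ ∣ N := fun h => hℓNp (Dvd.dvd.mul_right h p)
    have hℓp : ℓ ≠ p := fun h => hℓNp (h ▸ Dvd.intro_left N rfl)
    exact G9.resBaseChange_eq_one _ σ (hρ₀unr ℓ hℓ hℓN hℓp A hA σ hσ)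

end Fermat.Agent.P5.Residual
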